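import Fermat.Agent.S24.H21_Iota

/-!
# W7 (S42/S29), package [KUM] (helper12): base change of the modular function field

For fields `K`, `L` of characteristic zero and `φ : K →+* L`:

* `h12_coeffMap_mem_AK`, `h12_coeffMap_mem_FK` : the coefficientwise map `coeffMap φ` maps
  `K[j_d : d ∣ N]` into `L[j_d : d ∣ N]` and `F_K = K(j_d : d ∣ N)` into `F_L`;
* `baseA φ N : AK K N →+* AK L N`, `baseF φ N : FK K N →+* FK L N` : the base change maps;
* `iota_baseF` : for `e : K →+* ℂ`: `iota (RingHom.id ℂ) (baseF e N f) = iota e f` (the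
  meromorphic function attached to `f` only depends on the `q`-expansion over `ℂ`).
-/

set_option autoImplicit false
set_option linter.unusedSectionVars false

open ModularCurve UpperHalfPlane
open Fermat.Agent.S24.Mer Fermat.Agent.S24.Real

noncomputable section

namespace Fermat.Agent.S42x.Kum.H12

section Base

variable {K L : Type*} [Field K] [Field L] [Algebra ℚ K] [Algebra ℚ L] (φ : K →+* L)

theorem h12_coeffMap_algebraMap (a : K) :
    coeffMap φ (algebraMap K (LaurentSeries K) a) = algebraMap L (LaurentSeries L) (φ a) := by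
  rw [algebraMap_laurentSeries_eq_single, algebraMap_laurentSeries_eq_single, coeffMap_single]

theorem h12_coeffMap_coeffEmb (y : LaurentSeries ℚ) :
    coeffMap φ (coeffEmb K y) = coeffEmb L y := by
  rw [coeffEmb, coeffMap_coeffMap]
  exact coeffMap_congr (Subsingleton.elim _ _) y

theorem h12_coeffMap_injective : Function.Injective (coeffMap φ) := by
  intro x y hxy
  ext k
  have := congrArg (fun s => HahnSeries.coeff s k) hxy
  simp only [coeffMap_coeff] at this
  exact φ.injective this

theorem h12_coeffMap_mem_AK (N : ℕ) {x : LaurentSeries K} (hx : x ∈ AK K N) :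
    coeffMap φ x ∈ AK L N := by
  induction hx using Algebra.adjoin_induction with
  | mem x hx =>
    obtain ⟨y, hy, rfl⟩ := hx
    rw [h12_coeffMap_coeffEmb]
    exact Algebra.subset_adjoin ⟨y, hy, rfl⟩
  | algebraMap a =>
    rw [h12_coeffMap_algebraMap]
    exact Subalgebra.algebraMap_mem _ _
  | add x y _ _ hx hy => rw [map_add]; exact add_mem hx hy
  | mul x y _ _ hx hy => rw [map_mul]; exact mul_mem hx hy

theorem h12_coeffMap_mem_FK (N : ℕ) {x : LaurentSeries K} (hx : x ∈ FK K N) :
    coeffMap φ x ∈ FK L N := by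
  change x ∈ IntermediateField.adjoin K
    (⇑(coeffEmb K) '' ((modularFunctionFieldFull N : IntermediateField ℚ (LaurentSeries ℚ)) :
      Set (LaurentSeries ℚ))) at hx
  induction hx using IntermediateField.adjoin_induction with
  | mem y hy =>
    obtain ⟨z, hz, rfl⟩ := hy
    rw [h12_coeffMap_coeffEmb]
    exact coeffEmb_mem_laurentBaseChange L hz
  | algebraMap c =>
    rw [h12_coeffMap_algebraMap]
    exact IntermediateField.algebraMap_mem _ _
  | add x y _ _ hx hy => rw [map_add]; exact add_mem hx hy
  | mul x y _ _ hx hy => rw [map_mul]; exact mul_mem hx hy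
  | inv x _ hx => rw [map_inv₀]; exact inv_mem hx

/-- base change `K[j_d : d ∣ N] → L[j_d : d ∣ N]`. -/
def baseA (N : ℕ) : AK K N →+* AK L N :=
  ((coeffMap φ).comp (AK K N).toSubring.subtype).codRestrict (AK L N).toSubring
    (fun x => h12_coeffMap_mem_AK φ N x.2)

@[simp]
theorem coe_baseA (N : ℕ) (a : AK K N) :
    ((baseA φ N a : AK L N) : LaurentSeries L) = coeffMap φ (a : LaurentSeries K) := rfl

/-- base change `F_K → F_L`. -/
def baseF (N : ℕ) : FK K N →+* FK L N :=
  ((coeffMap φ).comp (FK K N).toSubfield.subtype).codRestrict (FK L N).toSubfield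
    (fun x => h12_coeffMap_mem_FK φ N x.2)

@[simp]
theorem coe_baseF (N : ℕ) (f : FK K N) :
    ((baseF φ N f : FK L N) : LaurentSeries L) = coeffMap φ (f : LaurentSeries K) := rfl

theorem baseF_injective (N : ℕ) : Function.Injective (baseF φ N) := by
  intro x y hxy
  apply Subtype.ext
  apply h12_coeffMap_injective φ
  have := congrArg (fun t : FK L N => (t : LaurentSeries L)) hxy
  simpa using this

theorem baseF_algebraMap (N : ℕ) (a : K) :
    baseF φ N (algebraMap K (FK K N) a) = algebraMap L (FK L N) (φ a) := by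
  apply Subtype.ext
  rw [coe_baseF]
  exact h12_coeffMap_algebraMap φ a

theorem baseF_inclAK (N : ℕ) (a : AK K N) :
    baseF φ N (inclAK K N a) = inclAK L N (baseA φ N a) := by
  apply Subtype.ext
  rfl

end Base

section Iota

variable {K : Type*} [Field K] [Algebra ℚ K] (e : K →+* ℂ) {N : ℕ}

theorem rho_baseA (a : AK K N) : rho (RingHom.id ℂ) (baseA e N a) = rho e a := by
  have h1 := isModReal_rho (RingHom.id ℂ) (baseA e N a)
  have h2 := isModReal_rho e a
  rw [coe_baseA, coeffMap_id] at h1
  exact h1.unique_fun h2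

theorem rhoH_baseA (a : AK K N) : rhoH (RingHom.id ℂ) (baseA e N a) = rhoH e a :=
  Subtype.ext (rho_baseA e a)

/-- the meromorphic function attached to `f` only depends on its `q`-expansion over `ℂ`. -/
theorem iota_baseF (f : FK K N) : iota (RingHom.id ℂ) (baseF e N f) = iota e f := by
  obtain ⟨a, b, hb, hab⟩ := exists_frac f
  have hb' : baseA e N b ≠ 0 := by
    intro h0
    apply hb
    apply Subtype.ext
    apply h12_coeffMap_injective e
    have := congrArg (fun t : AK ℂ N => (t : LaurentSeries ℂ)) h0
    simpa using this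
  have hab' : baseF e N f * inclAK ℂ N (baseA e N b) = inclAK ℂ N (baseA e N a) := by
    rw [← baseF_inclAK, ← baseF_inclAK, ← map_mul, hab]
  rw [iota_eq_div _ _ _ _ hb' hab', iota_eq_div e f a b hb hab, rhoH_baseA, rhoH_baseA]

end Iota

end Fermat.Agent.S42x.Kum.H12
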