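import Mathlib
import Fermat.Agent.S24.H13_LinDisjoint
import Fermat.Agent.S24.H13_Gen

/-!
# W7 (LD) (helper21): the modular function field is defined over the small field

For a homomorphism of fields `e : K →+* L` (characteristic `0`) and a Laurent series `y` over
`K`: if `coeffMap e y` lies in the modular function field over `L`, then `y` lies in the modular
function field over `K`. In other words `F_L ∩ e(K)((q)) = base (F_K)`.

The proof is the usual linear disjointness argument: `coeffMap e y = a / b` with `a`, `b` in the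
`L`-span of the monomials in the generators `j(q ^ d)`; normalising one coefficient of `b` to
`1`, the relation `y * b = a` exhibits `y * m₀` as an `L`-linear combination of series defined
over `K`, and such a relation descends to `K` (`S24.LD.mem_span_of_coeffMap_mem_span`).
-/

set_option autoImplicit false
set_option linter.unusedSectionVars false

open ModularCurve Fermat.Agent.S24.LD

noncomputable section

namespace Fermat.Agent.S42x.Kum.H21

variable {K L : Type*} [Field K] [Field L]

/-- Elements of the span of a translate `y * T` are of the form `y * w`, `w ∈ span T`. -/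
theorem h21_mem_span_mul_image (y : LaurentSeries K) (T : Set (LaurentSeries K))
    (v : LaurentSeries K) (hv : v ∈ Submodule.span K ((fun m => y * m) '' T)) :
    ∃ w ∈ Submodule.span K T, v = y * w := by
  induction hv using Submodule.span_induction with
  | mem x hx =>
    obtain ⟨m, hm, rfl⟩ := hx
    exact ⟨m, Submodule.subset_span hm, rfl⟩
  | zero => exact ⟨0, Submodule.zero_mem _, (mul_zero y).symm⟩
  | add x z _ _ hx hz =>
    obtain ⟨w, hw, rfl⟩ := hx
    obtain ⟨w', hw', rfl⟩ := hz
    exact ⟨w + w', Submodule.add_mem _ hw hw', (mul_add _ _ _).symm⟩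
  | smul c x _ hx =>
    obtain ⟨w, hw, rfl⟩ := hx
    refine ⟨c • w, Submodule.smul_mem _ _ hw, ?_⟩
    rw [mul_comm y (c • w), smul_mul_assoc', mul_comm w y]

/-- **Descent of fractions**: if `coeffMap e y * b = a` with `a`, `b ≠ 0` in the `L`-span of
`coeffMap e '' S`, then `y * b₀ = a₀` with `a₀`, `b₀ ≠ 0` in the `K`-span of `S`. -/
theorem h21_descent_frac (e : K →+* L) (S : Set (LaurentSeries K)) (y : LaurentSeries K)
    (a b : LaurentSeries L)
    (ha : a ∈ Submodule.span L (coeffMap e '' S)) (hb : b ∈ Submodule.span L (coeffMap e '' S))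
    (hb0 : b ≠ 0) (h : coeffMap e y * b = a) :
    ∃ a₀ ∈ Submodule.span K S, ∃ b₀ ∈ Submodule.span K S, b₀ ≠ 0 ∧ y * b₀ = a₀ := by
  classical
  obtain ⟨bs, hbS, hbspan, hbind⟩ := exists_linearIndependent K S
  have hle : Submodule.span L (coeffMap e '' S) ≤ Submodule.span L (coeffMap e '' bs) := by
    rw [Submodule.span_le]
    rintro _ ⟨x, hx, rfl⟩
    refine coeffMap_mem_span e ?_
    rw [hbspan]
    exact Submodule.subset_span hx
  obtain ⟨t, htbs, c, hc⟩ := (Submodule.mem_span_image_iff_exists_fun L).mp (hle hb)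
  have hex : ∃ i₀ : t, c i₀ ≠ 0 := by
    by_contra hcon
    push Not at hcon
    apply hb0
    rw [← hc]
    exact Finset.sum_eq_zero (fun i _ => by rw [hcon i, zero_smul])
  obtain ⟨i₀, hi₀⟩ := hex
  set T : Set (LaurentSeries K) := ((t.erase i₀.1 : Finset (LaurentSeries K)) :
    Set (LaurentSeries K)) with hT
  have hTt : T ⊆ (t : Set (LaurentSeries K)) := by
    intro m hm
    exact Finset.mem_of_mem_erase (Finset.mem_coe.mp hm)
  -- the relation after multiplication by `y`
  have hsum : a = ∑ i : t, c i • coeffMap e (y * i.1) := by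
    rw [← h, ← hc, Finset.mul_sum]
    refine Finset.sum_congr rfl fun i _ => ?_
    rw [map_mul, mul_comm (coeffMap e y) (c i • _), smul_mul_assoc', mul_comm]
  have hsplit : a = c i₀ • coeffMap e (y * i₀.1) +
      ∑ i ∈ Finset.univ.erase i₀, c i • coeffMap e (y * i.1) := by
    rw [hsum]
    exact (Finset.add_sum_erase Finset.univ (fun i : t => c i • coeffMap e (y * i.1))
      (Finset.mem_univ i₀)).symm
  have hmem : coeffMap e (y * i₀.1) ∈
      Submodule.span L (coeffMap e '' (S ∪ (fun m => y * m) '' T)) := by
    have h1 : coeffMap e (y * i₀.1) = (c i₀)⁻¹ • (a -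
        ∑ i ∈ Finset.univ.erase i₀, c i • coeffMap e (y * i.1)) := by
      rw [hsplit, add_sub_cancel_right, smul_smul, inv_mul_cancel₀ hi₀, one_smul]
    rw [h1]
    refine Submodule.smul_mem _ _ (Submodule.sub_mem _ ?_ ?_)
    · exact Submodule.span_mono (Set.image_mono Set.subset_union_left) ha
    · refine Submodule.sum_mem _ fun i hi => Submodule.smul_mem _ _ ?_
      refine Submodule.subset_span ⟨y * i.1, Or.inr ⟨i.1, ?_, rfl⟩, rfl⟩
      rw [hT, Finset.mem_coe, Finset.mem_erase]
      refine ⟨fun hne => ?_, i.2⟩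
      exact (Finset.ne_of_mem_erase hi) (Subtype.ext hne)
  have hK := mem_span_of_coeffMap_mem_span e hmem
  rw [Submodule.span_union, Submodule.mem_sup] at hK
  obtain ⟨u, hu, v, hv, huv⟩ := hK
  obtain ⟨w, hw, rfl⟩ := h21_mem_span_mul_image y T v hv
  have hTS : T ⊆ S := fun m hm => hbS (htbs (hTt hm))
  refine ⟨u, hu, i₀.1 - w, ?_, ?_, ?_⟩
  · exact Submodule.sub_mem _ (Submodule.subset_span (hbS (htbs i₀.2)))
      (Submodule.span_mono hTS hw)
  · intro h0
    have hiw : (i₀.1 : LaurentSeries K) = w := sub_eq_zero.mp h0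
    have hnot := hbind.notMem_span_image (s := {z : bs | z.1 ∈ T})
      (x := ⟨i₀.1, htbs i₀.2⟩) (by
        intro hmem'
        have : (i₀.1 : LaurentSeries K) ∈ T := hmem'
        rw [hT, Finset.mem_coe] at this
        exact (Finset.notMem_erase _ _) this)
    apply hnot
    have hsub : T ⊆ (Subtype.val '' {z : bs | z.1 ∈ T}) := by
      intro m hm
      exact ⟨⟨m, htbs (hTt hm)⟩, hm, rfl⟩
    show (i₀.1 : LaurentSeries K) ∈ _
    rw [hiw]
    exact Submodule.span_mono hsub hw
  · rw [mul_sub, ← huv, add_sub_cancel_right]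

variable [Algebra ℚ K] [Algebra ℚ L]

theorem h21_coeffMap_coeffEmb (e : K →+* L) (x : LaurentSeries ℚ) :
    coeffMap e (coeffEmb K x) = coeffEmb L x := by
  rw [coeffEmb, coeffMap_coeffMap]
  exact coeffMap_congr (RingHom.ext_rat _ _) x

theorem h21_genSet_eq (e : K →+* L) (N : ℕ) :
    genSet L N = coeffMap e '' genSet K N := by
  unfold genSet
  rw [Set.image_image]
  exact Set.image_congr fun x _ => (h21_coeffMap_coeffEmb e x).symm

/-- The `K`-algebra generated by the `j(q ^ d)`, as a coefficientwise span of monomials. -/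
theorem h21_mem_adjoin_iff (N : ℕ) (z : LaurentSeries K) :
    z ∈ Algebra.adjoin K (genSet K N) ↔
      z ∈ Submodule.span K (Submonoid.closure (genSet K N) : Set (LaurentSeries K)) := by
  rw [← mem_span_algebra_iff, ← Algebra.adjoin_eq_span]
  exact Iff.rfl

/-- **(LD)** `F_L ∩ e(K)((q)) = base (F_K)`: a Laurent series over `K` whose extension of
coefficients is a modular function over `L` is a modular function over `K`. -/
theorem h21_mem_of_coeffMap_mem (e : K →+* L) (N : ℕ) (y : LaurentSeries K)
    (hy : coeffMap e y ∈ laurentBaseChange L (modularFunctionFieldFull N)) :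
    y ∈ laurentBaseChange K (modularFunctionFieldFull N) := by
  obtain ⟨a, ha, b, hb, hb0, hab⟩ := exists_div_of_mem_laurentBaseChange_full L N hy
  have himg : (Submonoid.closure (genSet L N) : Set (LaurentSeries L)) =
      coeffMap e '' (Submonoid.closure (genSet K N) : Set (LaurentSeries K)) := by
    rw [h21_genSet_eq e N, ← MonoidHom.map_mclosure]
    rfl
  have hspan : ∀ z ∈ Algebra.adjoin L (genSet L N), z ∈ Submodule.span L
      (coeffMap e '' (Submonoid.closure (genSet K N) : Set (LaurentSeries K))) := by
    intro z hz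
    rw [← himg]
    exact (h21_mem_adjoin_iff N z).mp hz
  obtain ⟨a₀, ha₀, b₀, hb₀, hb₀0, h0⟩ :=
    h21_descent_frac e _ y a b (hspan a ha) (hspan b hb) hb0 hab
  have hback : ∀ z ∈ Submodule.span K (Submonoid.closure (genSet K N) : Set (LaurentSeries K)),
      z ∈ laurentBaseChange K (modularFunctionFieldFull N) := fun z hz =>
    algebra_adjoin_le_laurentBaseChange_full K N ((h21_mem_adjoin_iff N z).mpr hz)
  have hyab : y = a₀ / b₀ := eq_div_of_mul_eq hb₀0 h0
  rw [hyab]
  exact div_mem (hback _ ha₀) (hback _ hb₀)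

/-- Conversely, extension of the coefficients maps `F_K` into `F_L`. -/
theorem h21_coeffMap_mem (e : K →+* L) (N : ℕ) (y : LaurentSeries K)
    (hy : y ∈ laurentBaseChange K (modularFunctionFieldFull N)) :
    coeffMap e y ∈ laurentBaseChange L (modularFunctionFieldFull N) := by
  rw [mem_laurentBaseChange_iff] at hy
  induction hy using Subfield.closure_induction with
  | mem z hz =>
    rcases hz with ⟨c, rfl⟩ | ⟨x, hx, rfl⟩
    · rw [coeffMap_algebraMap']
      exact (laurentBaseChange L _).algebraMap_mem _
    · rw [h21_coeffMap_coeffEmb]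
      exact coeffEmb_mem_laurentBaseChange L hx
  | one => rw [map_one]; exact one_mem _
  | add x z _ _ hx hz => rw [map_add]; exact add_mem hx hz
  | neg x _ hx => rw [map_neg]; exact neg_mem hx
  | inv x _ hx => rw [map_inv₀]; exact inv_mem hx
  | mul x z _ _ hx hz => rw [map_mul]; exact mul_mem hx hz

end Fermat.Agent.S42x.Kum.H21
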