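import Mathlib
import Fermat.Agent.S42x.Kum.H21_LD
import Fermat.Agent.S42x.Desc.H19_Aut

/-!
# W7 (R8) (helper21): descent of `p`-th roots from `F_ℂ` to `F_ℚ̄`

Let `K` be algebraically closed, `Ω` an algebraically closed field of characteristic `0` and
`e : K →+* Ω`. If a Laurent series `h` over `Ω` has a `p`-th power with coefficients in `e(K)`,
then `h` itself has coefficients in `e(K)`:

* the leading coefficient `c` of `h` is algebraic over `K`, hence lies in `e(K)`;
* for `σ ∈ Aut(Ω / e(K))`, `u = σ̃(h) / h` satisfies `u ^ p = 1` and has leading coefficient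
  `σ(c) / c = 1`, hence `u = 1`;
* so every coefficient of `h` is fixed by `Aut(Ω / e(K))`, hence algebraic over `K`
  (helper19), hence in `e(K)`.

Together with **(LD)** this gives **(R8)**: a `p`-th root in `F_ℂ` of an element of `F_ℚ̄` lies
in `F_ℚ̄`.
-/

set_option autoImplicit false
set_option linter.unusedSectionVars false
set_option linter.style.haveILetI false

open ModularCurve Fermat.Agent.S24.LD

noncomputable section

namespace Fermat.Agent.S42x.Kum.H21

section Series

variable {R : Type*} [Field R]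

theorem h21_leadingCoeff_pow (x : LaurentSeries R) (n : ℕ) :
    (x ^ n).leadingCoeff = x.leadingCoeff ^ n := by
  induction n with
  | zero => rw [pow_zero, pow_zero, HahnSeries.leadingCoeff_one]
  | succ n ih => rw [pow_succ, pow_succ, HahnSeries.leadingCoeff_mul, ih]

theorem h21_leadingCoeff_inv (x : LaurentSeries R) (hx : x ≠ 0) :
    (x⁻¹).leadingCoeff = (x.leadingCoeff)⁻¹ := by
  have h1 : (x * x⁻¹).leadingCoeff = 1 := by
    rw [mul_inv_cancel₀ hx, HahnSeries.leadingCoeff_one]
  rw [HahnSeries.leadingCoeff_mul] at h1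
  exact eq_inv_of_mul_eq_one_right h1

/-- A `p`-th root of `1` with leading coefficient `1` is `1` (characteristic `0`). -/
theorem h21_eq_one_of_pow_eq_one [CharZero R] (p : ℕ) (hp : p ≠ 0) (u : LaurentSeries R)
    (hu : u ^ p = 1) (hlc : u.leadingCoeff = 1) : u = 1 := by
  by_contra hne
  have hu0 : u ≠ 0 := by
    rintro rfl
    rw [zero_pow hp] at hu
    exact zero_ne_one hu
  have hord : u.order = 0 := by
    have h1 : (u ^ p).order = p • u.order := HahnSeries.order_pow u p
    rw [hu, HahnSeries.order_one] at h1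
    rcases smul_eq_zero.mp h1.symm with h | h
    · exact absurd h hp
    · exact h
  have hcoeff : ∀ i : ℕ, (u ^ i).coeff 0 = 1 := by
    intro i
    have h1 : (u ^ i).order = 0 := by rw [HahnSeries.order_pow, hord, smul_zero]
    have h2 : (u ^ i).leadingCoeff = 1 := by rw [h21_leadingCoeff_pow, hlc, one_pow]
    rw [HahnSeries.leadingCoeff_eq, h1] at h2
    exact h2
  have hgeom : (∑ i ∈ Finset.range p, u ^ i) * (u - 1) = 0 := by
    rw [geom_sum_mul, hu, sub_self]
  have hsum : (∑ i ∈ Finset.range p, u ^ i) = 0 := by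
    rcases mul_eq_zero.mp hgeom with h | h
    · exact h
    · exact absurd (sub_eq_zero.mp h) hne
  have h0 := congrArg (fun x : LaurentSeries R => x.coeff 0) hsum
  simp only [coeff_sum', hcoeff, Finset.sum_const, Finset.card_range, nsmul_eq_mul, mul_one,
    HahnSeries.coeff_zero] at h0
  exact hp (by exact_mod_cast h0)

variable {S : Type*} [Field S]

theorem h21_coeffMap_ne_zero (φ : R →+* S) {x : LaurentSeries R} (hx : x ≠ 0) :
    coeffMap φ x ≠ 0 := fun h => hx (coeffMap_injective φ (h.trans (map_zero _).symm))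

theorem h21_order_coeffMap (φ : R →+* S) (x : LaurentSeries R) :
    (coeffMap φ x).order = x.order := by
  by_cases hx : x = 0
  · rw [hx, map_zero, HahnSeries.order_zero, HahnSeries.order_zero]
  · have hx' := h21_coeffMap_ne_zero φ hx
    apply le_antisymm
    · apply HahnSeries.order_le_of_coeff_ne_zero
      rw [coeffMap_coeff]
      intro h
      exact (HahnSeries.coeff_order_eq_zero.not.mpr hx) (φ.injective (h.trans (map_zero φ).symm))
    · apply HahnSeries.order_le_of_coeff_ne_zero
      intro h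
      apply HahnSeries.coeff_order_eq_zero.not.mpr hx'
      rw [coeffMap_coeff, h, map_zero]

theorem h21_leadingCoeff_coeffMap (φ : R →+* S) (x : LaurentSeries R) :
    (coeffMap φ x).leadingCoeff = φ x.leadingCoeff := by
  rw [HahnSeries.leadingCoeff_eq, HahnSeries.leadingCoeff_eq, h21_order_coeffMap, coeffMap_coeff]

end Series

section Descent

variable {K Ω : Type*} [Field K] [IsAlgClosed K] [Field Ω] [Algebra K Ω]

/-- An element algebraic over an algebraically closed field lies in it. -/
theorem h21_mem_range_of_isIntegral (t : Ω) (ht : IsIntegral K t) :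
    t ∈ (algebraMap K Ω).range :=
  minpoly.degree_eq_one_iff.mp
    (IsAlgClosed.degree_eq_one_of_irreducible K (minpoly.irreducible ht))

variable [IsAlgClosed Ω] [CharZero Ω]

/-- Automorphisms over `K` fix a `p`-th root of a series defined over `K`. -/
theorem h21_coeffMap_aut_eq (p : ℕ) (hp : p ≠ 0) (f : LaurentSeries K) (h : LaurentSeries Ω)
    (hh : h ^ p = coeffMap (algebraMap K Ω) f) (σ : Ω ≃ₐ[K] Ω) :
    coeffMap (σ : Ω →+* Ω) h = h := by
  by_cases h0 : h = 0
  · rw [h0, map_zero]
  -- the leading coefficient of `h` lies in `K`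
  have hlc : h.leadingCoeff ^ p = algebraMap K Ω f.leadingCoeff := by
    rw [← h21_leadingCoeff_pow, hh, h21_leadingCoeff_coeffMap]
  have hint : IsIntegral K h.leadingCoeff :=
    IsIntegral.of_pow (Nat.pos_of_ne_zero hp) (hlc ▸ isIntegral_algebraMap)
  obtain ⟨c₀, hc₀⟩ := h21_mem_range_of_isIntegral h.leadingCoeff hint
  have hσc : σ h.leadingCoeff = h.leadingCoeff := by
    rw [← hc₀]
    exact σ.commutes c₀
  have hc0 : h.leadingCoeff ≠ 0 := HahnSeries.leadingCoeff_ne_zero.mpr h0
  -- the quotient `σ̃ h / h`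
  have hσf : coeffMap (σ : Ω →+* Ω) (coeffMap (algebraMap K Ω) f) =
      coeffMap (algebraMap K Ω) f := by
    rw [coeffMap_coeffMap]
    exact coeffMap_congr (RingHom.ext fun c => σ.commutes c) f
  have hpow : (coeffMap (σ : Ω →+* Ω) h * h⁻¹) ^ p = 1 := by
    rw [mul_pow, ← map_pow, hh, hσf, ← hh, inv_pow]
    exact mul_inv_cancel₀ (pow_ne_zero p h0)
  have hlc1 : (coeffMap (σ : Ω →+* Ω) h * h⁻¹).leadingCoeff = 1 := by
    rw [HahnSeries.leadingCoeff_mul, h21_leadingCoeff_coeffMap, h21_leadingCoeff_inv h h0]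
    show σ h.leadingCoeff * _ = 1
    rw [hσc]
    exact mul_inv_cancel₀ hc0
  have hone := h21_eq_one_of_pow_eq_one p hp _ hpow hlc1
  exact (mul_inv_eq_one₀ h0).mp hone

/-- **Descent of `p`-th roots of Laurent series** (`K` algebraically closed, `Ω` algebraically
closed of characteristic `0`): if `h ^ p` has coefficients in `K`, so has `h`. -/
theorem h21_series_root_descent (p : ℕ) (hp : p ≠ 0) (f : LaurentSeries K)
    (h : LaurentSeries Ω) (hh : h ^ p = coeffMap (algebraMap K Ω) f) :
    ∃ h₀ : LaurentSeries K, coeffMap (algebraMap K Ω) h₀ = h := by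
  have hcoe : ∀ n : ℤ, ∃ a : K, algebraMap K Ω a = h.coeff n := by
    intro n
    have hfix : ∀ σ ∈ (⊤ : Subgroup (Ω ≃ₐ[K] Ω)), σ (h.coeff n) = h.coeff n := by
      intro σ _
      have := congrArg (fun x : LaurentSeries Ω => x.coeff n) (h21_coeffMap_aut_eq p hp f h hh σ)
      simpa using this
    have halg := Fermat.Agent.S42x.Desc.H19.h19_isAlgebraic_of_subgroup
      (⊤ : Subgroup (Ω ≃ₐ[K] Ω)) (by rw [Subgroup.index_top]; exact one_ne_zero) (h.coeff n) hfix
    exact h21_mem_range_of_isIntegral _ halg.isIntegral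
  let r : ZeroHom Ω K :=
    { toFun := Function.invFun (algebraMap K Ω)
      map_zero' := by
        have := Function.leftInverse_invFun (algebraMap K Ω).injective (0 : K)
        rwa [map_zero] at this }
  refine ⟨h.map r, ?_⟩
  ext n
  rw [coeffMap_coeff, HahnSeries.map_coeff]
  exact Function.invFun_eq (hcoe n)

end Descent

/-- **(R8)**, generic form: for `e : K →+* Ω` (`K` algebraically closed, `Ω` algebraically closed
of characteristic `0`), a `p`-th root in `F_Ω` of an element of `F_K` comes from `F_K`. -/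
theorem h21_root_descent_gen {K Ω : Type*} [Field K] [IsAlgClosed K] [Field Ω] [IsAlgClosed Ω]
    [CharZero Ω] [Algebra ℚ K] [Algebra ℚ Ω] (N : ℕ) (p : ℕ) (hp : p ≠ 0) (e : K →+* Ω)
    (f : ↥(laurentBaseChange K (modularFunctionFieldFull N)))
    (h : ↥(laurentBaseChange Ω (modularFunctionFieldFull N)))
    (hh : (h : LaurentSeries Ω) ^ p = coeffMap e (f : LaurentSeries K)) :
    ∃ h₀ : ↥(laurentBaseChange K (modularFunctionFieldFull N)),
      coeffMap e (h₀ : LaurentSeries K) = (h : LaurentSeries Ω) ∧ h₀ ^ p = f := by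
  letI : Algebra K Ω := e.toAlgebra
  obtain ⟨y, hy⟩ := h21_series_root_descent (K := K) (Ω := Ω) p hp (f : LaurentSeries K)
    (h : LaurentSeries Ω) hh
  have hy' : coeffMap e y = (h : LaurentSeries Ω) := hy
  have hmem : y ∈ laurentBaseChange K (modularFunctionFieldFull N) :=
    h21_mem_of_coeffMap_mem e N y (hy'.symm ▸ h.2)
  refine ⟨⟨y, hmem⟩, hy', ?_⟩
  apply Subtype.ext
  apply coeffMap_injective e
  show coeffMap e (y ^ p) = coeffMap e (f : LaurentSeries K)
  rw [map_pow, hy', hh]

/-- **(R8)** a `p`-th root in `F_ℂ` of (the base change of) an element of `F_ℚ̄` is the base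
change of an element of `F_ℚ̄`. -/
theorem h21_root_descent (N : ℕ) [NeZero N] (p : ℕ) (hp : p ≠ 0)
    (e : AlgebraicClosure ℚ →+* ℂ) (f : ↥(modularFunctionFieldBar N))
    (h : ↥(laurentBaseChange ℂ (modularFunctionFieldFull N)))
    (hh : (h : LaurentSeries ℂ) ^ p = coeffMap e (f : LaurentSeries (AlgebraicClosure ℚ))) :
    ∃ h₀ : ↥(modularFunctionFieldBar N),
      coeffMap e (h₀ : LaurentSeries (AlgebraicClosure ℚ)) = (h : LaurentSeries ℂ) ∧
        h₀ ^ p = f :=
  h21_root_descent_gen N p hp e f h hh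

end Fermat.Agent.S42x.Kum.H21
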