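import Fermat.Agent.S20.H26_FunField
import Fermat.Agent.S20.H4_Integral
import Fermat.Agent.S24.H21_Iota

/-!
# W7 (B2b) [FUNFIELD] (helper21): weight-zero functions of moderate growth lie in the function
field

`F_ℂ = Real.FK ℂ N` is the prelude function field `ℂ(j_d : d ∣ N)`, `iota : F_ℂ →+* MerH` its
realisation by meromorphic functions on the upper half plane (`S24/H21_Iota`).

* `h21_mem_funField` : a holomorphic function on `ℍ`, invariant under `Γ₀(N)`, which becomes
  bounded at every cusp after multiplication by `Δ ^ n`, is `iota h` for some `h ∈ F_ℂ`.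

Proof: Lagrange interpolation in `j_N` over the cosets of `Γ₀(N)` (helper26's `interp`):
`F₀ · B(j, j_N) = A(j, j_N)` with `B(j, j_N) = ∏_{q ≠ 1} (j_N - j_N ∘ γ_q) ≠ 0`.
-/

set_option autoImplicit false
set_option linter.style.haveILetI false
set_option linter.unusedSectionVars false

open UpperHalfPlane ModularForm SlashInvariantForm Polynomial CongruenceSubgroup
open scoped MatrixGroups ModularForm Manifold Topology

noncomputable section

namespace Fermat.Agent.S42x.Kum.H21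

open Fermat.Agent.S23 Fermat.Agent.S23.R3H26 Fermat.Agent.S20.FunField
open Fermat.Agent.S24.Mer Fermat.Agent.S24.Real

/-! ### growth of the interpolation sums -/

section Interp

variable {𝒢 : Subgroup (GL (Fin 2) ℝ)} [𝒢.IsFiniteRelIndex 𝒮ℒ]

open scoped Classical in
/-- Growth of `S_x` at `i∞`: if the translates of `F` become bounded after multiplication by
`Δ ^ n₁` and the translates of `G` after multiplication by `Δ ^ n`, then
`S_x * Δ ^ (n₁ + n * (μ - 1))` is bounded. -/
lemma h21_isBoundedAtImInfty_interp_mul {w : ℤ} (F : SlashInvariantForm 𝒢 w)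
    (G : SlashInvariantForm 𝒢 0) (n₁ n : ℕ)
    (hF : ∀ q : Q 𝒢, IsBoundedAtImInfty
      (fun z => quotientFunc F q z * ModularForm.discriminant z ^ n₁))
    (hG : ∀ q : Q 𝒢, IsBoundedAtImInfty
      (fun z => quotientFunc G q z * ModularForm.discriminant z ^ n))
    (x : ℂ) :
    IsBoundedAtImInfty
      (fun z => interp F G x z *
        ModularForm.discriminant z ^ (n₁ + n * (Nat.card (Q 𝒢) - 1))) := by
  let _ := Fintype.ofFinite (Q 𝒢)
  have hΔ : IsBoundedAtImInfty (ModularForm.discriminant : ℍ → ℂ) :=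
    ModularForm.discriminant_isZeroAtImInfty.boundedAtFilter
  have hΔn : IsBoundedAtImInfty (fun z : ℍ => ModularForm.discriminant z ^ n) := by
    have := Filter.BoundedAtFilter.prod (l := atImInfty) (Finset.range n)
      (f := fun _ : ℕ => (ModularForm.discriminant : ℍ → ℂ)) (fun _ _ => hΔ)
    rw [Finset.prod_const, Finset.card_range] at this
    exact this
  have key : (fun z => interp F G x z *
        ModularForm.discriminant z ^ (n₁ + n * (Nat.card (Q 𝒢) - 1)))
      = ∑ q : Q 𝒢, (fun z => quotientFunc F q z * ModularForm.discriminant z ^ n₁) *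
          ∏ q' ∈ Finset.univ.erase q,
          ((fun z : ℍ => x * ModularForm.discriminant z ^ n) -
            fun z => quotientFunc G q' z * ModularForm.discriminant z ^ n) := by
    funext z
    simp only [interp, Finset.sum_apply, Pi.mul_apply, Finset.prod_apply, Pi.sub_apply]
    rw [Finset.sum_mul]
    refine Finset.sum_congr rfl fun q _ => ?_
    have hc : (Finset.univ.erase q).card = Nat.card (Q 𝒢) - 1 := by
      rw [Finset.card_erase_of_mem (Finset.mem_univ _), Finset.card_univ,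
        Nat.card_eq_fintype_card]
    have h1 : ∏ q' ∈ Finset.univ.erase q,
        (x * ModularForm.discriminant z ^ n -
          quotientFunc G q' z * ModularForm.discriminant z ^ n) =
        (∏ q' ∈ Finset.univ.erase q, (x - quotientFunc G q' z)) *
          ModularForm.discriminant z ^ (n * (Nat.card (Q 𝒢) - 1)) := by
      rw [pow_mul, ← hc, ← Finset.prod_const, ← Finset.prod_mul_distrib]
      refine Finset.prod_congr rfl fun q' _ => ?_
      ring
    rw [h1, pow_add]
    ring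
  rw [key]
  unfold IsBoundedAtImInfty Filter.BoundedAtFilter
  refine Asymptotics.IsBigO.sum fun q _ => ?_
  refine Filter.BoundedAtFilter.mul (hF q) ?_
  refine Filter.BoundedAtFilter.prod _ fun q' _ => ?_
  have h1 : Filter.BoundedAtFilter atImInfty
      (fun z : ℍ => x * ModularForm.discriminant z ^ n) :=
    Filter.BoundedAtFilter.mul (Filter.const_boundedAtFilter _ x) hΔn
  have h2 := (hG q').neg
  have := Filter.BoundedAtFilter.add h1 h2
  simpa [sub_eq_add_neg] using this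

end Interp

/-! ### evaluation of polynomials under `rho` -/

section Rho

variable {N : ℕ}

/-- `rho` (for `K = ℂ`, `e = id`) commutes with the evaluation of polynomials. -/
lemma h21_rho_aeval (x : AK ℂ N) (P : ℂ[X]) (z : ℍ) :
    rho (RingHom.id ℂ) (aeval x P) z = P.eval (rho (RingHom.id ℂ) x z) := by
  induction P using Polynomial.induction_on' with
  | add p q hp hq => rw [map_add, map_add, Pi.add_apply, hp, hq, eval_add]
  | monomial n a =>
    rw [aeval_monomial, map_mul, map_pow, rho_algebraMap, eval_monomial]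
    rfl

end Rho

/-! ### the main theorem -/

section Main

variable (N : ℕ) [NeZero N]

/-- The interpolation sums of a weight `0` function of moderate growth are polynomials in
`j`. -/
lemma h21_exists_poly_interp (F : SlashInvariantForm (GG N) 0)
    (hF : MDifferentiable 𝓘(ℂ) 𝓘(ℂ) (F : ℍ → ℂ)) (n : ℕ)
    (hbdd : ∀ q : Q (GG N), IsBoundedAtImInfty
      (fun z => quotientFunc F q z * ModularForm.discriminant z ^ n)) (x : ℂ) :
    ∃ P : ℂ[X], ∀ z, interp F (jNForm N) x z = P.eval (R1.jInv z) := by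
  obtain ⟨P, -, hP⟩ := R1.exists_poly_jInv (interp F (jNForm N) x)
    (mdifferentiable_interp _ _ hF (R4.mdifferentiable_jN N) x)
    (fun γ => interp_slash _ _ x γ) (n + N * (Nat.card (Q (GG N)) - 1))
    (h21_isBoundedAtImInfty_interp_mul _ _ n N hbdd
      (isBoundedAtImInfty_quotientFunc_jNForm N) x)
  exact ⟨P, hP⟩

open scoped Classical in
/-- **Function field identity**, weight `0`: `F · B(j, j_N) = A(j, j_N)` with `A`, `B` in
`ℂ[j, j_N] = AK ℂ N` and `B(j, j_N) = ∏_{q ≠ 1} (j_N - j_N ∘ γ_q) ≠ 0`. -/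
theorem h21_exists_funField_identity (F : SlashInvariantForm (GG N) 0)
    (hF : MDifferentiable 𝓘(ℂ) 𝓘(ℂ) (F : ℍ → ℂ)) (n : ℕ)
    (hbdd : ∀ q : Q (GG N), IsBoundedAtImInfty
      (fun z => quotientFunc F q z * ModularForm.discriminant z ^ n)) :
    ∃ a b : AK ℂ N, b ≠ 0 ∧
      ∀ z : ℍ, F z * rho (RingHom.id ℂ) b z = rho (RingHom.id ℂ) a z := by
  let _ := Fintype.ofFinite (Q (GG N))
  choose P hP using fun i : ℕ => h21_exists_poly_interp N F hF n hbdd (i : ℂ)
  choose R hR using fun i : ℕ => exists_poly_interp_one N (i : ℂ)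
  set μ := Nat.card (Q (GG N)) with hμ
  let L : ℕ → ℂ[X] := fun i => Lagrange.basis (Finset.range μ) (fun n : ℕ => (n : ℂ)) i
  let jn : AK ℂ N := jdAK ℂ N N dvd_rfl
  let j1 : AK ℂ N := jAK ℂ N
  have hjn : ∀ z, rho (RingHom.id ℂ) jn z = R4.jN N z := fun z =>
    congrFun (rho_jdAK (RingHom.id ℂ) N dvd_rfl) z
  have hj1 : ∀ z, rho (RingHom.id ℂ) j1 z = R1.jInv z := fun z =>
    congrFun (rho_jAK (RingHom.id ℂ)) z
  have hb : ∀ z, rho (RingHom.id ℂ) (∑ i ∈ Finset.range μ, aeval jn (L i) * aeval j1 (R i)) z =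
      diffProd N z := by
    intro z
    have h1 := interp_eq_sum_basis (1 : SlashInvariantForm (GG N) 0) (jNForm N) (R4.jN N z) z
    have h2 := interp_self (1 : SlashInvariantForm (GG N) 0) (jNForm N) z
    simp only [jNForm_apply] at h2
    rw [h2] at h1
    have h3 : ((1 : SlashInvariantForm (GG N) 0) : ℍ → ℂ) z = 1 := by simp
    rw [h3, one_mul] at h1
    rw [map_sum, Finset.sum_apply]
    simp only [map_mul, Pi.mul_apply, h21_rho_aeval, hjn, hj1]
    show _ = ∏ q' ∈ Finset.univ.erase ((1 : 𝒮ℒ) : Q (GG N)),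
      (R4.jN N z - quotientFunc (jNForm N) q' z)
    rw [h1]
    refine Finset.sum_congr rfl fun i _ => ?_
    rw [hR i z, mul_comm]
  have ha : ∀ z, rho (RingHom.id ℂ) (∑ i ∈ Finset.range μ, aeval jn (L i) * aeval j1 (P i)) z =
      F z * diffProd N z := by
    intro z
    have k1 := interp_eq_sum_basis F (jNForm N) (R4.jN N z) z
    have k2 := interp_self F (jNForm N) z
    simp only [jNForm_apply] at k2
    rw [k2] at k1
    rw [map_sum, Finset.sum_apply]
    simp only [map_mul, Pi.mul_apply, h21_rho_aeval, hjn, hj1]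
    show _ = F z * ∏ q' ∈ Finset.univ.erase ((1 : 𝒮ℒ) : Q (GG N)),
      (R4.jN N z - quotientFunc (jNForm N) q' z)
    rw [k1]
    refine Finset.sum_congr rfl fun i _ => ?_
    rw [hP i z, mul_comm]
  refine ⟨∑ i ∈ Finset.range μ, aeval jn (L i) * aeval j1 (P i),
    ∑ i ∈ Finset.range μ, aeval jn (L i) * aeval j1 (R i), ?_, fun z => ?_⟩
  · intro h0
    obtain ⟨z, hz⟩ := exists_diffProd_ne_zero N
    apply hz
    rw [← hb z, h0, map_zero]
    rfl
  · rw [ha, hb]

/-- **(F1)** A holomorphic function on `ℍ`, invariant under `Γ₀(N)`, of moderate growth at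
every cusp, lies in the function field `ℂ(j, j_N) ⊆ F_ℂ`. -/
theorem h21_mem_funField (F₀ : HolH)
    (hinv : ∀ γ : SL(2, ℤ), γ ∈ Gamma0 N → ∀ z : ℍ, F₀.1 (γ • z) = F₀.1 z) (n : ℕ)
    (hbdd : ∀ γ : SL(2, ℤ),
      IsBoundedAtImInfty (fun z => F₀.1 (γ • z) * ModularForm.discriminant z ^ n)) :
    ∃ h : FK ℂ N, iota (RingHom.id ℂ) h = algebraMap HolH MerH F₀ := by
  set F : SlashInvariantForm (GG N) 0 := Fermat.Agent.S20.H4.sifOfFun (Gamma0 N) F₀.1 hinv with hFdef
  have hFcoe : (F : ℍ → ℂ) = F₀.1 := rfl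
  have hq : ∀ q : Q (GG N), IsBoundedAtImInfty
      (fun z => quotientFunc F q z * ModularForm.discriminant z ^ n) := by
    intro q
    obtain ⟨γ, rfl⟩ := exists_rep N q
    rw [quotientFunc_toSL, hFcoe, Fermat.Agent.S20.H4.slash_zero_SL]
    exact hbdd γ⁻¹
  obtain ⟨a, b, hb, hab⟩ := h21_exists_funField_identity N F (by rw [hFcoe]; exact F₀.2) n hq
  have hb' : inclAK ℂ N b ≠ 0 := by
    intro h0
    apply hb
    have := iota_incl (RingHom.id ℂ) b
    rw [h0, map_zero] at this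
    have h1 := algebraMap_MerH_injective (this.symm.trans (map_zero _).symm)
    exact rhoH_injective (RingHom.id ℂ) (h1.trans (map_zero _).symm)
  refine ⟨inclAK ℂ N a / inclAK ℂ N b, ?_⟩
  have hb'' : algebraMap HolH MerH (rhoH (RingHom.id ℂ) b) ≠ 0 :=
    algebraMap_MerH_ne_zero (rhoH_ne_zero (RingHom.id ℂ) hb)
  rw [map_div₀, iota_incl, iota_incl, div_eq_iff hb'', ← map_mul]
  congr 1
  apply Subtype.ext
  funext z
  exact (hab z).symm

end Main

/-! ### quotients of modular forms of the same weight -/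

section Quot

variable (N : ℕ) [NeZero N]

lemma h21_bdd_pow {f : ℍ → ℂ} (hf : IsBoundedAtImInfty f) (n : ℕ) :
    IsBoundedAtImInfty (fun z => f z ^ n) := by
  have := Filter.BoundedAtFilter.prod (l := atImInfty) (Finset.range n)
    (f := fun _ : ℕ => f) (fun _ _ => hf)
  rw [Finset.prod_const, Finset.card_range] at this
  exact this

lemma h21_discriminant_smul (γ : SL(2, ℤ)) (z : ℍ) :
    ModularForm.discriminant (γ • z) = denom γ z ^ (12 : ℕ) * ModularForm.discriminant z := by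
  have h := congrFun (discriminant_slash_SL γ) z
  rw [SL_slash_apply] at h
  have hd : denom γ z ≠ 0 := denom_ne_zero γ z
  have h2 : denom γ z ^ (-(12 : ℤ)) = (denom γ z ^ (12 : ℕ))⁻¹ := by
    rw [zpow_neg, ← zpow_natCast]
    rfl
  rw [h2] at h
  field_simp at h
  rw [h]

/-- the weight `0` function `F G¹¹ / Δ ^ m` attached to two functions of weight `m` -/
def h21Quot (m : ℕ) (F G : ℍ → ℂ) : ℍ → ℂ :=
  fun z => F z * G z ^ 11 / ModularForm.discriminant z ^ m

lemma h21Quot_mdiff (m : ℕ) {F G : ℍ → ℂ} (hF : MDifferentiable 𝓘(ℂ) 𝓘(ℂ) F)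
    (hG : MDifferentiable 𝓘(ℂ) 𝓘(ℂ) G) : MDifferentiable 𝓘(ℂ) 𝓘(ℂ) (h21Quot m F G) := by
  have hΔ : MDifferentiable 𝓘(ℂ) 𝓘(ℂ) (ModularForm.discriminant : ℍ → ℂ) :=
    ModularFormClass.holo CuspForm.discriminant
  exact (hF.mul (hG.pow 11)).div (hΔ.pow m) (fun z => pow_ne_zero m (discriminant_ne_zero z))

/-- the key identity: `(F G¹¹ / Δ^m)(γ z) · Δ(z)^m = (F|γ)(z) · (G|γ)(z)¹¹` -/
lemma h21Quot_smul (m : ℕ) (F G : ℍ → ℂ) (γ : SL(2, ℤ)) (z : ℍ) :
    h21Quot m F G (γ • z) * ModularForm.discriminant z ^ m =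
      (F ∣[(m : ℤ)] γ) z * ((G ∣[(m : ℤ)] γ) z) ^ 11 := by
  rw [SL_slash_apply, SL_slash_apply, h21Quot, h21_discriminant_smul]
  have hd : denom γ z ≠ 0 := denom_ne_zero γ z
  have hΔ : ModularForm.discriminant z ≠ 0 := discriminant_ne_zero z
  have h2 : denom γ z ^ (-(m : ℤ)) = (denom γ z ^ m)⁻¹ := by
    rw [zpow_neg, zpow_natCast]
  rw [h2]
  field_simp
  ring

/-- `F G¹¹ / Δ ^ m` lies in the function field. -/
theorem h21Quot_mem_funField (m : ℕ) (F G : ℍ → ℂ) (hF : MDifferentiable 𝓘(ℂ) 𝓘(ℂ) F)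
    (hG : MDifferentiable 𝓘(ℂ) 𝓘(ℂ) G)
    (hFinv : ∀ γ : SL(2, ℤ), γ ∈ Gamma0 N → F ∣[(m : ℤ)] γ = F)
    (hGinv : ∀ γ : SL(2, ℤ), γ ∈ Gamma0 N → G ∣[(m : ℤ)] γ = G)
    (hFb : ∀ γ : SL(2, ℤ), IsBoundedAtImInfty (F ∣[(m : ℤ)] γ))
    (hGb : ∀ γ : SL(2, ℤ), IsBoundedAtImInfty (G ∣[(m : ℤ)] γ)) :
    ∃ h : FK ℂ N, iota (RingHom.id ℂ) h =
      algebraMap HolH MerH ⟨h21Quot m F G, h21Quot_mdiff m hF hG⟩ := by
  refine h21_mem_funField N ⟨h21Quot m F G, h21Quot_mdiff m hF hG⟩ ?_ m ?_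
  · intro γ hγ z
    have h1 := h21Quot_smul m F G γ z
    rw [hFinv γ hγ, hGinv γ hγ] at h1
    have hΔ : ModularForm.discriminant z ^ m ≠ 0 := pow_ne_zero m (discriminant_ne_zero z)
    have h2 : h21Quot m F G z * ModularForm.discriminant z ^ m = F z * G z ^ 11 := by
      rw [h21Quot]
      field_simp
    exact mul_right_cancel₀ hΔ (h1.trans h2.symm)
  · intro γ
    have h1 : (fun z => h21Quot m F G (γ • z) * ModularForm.discriminant z ^ m) =
        fun z => (F ∣[(m : ℤ)] γ) z * ((G ∣[(m : ℤ)] γ) z) ^ 11 :=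
      funext fun z => h21Quot_smul m F G γ z
    show IsBoundedAtImInfty
      (fun z => h21Quot m F G (γ • z) * ModularForm.discriminant z ^ m)
    rw [h1]
    exact Filter.BoundedAtFilter.mul (hFb γ) (h21_bdd_pow (hGb γ) 11)

/-- **(F2'), function level.** The quotient of two holomorphic functions of the same weight
`m` on `Γ₀(N)` (slash-invariant, bounded at every cusp) lies in the function field. -/
theorem h21_div_mem_funField_fun (m : ℕ) (F G : ℍ → ℂ) (hF : MDifferentiable 𝓘(ℂ) 𝓘(ℂ) F)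
    (hG : MDifferentiable 𝓘(ℂ) 𝓘(ℂ) G)
    (hFinv : ∀ γ : SL(2, ℤ), γ ∈ Gamma0 N → F ∣[(m : ℤ)] γ = F)
    (hGinv : ∀ γ : SL(2, ℤ), γ ∈ Gamma0 N → G ∣[(m : ℤ)] γ = G)
    (hFb : ∀ γ : SL(2, ℤ), IsBoundedAtImInfty (F ∣[(m : ℤ)] γ))
    (hGb : ∀ γ : SL(2, ℤ), IsBoundedAtImInfty (G ∣[(m : ℤ)] γ))
    (hG0 : G ≠ 0) :
    ∃ h : FK ℂ N, iota (RingHom.id ℂ) h =
      algebraMap HolH MerH ⟨F, hF⟩ / algebraMap HolH MerH ⟨G, hG⟩ := by
  obtain ⟨h1, hh1⟩ := h21Quot_mem_funField N m F G hF hG hFinv hGinv hFb hGb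
  obtain ⟨h2, hh2⟩ := h21Quot_mem_funField N m G G hG hG hGinv hGinv hGb hGb
  have hGH : (⟨G, hG⟩ : HolH) ≠ 0 := fun h0 => hG0 (congrArg Subtype.val h0)
  have hQ : (⟨h21Quot m G G, h21Quot_mdiff m hG hG⟩ : HolH) ≠ 0 := by
    intro h0
    apply hG0
    funext z
    have h3 := congrFun (congrArg Subtype.val h0) z
    have h4 : h21Quot m G G z = 0 := h3
    rw [h21Quot, div_eq_zero_iff] at h4
    rcases h4 with h4 | h4
    · have h5 : G z ^ 12 = 0 := by rw [pow_succ' (G z) 11]; exact h4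
      exact pow_eq_zero_iff (by norm_num) |>.mp h5
    · exact absurd h4 (pow_ne_zero m (discriminant_ne_zero z))
  refine ⟨h1 / h2, ?_⟩
  rw [map_div₀, hh1, hh2, div_eq_div_iff (algebraMap_MerH_ne_zero hQ)
    (algebraMap_MerH_ne_zero hGH), ← map_mul, ← map_mul]
  congr 1
  apply Subtype.ext
  funext z
  show h21Quot m F G z * G z = F z * h21Quot m G G z
  rw [h21Quot, h21Quot]
  have hΔ : ModularForm.discriminant z ^ m ≠ 0 := pow_ne_zero m (discriminant_ne_zero z)
  field_simp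

/-- **(F2).** The quotient of two modular forms of the same weight `w ≥ 0` on `Γ₀(N)` lies in
the function field `F_ℂ`. -/
theorem h21_div_mem_funField {w : ℤ} (hw : 0 ≤ w) (F G : ModularForm (Gamma0 N) w)
    (hG : (G : ℍ → ℂ) ≠ 0) :
    ∃ h : FK ℂ N, iota (RingHom.id ℂ) h =
      algebraMap HolH MerH ⟨F, ModularFormClass.holo F⟩ /
        algebraMap HolH MerH ⟨G, ModularFormClass.holo G⟩ := by
  obtain ⟨m, rfl⟩ := Int.eq_ofNat_of_zero_le hw
  refine h21_div_mem_funField_fun N m F G (ModularFormClass.holo F) (ModularFormClass.holo G)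
    ?_ ?_ ?_ ?_ hG
  · intro γ hγ
    exact SlashInvariantFormClass.slash_action_eq F _ ⟨γ, hγ, rfl⟩
  · intro γ hγ
    exact SlashInvariantFormClass.slash_action_eq G _ ⟨γ, hγ, rfl⟩
  · intro γ
    exact ModularFormClass.bdd_at_infty_slash F γ
  · intro γ
    exact ModularFormClass.bdd_at_infty_slash G γ

end Quot

end Fermat.Agent.S42x.Kum.H21
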