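import Fermat.Agent.S42x.Kum.H12_KumGen

/-!
# W7 (S42/S29), package [KUM] (helper12): the Kummer relation `KumRel` and its formal calculus

`F = modularFunctionFieldBar N` (the function field of `X₀(N)` over `ℚ̄`), `e : ℚ̄ →+* ℂ`,
`iota e : F →+* MerH` (S24), `ζ : ℂ`, `b : Additive (Γ₀(N)) →+ ℤ`.

`KumRel N p e ζ x b` : the class `x ∈ J₀(N)` is the class of a divisor `D` of degree `0` with
`p D = div f`, and `iota e f` has a `p`-th root `y` in `MerH` which transforms under `Γ₀(N)` by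
the character `γ ↦ ζ ^ b(γ)`.

* `kumRel_zero`, `kumRel_add`, `kumRel_neg`, `kumRel_sub`, `kumRel_nsmul`, `kumRel_zsmul`,
  `kumRel_sum` : **(K-add)**;
* `kumRel_congr` : `b` only matters modulo `p`;
* `kumRel_torsion` : `KumRel x b → p • x = 0`;
* `kumRel_inj_easy` : **(K-inj-easy)** `KumRel 0 b → p ∣ b γ` for all `γ ∈ Γ₀(N)`.
-/

set_option autoImplicit false
set_option synthInstance.maxHeartbeats 400000
set_option maxHeartbeats 1000000
set_option linter.unusedSectionVars false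

open AlgebraicCurve IntermediateField ModularCurve UpperHalfPlane CongruenceSubgroup
open Fermat.Agent.S24.Mer
open scoped MatrixGroups

noncomputable section

namespace Fermat.Agent.S42x.Kum.H12

variable (N : ℕ) [NeZero N] (p : ℕ) (e : AlgebraicClosure ℚ →+* ℂ) (ζ : ℂ)

/-- **The Kummer relation** between a class `x ∈ J₀(N)` and a homomorphism `b : Γ₀(N) → ℤ`. -/
def KumRel (x : JZero N) (b : Additive (Gamma0 N) →+ ℤ) : Prop :=
  ∃ (f : modularFunctionFieldBar N)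
    (D : Divisor.degZero (K := AlgebraicClosure ℚ) (F := modularFunctionFieldBar N))
    (y : MerH),
    f ≠ 0 ∧
    (∀ v : Place (AlgebraicClosure ℚ) (modularFunctionFieldBar N),
      (p : ℤ) * (D : Divisor (AlgebraicClosure ℚ) (modularFunctionFieldBar N)) v = v.ord f) ∧
    Pic0.mk D = x ∧
    y ^ p = iota e f ∧
    ∀ γ : Gamma0 N, tauE (γ : SL(2, ℤ)) y = cM (ζ ^ (b (Additive.ofMul γ))) * y

variable {N p e ζ}

theorem kumRel_zero : KumRel N p e ζ 0 0 :=
  ⟨1, 0, 1, one_ne_zero, fun v => by simp [Place.ord_one], rfl, by simp, fun γ => by simp⟩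

theorem kumRel_add (hζ : ζ ≠ 0) {x x' : JZero N} {b b' : Additive (Gamma0 N) →+ ℤ}
    (h : KumRel N p e ζ x b) (h' : KumRel N p e ζ x' b') :
    KumRel N p e ζ (x + x') (b + b') := by
  obtain ⟨f, D, y, hf, hD, hx, hy, hγ⟩ := h
  obtain ⟨f', D', y', hf', hD', hx', hy', hγ'⟩ := h'
  refine ⟨f * f', D + D', y * y', mul_ne_zero hf hf', fun v => ?_, ?_, ?_, fun γ => ?_⟩
  · rw [v.ord_mul hf hf', ← hD v, ← hD' v, AddSubgroup.coe_add, Finsupp.add_apply, mul_add]
  · rw [Pic0.mk_add, hx, hx']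
  · rw [mul_pow, hy, hy', map_mul]
  · rw [map_mul, hγ γ, hγ' γ, AddMonoidHom.add_apply, zpow_add₀ hζ, map_mul]
    ring

theorem kumRel_neg {x : JZero N} {b : Additive (Gamma0 N) →+ ℤ}
    (h : KumRel N p e ζ x b) : KumRel N p e ζ (-x) (-b) := by
  obtain ⟨f, D, y, hf, hD, hx, hy, hγ⟩ := h
  refine ⟨f⁻¹, -D, y⁻¹, inv_ne_zero hf, fun v => ?_, ?_, ?_, fun γ => ?_⟩
  · rw [v.ord_inv, ← hD v, AddSubgroup.coe_neg, Finsupp.neg_apply, mul_neg]
  · rw [← hx]; rfl
  · rw [inv_pow, hy, map_inv₀]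
  · rw [map_inv₀, hγ γ, AddMonoidHom.neg_apply, zpow_neg, map_inv₀, mul_inv]

theorem kumRel_sub (hζ : ζ ≠ 0) {x x' : JZero N} {b b' : Additive (Gamma0 N) →+ ℤ}
    (h : KumRel N p e ζ x b) (h' : KumRel N p e ζ x' b') :
    KumRel N p e ζ (x - x') (b - b') := by
  rw [sub_eq_add_neg, sub_eq_add_neg]
  exact kumRel_add hζ h (kumRel_neg h')

theorem kumRel_nsmul (hζ : ζ ≠ 0) {x : JZero N} {b : Additive (Gamma0 N) →+ ℤ}
    (h : KumRel N p e ζ x b) (n : ℕ) : KumRel N p e ζ (n • x) (n • b) := by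
  induction n with
  | zero => rw [zero_nsmul, zero_nsmul]; exact kumRel_zero
  | succ n ih => rw [succ_nsmul, succ_nsmul]; exact kumRel_add hζ ih h

theorem kumRel_zsmul (hζ : ζ ≠ 0) {x : JZero N} {b : Additive (Gamma0 N) →+ ℤ}
    (h : KumRel N p e ζ x b) (n : ℤ) : KumRel N p e ζ (n • x) (n • b) := by
  obtain ⟨m, rfl | rfl⟩ := n.eq_nat_or_neg
  · rw [natCast_zsmul, natCast_zsmul]; exact kumRel_nsmul hζ h m
  · rw [neg_zsmul, neg_zsmul, natCast_zsmul, natCast_zsmul]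
    exact kumRel_neg (kumRel_nsmul hζ h m)

theorem kumRel_sum (hζ : ζ ≠ 0) {ι : Type*} (s : Finset ι) (x : ι → JZero N)
    (b : ι → (Additive (Gamma0 N) →+ ℤ)) (h : ∀ i ∈ s, KumRel N p e ζ (x i) (b i)) :
    KumRel N p e ζ (∑ i ∈ s, x i) (∑ i ∈ s, b i) := by
  classical
  induction s using Finset.induction_on with
  | empty => rw [Finset.sum_empty, Finset.sum_empty]; exact kumRel_zero
  | insert a s ha ih =>
    rw [Finset.sum_insert ha, Finset.sum_insert ha]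
    exact kumRel_add hζ (h a (Finset.mem_insert_self a s))
      (ih fun i hi => h i (Finset.mem_insert_of_mem hi))

/-- `ℤ`-linear combinations. -/
theorem kumRel_sum_zsmul (hζ : ζ ≠ 0) {ι : Type*} (s : Finset ι) (c : ι → ℤ) (x : ι → JZero N)
    (b : ι → (Additive (Gamma0 N) →+ ℤ)) (h : ∀ i ∈ s, KumRel N p e ζ (x i) (b i)) :
    KumRel N p e ζ (∑ i ∈ s, c i • x i) (∑ i ∈ s, c i • b i) :=
  kumRel_sum hζ s _ _ fun i hi => kumRel_zsmul hζ (h i hi) (c i)

/-- `b` only matters modulo `p`. -/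
theorem kumRel_congr (hζ : ζ ^ p = 1) (hζ0 : ζ ≠ 0) {x : JZero N}
    {b b' : Additive (Gamma0 N) →+ ℤ} (h : KumRel N p e ζ x b)
    (hb : ∀ γ : Gamma0 N, (p : ℤ) ∣ b (Additive.ofMul γ) - b' (Additive.ofMul γ)) :
    KumRel N p e ζ x b' := by
  obtain ⟨f, D, y, hf, hD, hx, hy, hγ⟩ := h
  refine ⟨f, D, y, hf, hD, hx, hy, fun γ => ?_⟩
  rw [hγ γ]
  obtain ⟨k, hk⟩ := hb γ
  have : b (Additive.ofMul γ) = b' (Additive.ofMul γ) + (p : ℤ) * k := by omega
  rw [this, zpow_add₀ hζ0, zpow_mul, zpow_natCast, hζ, one_zpow, mul_one]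

/-- the class of a Kummer relation is killed by `p`. -/
theorem kumRel_torsion {x : JZero N} {b : Additive (Gamma0 N) →+ ℤ}
    (h : KumRel N p e ζ x b) : p • x = 0 := by
  obtain ⟨f, D, y, hf, hD, hx, hy, hγ⟩ := h
  rw [← hx]
  show p • (QuotientAddGroup.mk D : Pic0 _ _) = 0
  rw [← QuotientAddGroup.mk_nsmul, QuotientAddGroup.eq_zero_iff, AddSubgroup.mem_addSubgroupOf]
  refine ⟨f, hf, fun v => ?_⟩
  rw [← hD v, AddSubgroup.coe_nsmul, Finsupp.smul_apply, nsmul_eq_mul]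

/-- **(K-inj-easy)**: if the class is trivial, the character is trivial mod `p`. -/
theorem kumRel_inj_easy (hp : p ≠ 0) (hζ : IsPrimitiveRoot ζ p)
    {b : Additive (Gamma0 N) →+ ℤ} (h : KumRel N p e ζ 0 b) (γ : Gamma0 N) :
    (p : ℤ) ∣ b (Additive.ofMul γ) := by
  obtain ⟨f, D, y, hf, hD, hx, hy, hγ⟩ := h
  -- `D` is principal
  have hprin : (D : Divisor (AlgebraicClosure ℚ) (modularFunctionFieldBar N)) ∈
      Divisor.principal (K := AlgebraicClosure ℚ) (F := modularFunctionFieldBar N) := by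
    have := (QuotientAddGroup.eq_zero_iff (D : Divisor.degZero (K := AlgebraicClosure ℚ)
      (F := modularFunctionFieldBar N))).mp hx
    exact AddSubgroup.mem_addSubgroupOf.mp this
  obtain ⟨h₀, hh₀, hDh⟩ := hprin
  -- `f / h₀ ^ p` has no zeros and poles
  have hu0 : f * (h₀ ^ p)⁻¹ ≠ 0 := mul_ne_zero hf (inv_ne_zero (pow_ne_zero p hh₀))
  obtain ⟨c, hc⟩ := h12_const_of_ord_eq_zero N (f * (h₀ ^ p)⁻¹) hu0 (fun v => by
    rw [v.ord_mul hf (inv_ne_zero (pow_ne_zero p hh₀)), v.ord_inv, ← zpow_natCast, v.ord_zpow,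
      ← hD v, hDh v]
    ring)
  have hf' : f = algebraMap (AlgebraicClosure ℚ) (modularFunctionFieldBar N) c * h₀ ^ p := by
    rw [hc, mul_assoc, inv_mul_cancel₀ (pow_ne_zero p hh₀), mul_one]
  -- `y / iota h₀` is a constant
  have hι0 : iota e h₀ ≠ 0 := (map_ne_zero_iff _ (iota_injective e)).mpr hh₀
  have hpow : (y / iota e h₀) ^ p = cM (e c) := by
    rw [div_pow, hy, hf', map_mul, map_pow, iota_algebraMap, mul_div_assoc,
      div_self (pow_ne_zero p hι0), mul_one, cM_apply]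
  obtain ⟨c', hc'⟩ := h12_const_of_pow_eq_const p hp _ _ hpow
  have hy' : y = cM c' * iota e h₀ := by
    rw [← hc', div_mul_cancel₀ _ hι0]
  have hy0 : y ≠ 0 := by
    intro h0
    rw [h0, zero_pow hp] at hy
    exact hf ((map_eq_zero (iota e)).mp hy.symm)
  -- `y` is invariant
  have hinv : tauE (γ : SL(2, ℤ)) y = y := by
    rw [hy', map_mul, tauE_cM, tauE_iota_of_mem e γ.2]
  have h1 : cM (ζ ^ (b (Additive.ofMul γ))) = 1 := by
    have := hγ γ
    rw [hinv] at this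
    exact (mul_eq_right₀ hy0).mp this.symm
  have h2 : ζ ^ (b (Additive.ofMul γ)) = 1 := cM_injective (by rw [h1, map_one])
  exact (h12_zpow_eq_one_iff hζ _).mp h2

end Fermat.Agent.S42x.Kum.H12
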