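import Fermat.Agent.S42x.Kum.H17_Top
import Fermat.Agent.S42x.Kum.H12_KumRel
import Fermat.Prelude.Def_ModularCurve_PeriodMap

/-!
# W7 (B2c), final shapes (helper17): `hOrdC` / `hOrdQ` of helper8's `kex_of`

* `h17_hpar_of_trace` : invariance of `y` under the elements of `Γ₀(N)` with `trace ^ 2 = 4`
  implies the invariance under the conjugates `γ T^w γ⁻¹ ∈ Γ₀(N)`;
* `h17_ordK`  : (B2c) for `(K, e)` with the premise `∀ δ ∈ Γ₀(N), trace δ ^ 2 = 4 → tauE δ y = y`;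
* `h17_hOrdC` : the hypothesis `hOrdC` of `kex_of` (over `ℂ`), for `p ≥ 5` prime;
* `h17_hOrdQ` : the hypothesis `hOrdQ` of `kex_of` (over `ℚ̄`), for `p ≥ 5` prime;
* `h17_hpar_of_char`, `h17_ord_of_char` : the same from a multiplier relation
  `tauE γ y = cM (ζ ^ b γ) * y` with `b` a parabolic homomorphism.
-/

set_option autoImplicit false
set_option linter.style.haveILetI false
set_option linter.unusedSectionVars false

open UpperHalfPlane CongruenceSubgroup AlgebraicCurve ModularCurve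
open scoped MatrixGroups Manifold

namespace Fermat.Agent.S42x.Kum.H17

open Fermat.Agent.S24 Fermat.Agent.S24.Real Fermat.Agent.S24.Mer

/-- Invariance under the elements of trace `± 2` implies invariance under the conjugates of the
powers of `T`. -/
theorem h17_hpar_of_trace (N : ℕ) (y : MerH)
    (htr : ∀ δ : SL(2, ℤ), δ ∈ Gamma0 N → δ.1.trace ^ 2 = 4 → tauE δ y = y) :
    ∀ (γ : SL(2, ℤ)) (w : ℤ), γ * ModularGroup.T ^ w * γ⁻¹ ∈ Gamma0 N →
      tauE (γ * ModularGroup.T ^ w * γ⁻¹) y = y := by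
  intro γ w hw
  refine htr _ hw ?_
  have := h17_trace_conj γ w
  rw [show (γ * ModularGroup.T ^ w * γ⁻¹ : SL(2, ℤ)).1 =
    ((γ * ModularGroup.T ^ w * γ⁻¹ : SL(2, ℤ)) : Matrix (Fin 2) (Fin 2) ℤ) from rfl, this]
  norm_num

section K

variable {K : Type*} [Field K] [Algebra ℚ K] [CharZero K] [IsAlgClosed K] (e : K →+* ℂ)
  (N : ℕ) [NeZero N]

/-- **(B2c)** in the shape of `kex_of`: `y ^ p = iota e g`, `y` invariant under the elements of
`Γ₀(N)` with `trace ^ 2 = 4`, `p ≥ 5` prime: `p ∣ ord_v g` at every place `v`. -/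
theorem h17_ordK {p : ℕ} (hp : p.Prime) (hp5 : 5 ≤ p) :
    ∀ (g : FK K N) (y : MerH), g ≠ 0 → y ^ p = iota e g →
      (∀ δ : SL(2, ℤ), δ ∈ Gamma0 N → δ.1.trace ^ 2 = 4 → tauE δ y = y) →
      ∀ v : Place K (FK K N), (p : ℤ) ∣ v.ord g :=
  fun g y hg hy htr v => h17_dvd_ord e N hp hp5 g hg y hy (h17_hpar_of_trace N y htr) v

end K

/-- **`hOrdC` of `kex_of`** (helper8, #1199), for `p ≥ 5` prime. -/
theorem h17_hOrdC (N : ℕ) [NeZero N] {p : ℕ} (hp : p.Prime) (hp5 : 5 ≤ p) :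
    ∀ (g : FK ℂ N) (y : MerH), g ≠ 0 → y ^ p = iota (RingHom.id ℂ) g →
      (∀ δ : SL(2, ℤ), δ ∈ Gamma0 N → δ.1.trace ^ 2 = 4 → tauE δ y = y) →
      ∀ v : Place ℂ (FK ℂ N), (p : ℤ) ∣ v.ord g :=
  h17_ordK (RingHom.id ℂ) N hp hp5

/-- **`hOrdQ` of `kex_of`** (helper8, #1199), for `p ≥ 5` prime. -/
theorem h17_hOrdQ (N : ℕ) [NeZero N] {p : ℕ} (hp : p.Prime) (hp5 : 5 ≤ p)
    (e : AlgebraicClosure ℚ →+* ℂ) :
    ∀ (f : modularFunctionFieldBar N) (y : MerH), f ≠ 0 → y ^ p = iota e f →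
      (∀ δ : SL(2, ℤ), δ ∈ Gamma0 N → δ.1.trace ^ 2 = 4 → tauE δ y = y) →
      ∀ v : Place (AlgebraicClosure ℚ) (modularFunctionFieldBar N), (p : ℤ) ∣ v.ord f :=
  h17_ordK e N hp hp5

/-- The parabolic invariance of a root `y` with multiplier `ζ ^ b`, `b` a parabolic
homomorphism. -/
theorem h17_htr_of_char (N : ℕ) (ζ : ℂ) (b : Additive (Gamma0 N) →+ ℤ)
    (hb : Period.IsParabolicHom (Gamma0 N) b) (y : MerH)
    (hchar : ∀ γ : Gamma0 N,
      tauE (γ : SL(2, ℤ)) y = H12.cM (ζ ^ (b (Additive.ofMul γ))) * y) :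
    ∀ δ : SL(2, ℤ), δ ∈ Gamma0 N → δ.1.trace ^ 2 = 4 → tauE δ y = y := by
  intro δ hδ htr
  have h1 := hchar ⟨δ, hδ⟩
  rw [hb ⟨δ, hδ⟩ htr, zpow_zero, map_one, one_mul] at h1
  exact h1

/-- **(B2c) for a Kummer pair over `ℚ̄`**: if `y ^ p = iota e f` and `y` has multiplier `ζ ^ b`
with `b` parabolic, then `p ∣ ord_v f` at every place `v` of the modular function field over
`ℚ̄` (`p ≥ 5` prime). -/
theorem h17_ord_of_char (N : ℕ) [NeZero N] {p : ℕ} (hp : p.Prime) (hp5 : 5 ≤ p)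
    (e : AlgebraicClosure ℚ →+* ℂ) (ζ : ℂ) (b : Additive (Gamma0 N) →+ ℤ)
    (hb : Period.IsParabolicHom (Gamma0 N) b) (f : modularFunctionFieldBar N) (hf : f ≠ 0)
    (y : MerH) (hy : y ^ p = iota e f)
    (hchar : ∀ γ : Gamma0 N,
      tauE (γ : SL(2, ℤ)) y = H12.cM (ζ ^ (b (Additive.ofMul γ))) * y)
    (v : Place (AlgebraicClosure ℚ) (modularFunctionFieldBar N)) : (p : ℤ) ∣ v.ord f :=
  h17_hOrdQ N hp hp5 e f y hf hy (h17_htr_of_char N ζ b hb y hchar) v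

end Fermat.Agent.S42x.Kum.H17
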