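import Mathlib
import Fermat.Agent.S24.H23_SurjFin
import Fermat.Agent.S24.H15_DiffFK

/-!
# W7 (B2c-ell) (helper28): `p ∣ ord_v g` at ALL finite places, for EVERY `p ≠ 0`

`g` a modular function of level `N` over an algebraically closed field `K ⊆ ℂ` and `y` a
meromorphic function on `ℍ` with `y ^ p = g`, invariant under the elements of finite order of
`Γ₀(N)`: then `p ∣ ord_Q g` at every place `Q` of the function field which is not a pole of `j`
(elliptic points included; no hypothesis on `p`).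

* `h28_cross_of_tauE`, `h28_two_dvd_ordE`, `h28_three_dvd_ordE` : the order of an invariant
  meromorphic function at an elliptic point;
* `h28_ord_eq_classCard` : the ramification index of `j` at a point place is the size of the
  orbit of the coset (orbit-place correspondence of S24, in ramification form);
* `h28_dvd_ord_fin` : the divisibility at the finite places.
-/

set_option autoImplicit false
set_option linter.unusedSectionVars false
set_option linter.style.haveILetI false

noncomputable section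

namespace Fermat.Agent.S42x.Kum.H28

open UpperHalfPlane CongruenceSubgroup AlgebraicCurve MulAction IntermediateField
open Fermat.Agent.S23 Fermat.Agent.S24 Fermat.Agent.S24.Real Fermat.Agent.S24.Mer
  Fermat.Agent.S24.Comb Fermat.Agent.S24.G3
open scoped MatrixGroups Manifold

section Germ

/-- invariance of a fraction of holomorphic functions, cross-multiplied -/
theorem h28_cross_of_tauE (δ : SL(2, ℤ)) (A B : HolH) (hB : B ≠ 0)
    (h : tauE δ (algebraMap HolH MerH A / algebraMap HolH MerH B)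
      = algebraMap HolH MerH A / algebraMap HolH MerH B) :
    ∀ z : ℍ, (A : ℍ → ℂ) (δ • z) * (B : ℍ → ℂ) z = (A : ℍ → ℂ) z * (B : ℍ → ℂ) (δ • z) := by
  have hB' := algebraMap_MerH_ne_zero hB
  have hτB : tau δ B ≠ 0 := fun h0 => hB ((tau δ).injective (h0.trans (map_zero _).symm))
  have hτB' := algebraMap_MerH_ne_zero hτB
  rw [map_div₀, tauE_algebraMap, tauE_algebraMap, div_eq_div_iff hτB' hB', ← map_mul,
    ← map_mul] at h
  have h1 := algebraMap_MerH_injective h
  intro z
  have h2 := congrFun (congrArg Subtype.val h1) (δ • z)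
  simp only [Subring.coe_mul, Pi.mul_apply, tau_apply, inv_smul_smul] at h2
  exact h2.symm

/-- **an invariant meromorphic function has even order at the translates of `i`** -/
theorem h28_two_dvd_ordE (g : SL(2, ℤ)) (y : MerH)
    (hy : tauE (g⁻¹ * ModularGroup.S * g) y = y) :
    (2 : ℤ) ∣ ordE (g⁻¹ • UpperHalfPlane.I) y := by
  by_cases hy0 : y = 0
  · subst hy0
    simp
  obtain ⟨A, B, hA, hB, rfl⟩ := exists_rep hy0
  rw [ordE_div _ hA hB]
  exact G2.two_dvd_sub_conj_S g A.2 B.2 (h28_cross_of_tauE _ A B hB hy)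
    (cast_ordN _ hA).symm (cast_ordN _ hB).symm

/-- **an invariant meromorphic function has order divisible by `3` at the translates of `ρ`** -/
theorem h28_three_dvd_ordE (g : SL(2, ℤ)) (y : MerH)
    (hy : tauE (g⁻¹ * (ModularGroup.S * ModularGroup.T) * g) y = y) :
    (3 : ℤ) ∣ ordE (g⁻¹ • G1.rho) y := by
  by_cases hy0 : y = 0
  · subst hy0
    simp
  obtain ⟨A, B, hA, hB, rfl⟩ := exists_rep hy0
  rw [ordE_div _ hA hB]
  exact G2.three_dvd_sub_conj_ST g A.2 B.2 (h28_cross_of_tauE _ A B hB hy)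
    (cast_ordN _ hA).symm (cast_ordN _ hB).symm

/-- `S ^ 4 = 1` -/
theorem h28_S_pow_four : ModularGroup.S ^ 4 = 1 := by
  apply Subtype.ext
  simp only [Matrix.SpecialLinearGroup.coe_pow, ModularGroup.coe_S,
    Matrix.SpecialLinearGroup.coe_one]
  ext i j
  fin_cases i <;> fin_cases j <;>
    simp [pow_succ, Matrix.mul_apply, Fin.sum_univ_two]

/-- `(S T) ^ 6 = 1` -/
theorem h28_ST_pow_six : (ModularGroup.S * ModularGroup.T) ^ 6 = 1 := by
  apply Subtype.ext
  simp only [Matrix.SpecialLinearGroup.coe_pow, Matrix.SpecialLinearGroup.coe_mul,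
    ModularGroup.coe_S, ModularGroup.coe_T, Matrix.SpecialLinearGroup.coe_one]
  ext i j
  fin_cases i <;> fin_cases j <;>
    simp [pow_succ, Matrix.mul_apply, Fin.sum_univ_two]

/-- conjugation and powers -/
theorem h28_conj_pow (g s : SL(2, ℤ)) (n : ℕ) : (g⁻¹ * s * g) ^ n = g⁻¹ * s ^ n * g := by
  have := conj_pow (a := g⁻¹) (b := s) (i := n)
  rw [inv_inv] at this
  exact this

/-- the conjugates of `S` have order dividing `12` -/
theorem h28_conj_S_pow (g : SL(2, ℤ)) : (g⁻¹ * ModularGroup.S * g) ^ 12 = 1 := by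
  have h12 : ModularGroup.S ^ 12 = 1 := by
    have : ModularGroup.S ^ 12 = (ModularGroup.S ^ 4) ^ 3 := by rw [← pow_mul]
    rw [this, h28_S_pow_four, one_pow]
  rw [h28_conj_pow, h12, mul_one, inv_mul_cancel]

/-- the conjugates of `S T` have order dividing `12` -/
theorem h28_conj_ST_pow (g : SL(2, ℤ)) :
    (g⁻¹ * (ModularGroup.S * ModularGroup.T) * g) ^ 12 = 1 := by
  have h12 : (ModularGroup.S * ModularGroup.T) ^ 12 = 1 := by
    have : (ModularGroup.S * ModularGroup.T) ^ 12
        = ((ModularGroup.S * ModularGroup.T) ^ 6) ^ 2 := by rw [← pow_mul]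
    rw [this, h28_ST_pow_six, one_pow]
  rw [h28_conj_pow, h12, mul_one, inv_mul_cancel]

end Germ

section Ram

variable {K : Type*} [Field K] [Algebra ℚ K] [CharZero K] [IsAlgClosed K] (e : K →+* ℂ)
  (N : ℕ) [NeZero N]

/-- **the ramification index of `j` at a point place is the size of the orbit of the coset**
(orbit-place correspondence of S24, in ramification form) -/
theorem h28_ord_eq_classCard (c : K) (z0 : ℍ) (hz0 : R4.jInv z0 = e c) (r : Setoid (X N))
    (hr : ∀ k k', r k k' → ∃ δ ∈ Gamma0 N, zk z0 k = δ • zk z0 k')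
    (hc : ∀ k, locDeg (e c) ∣
      Orb.classCard r k * ptMult e N (zk z0 k) c (jInv_zk e z0 c hz0 k)) (k : X N) :
    (ptPlace e N (zk z0 k) c (jInv_zk e z0 c hz0 k)).ord
        (Final.jF K N - algebraMap K (FK K N) c) = (Orb.classCard r k : ℤ) := by
  classical
  have : Finite (X N) := finite_X
  let _ : Fintype (X N) := Fintype.ofFinite _
  have hfd := finDim_final K N e
  obtain ⟨S, hS, hsum⟩ := Alg.fundId_sub (Final.jF K N) (Final.transcendental_jF K N) c
  rw [finrank_eq_final K N e, Nat.card_eq_fintype_card] at hsum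
  refine (Orb.orbit_place r
    (fun k => ptPlace e N (zk z0 k) c (jInv_zk e z0 c hz0 k))
    (fun k => ptMult e N (zk z0 k) c (jInv_zk e z0 c hz0 k))
    (Final.jF K N - algebraMap K (FK K N) c) (locDeg (e c)) (locDeg_pos _)
    (fun k => ptMult_mul_ord e (zk z0 k) c (jInv_zk e z0 c hz0 k)) ?_ hc
    (SurjFin.hsurj e N c z0 hz0) S hS hsum).2 k
  intro k k' hkk'
  obtain ⟨δ, hδ, h⟩ := hr k k' hkk'
  refine ptPlace_eq_of_ordAt_eq e c _ _ fun x => ?_
  rw [h, ordAt_smul_of_mem_Gamma0 e hδ]

/-- the arithmetic core: `m * q = p * u` and `m ∣ u` give `p ∣ q` -/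
theorem h28_dvd_of_mul_eq {m p : ℕ} (hm : 0 < m) {q u : ℤ} (h : (m : ℤ) * q = (p : ℤ) * u)
    (hu : (m : ℤ) ∣ u) : (p : ℤ) ∣ q := by
  obtain ⟨t, rfl⟩ := hu
  have hm' : (m : ℤ) ≠ 0 := by exact_mod_cast hm.ne'
  refine ⟨t, ?_⟩
  apply mul_left_cancel₀ hm'
  rw [h]
  ring

/-- the order of `g` at a point in terms of the order of the root -/
theorem h28_ordAt_eq (p : ℕ) (g : FK K N) (y : MerH) (hy : y ^ p = iota e g) (z : ℍ) :
    Real.ordAt e z g = (p : ℤ) * ordE z y := by
  rw [← SurjFin.mer_ordAt_eq_real, Mer.ordAt_def, ← hy, ordE_pow]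

/-- the multiplicity at the translates of `i` divides the order of an invariant root -/
theorem h28_mult_dvd_ordE_I (y : MerH)
    (hell : ∀ δ : SL(2, ℤ), δ ∈ Gamma0 N → δ ^ 12 = 1 → tauE δ y = y) (k : X N) :
    (ptMult e N (zk UpperHalfPlane.I k) 1728 (jInv_zk e _ _ (jInv_I_eq e) k) : ℤ)
      ∣ ordE (zk UpperHalfPlane.I k) y := by
  classical
  have hmul := ptMult_mul_ord (N := N) e (zk UpperHalfPlane.I k) 1728
    (jInv_zk e _ _ (jInv_I_eq e) k)
  rw [show e (1728 : K) = 1728 from map_ofNat e 1728, locDeg_1728] at hmul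
  by_cases hS : ModularGroup.S • k = k
  · have hmem := (h9_smul_eq_iff_out ModularGroup.S k).mp hS
    have h2 := h28_two_dvd_ordE (Quotient.out k) y (hell _ hmem (h28_conj_S_pow _))
    have hm2 : (ptMult e N (zk UpperHalfPlane.I k) 1728 (jInv_zk e _ _ (jInv_I_eq e) k) : ℤ)
        ∣ 2 := Dvd.intro _ hmul
    exact hm2.trans h2
  · have hcc := h9_classCard_S k
    rw [if_neg hS] at hcc
    have hord := h28_ord_eq_classCard e N 1728 UpperHalfPlane.I (jInv_I_eq e)
      (orbitRel (Subgroup.zpowers ModularGroup.S) (X N))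
      (fun k k' h => zk_eq_smul_of_orbitRel _ _ G1.S_smul_I h)
      (fun k => by
        rw [map_ofNat, locDeg_1728]
        exact h9_two_dvd_classCard_mul k _ (two_dvd_ptMult e k)) k
    rw [hcc] at hord
    rw [hord] at hmul
    have h1 : (ptMult e N (zk UpperHalfPlane.I k) 1728 (jInv_zk e _ _ (jInv_I_eq e) k) : ℤ)
        = 1 := by
      push_cast at hmul
      omega
    rw [h1]
    exact one_dvd _

/-- the multiplicity at the translates of `ρ` divides the order of an invariant root -/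
theorem h28_mult_dvd_ordE_rho (y : MerH)
    (hell : ∀ δ : SL(2, ℤ), δ ∈ Gamma0 N → δ ^ 12 = 1 → tauE δ y = y) (k : X N) :
    (ptMult e N (zk G1.rho k) 0 (jInv_zk e _ _ (jInv_rho_eq e) k) : ℤ)
      ∣ ordE (zk G1.rho k) y := by
  classical
  have hmul := ptMult_mul_ord (N := N) e (zk G1.rho k) 0 (jInv_zk e _ _ (jInv_rho_eq e) k)
  rw [show e (0 : K) = 0 from map_zero e, locDeg_zero] at hmul
  by_cases hS : (ModularGroup.S * ModularGroup.T) • k = k
  · have hmem := (h9_smul_eq_iff_out (ModularGroup.S * ModularGroup.T) k).mp hS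
    have h3 := h28_three_dvd_ordE (Quotient.out k) y (hell _ hmem (h28_conj_ST_pow _))
    have hm3 : (ptMult e N (zk G1.rho k) 0 (jInv_zk e _ _ (jInv_rho_eq e) k) : ℤ)
        ∣ 3 := Dvd.intro _ hmul
    exact hm3.trans h3
  · have hcc := h9_classCard_ST k
    rw [if_neg hS] at hcc
    have hord := h28_ord_eq_classCard e N 0 G1.rho (jInv_rho_eq e)
      (orbitRel (Subgroup.zpowers (ModularGroup.S * ModularGroup.T)) (X N))
      (fun k k' h => zk_eq_smul_of_orbitRel _ _ G1.ST_smul_rho h)
      (fun k => by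
        rw [map_zero, locDeg_zero]
        exact h9_three_dvd_classCard_mul k _ (three_dvd_ptMult e k)) k
    rw [hcc] at hord
    rw [hord] at hmul
    have h1 : (ptMult e N (zk G1.rho k) 0 (jInv_zk e _ _ (jInv_rho_eq e) k) : ℤ) = 1 := by
      push_cast at hmul
      omega
    rw [h1]
    exact one_dvd _

/-- **(B2c-ell)**: `p ∣ ord_Q g` at every place `Q` which is not a pole of `j`, for every
`p` (elliptic points included), when the root is invariant under the elements of finite order
of `Γ₀(N)`. -/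
theorem h28_dvd_ord_fin (p : ℕ) (g : FK K N) (y : MerH) (hy : y ^ p = iota e g)
    (hell : ∀ δ : SL(2, ℤ), δ ∈ Gamma0 N → δ ^ 12 = 1 → tauE δ y = y)
    (Q : Place K (FK K N)) (hQ : 0 ≤ Q.ord (Final.jF K N)) : (p : ℤ) ∣ Q.ord g := by
  by_cases hg : g = 0
  · subst hg
    simp
  have hnc : Final.jF K N ∉ Set.range (algebraMap K (FK K N)) := by
    rintro ⟨c, hc⟩
    exact Final.transcendental_jF K N (hc ▸ isAlgebraic_algebraMap c)
  rcases RH.ord_pos_or_ord_neg Q (RH.residueTrivial_FK e N Q) hnc with h | ⟨c, hc⟩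
  · omega
  by_cases h1728 : e c = 1728
  · have hc1 : c = 1728 := e.injective (by rw [h1728, map_ofNat])
    subst hc1
    obtain ⟨k, hk⟩ := SurjFin.hsurj e N 1728 UpperHalfPlane.I (jInv_I_eq e) Q hc
    have h1 := ordAt_eq_ptMult_mul (N := N) e (zk UpperHalfPlane.I k) 1728
      (jInv_zk e _ _ (jInv_I_eq e) k) hg
    rw [hk, h28_ordAt_eq e N p g y hy] at h1
    exact h28_dvd_of_mul_eq (ptMult_pos e _ _ _) h1.symm (h28_mult_dvd_ordE_I e N y hell k)
  by_cases h0 : e c = 0
  · have hc0 : c = 0 := e.injective (by rw [h0, map_zero])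
    subst hc0
    obtain ⟨k, hk⟩ := SurjFin.hsurj e N 0 G1.rho (jInv_rho_eq e) Q hc
    have h1 := ordAt_eq_ptMult_mul (N := N) e (zk G1.rho k) 0
      (jInv_zk e _ _ (jInv_rho_eq e) k) hg
    rw [hk, h28_ordAt_eq e N p g y hy] at h1
    exact h28_dvd_of_mul_eq (ptMult_pos e _ _ _) h1.symm (h28_mult_dvd_ordE_rho e N y hell k)
  · obtain ⟨z0, hz0⟩ := G1.jInv_surjective (e c)
    obtain ⟨k, hk⟩ := SurjFin.hsurj e N c z0 hz0 Q hc
    have h1 := ordAt_eq_ptMult_mul (N := N) e (zk z0 k) c (jInv_zk e z0 c hz0 k) hg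
    have h2 := ptMult_mul_ord (N := N) e (zk z0 k) c (jInv_zk e z0 c hz0 k)
    rw [locDeg_of_ne h0 h1728] at h2
    have hm1 : (ptMult e N (zk z0 k) c (jInv_zk e z0 c hz0 k) : ℤ) ∣ 1 := Dvd.intro _ h2
    rw [hk, h28_ordAt_eq e N p g y hy] at h1
    exact h28_dvd_of_mul_eq (ptMult_pos e _ _ _) h1.symm (hm1.trans (one_dvd _))

end Ram

end Fermat.Agent.S42x.Kum.H28
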