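import Fermat.Agent.S42x.Kum.H8_EisFun
import Fermat.Agent.S42x.Kum.H12_KumRel
import Fermat.Agent.S18x.E.H12_Div

/-!
# W7 (KEX-ASM): existence in the Kummer relation

`kex_of` : for every parabolic homomorphism `b : Γ₀(N) → ℤ` there is a class `x ∈ J₀(N)` with
`KumRel N p e ζ x b`, from

* `exists_kum_C` (the Eisenstein quotient over `ℂ`),
* **(B2c)** the divisibility of the orders by `p` (over `ℂ` and over `ℚ̄`),
* **(B3)** the descent from `ℂ` to `ℚ̄`.
-/

set_option autoImplicit false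
set_option synthInstance.maxHeartbeats 400000
set_option maxHeartbeats 1000000

open AlgebraicCurve ModularCurve UpperHalfPlane CongruenceSubgroup
open Fermat.Agent.S24.Mer Fermat.Agent.S24.Real

open scoped MatrixGroups

namespace Fermat.Agent.S42x.Kum.H8

open Fermat.Agent.S42x.Kum.H12

section Div

variable {K F : Type*} [Field K] [Field F] [Algebra K F]

/-- Division of a divisor with `p`-divisible coefficients by `p`. -/
theorem exists_divisor_div (p : ℕ) (hp : p ≠ 0) (D₀ : Divisor K F)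
    (hdiv : ∀ v : Place K F, (p : ℤ) ∣ D₀ v) (hdeg : Divisor.degree D₀ = 0) :
    ∃ D : Divisor K F, (∀ v : Place K F, (p : ℤ) * D v = D₀ v) ∧ Divisor.degree D = 0 := by
  have hp' : (p : ℤ) ≠ 0 := by exact_mod_cast hp
  refine ⟨D₀.mapRange (fun n => n / (p : ℤ)) (by simp), fun v => ?_, ?_⟩
  · rw [Finsupp.mapRange_apply]
    exact Int.mul_ediv_cancel' (hdiv v)
  · have h1 : (p : ℤ) • D₀.mapRange (fun n => n / (p : ℤ)) (by simp) = D₀ := by
      ext v
      rw [Finsupp.smul_apply, Finsupp.mapRange_apply, smul_eq_mul]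
      exact Int.mul_ediv_cancel' (hdiv v)
    have h2 := congrArg Divisor.degree h1
    rw [map_zsmul, hdeg, smul_eq_mul] at h2
    rcases mul_eq_zero.mp h2 with h | h
    · exact absurd h hp'
    · exact h

end Div

/-! ### base change of the function field along `e : K → ℂ` -/

section Base

variable {K : Type*} [Field K] [Algebra ℚ K] (e : K →+* ℂ) {N : ℕ}

theorem coeffMap_mem_AK {x : LaurentSeries K} (hx : x ∈ AK K N) :
    ModularCurve.coeffMap e x ∈ AK ℂ N := by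
  induction hx using Algebra.adjoin_induction with
  | mem x hx =>
    obtain ⟨y, hy, rfl⟩ := hx
    rw [coeffMap_coeffEmb_eq]
    exact Algebra.subset_adjoin ⟨y, hy, rfl⟩
  | algebraMap a =>
    rw [coeffMap_algebraMap_eq]
    exact Subalgebra.algebraMap_mem _ _
  | add x y _ _ hx hy => rw [map_add]; exact add_mem hx hy
  | mul x y _ _ hx hy => rw [map_mul]; exact mul_mem hx hy

theorem coeffMap_mem_FK {x : LaurentSeries K} (hx : x ∈ FK K N) :
    ModularCurve.coeffMap e x ∈ FK ℂ N := by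
  obtain ⟨a, ha, b, hb, hb0, hab⟩ := exists_div_of_mem_FK hx
  have h1 : ModularCurve.coeffMap e x * ModularCurve.coeffMap e b = ModularCurve.coeffMap e a := by
    rw [← map_mul, hab]
  have hb1 : ModularCurve.coeffMap e b ≠ 0 := by
    intro h
    apply hb0
    exact coeffMap_injective K e (by rw [h, map_zero])
  have h2 : ModularCurve.coeffMap e x =
      ModularCurve.coeffMap e a / ModularCurve.coeffMap e b := by
    rw [eq_div_iff hb1, h1]
  rw [h2]
  exact div_mem (AK_le_FK ℂ N (coeffMap_mem_AK e ha)) (AK_le_FK ℂ N (coeffMap_mem_AK e hb))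

/-- The base change `F_K → F_ℂ` of the modular function fields along `e : K → ℂ`
(coefficientwise on `q`-expansions). -/
noncomputable def baseE (N : ℕ) : FK K N →+* FK ℂ N where
  toFun f := ⟨ModularCurve.coeffMap e (f : LaurentSeries K), coeffMap_mem_FK e f.2⟩
  map_one' := Subtype.ext (map_one _)
  map_mul' _ _ := Subtype.ext (map_mul _ _ _)
  map_zero' := Subtype.ext (map_zero _)
  map_add' _ _ := Subtype.ext (map_add _ _ _)

@[simp] theorem coe_baseE (f : FK K N) :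
    ((baseE e N f : FK ℂ N) : LaurentSeries ℂ) = ModularCurve.coeffMap e (f : LaurentSeries K) :=
  rfl

theorem rho_coeffMap (a : AK K N) :
    rho (RingHom.id ℂ) (⟨ModularCurve.coeffMap e (a : LaurentSeries K),
      coeffMap_mem_AK e a.2⟩ : AK ℂ N) = rho e a := by
  have h1 := isModReal_rho (RingHom.id ℂ) (⟨ModularCurve.coeffMap e (a : LaurentSeries K),
      coeffMap_mem_AK e a.2⟩ : AK ℂ N)
  rw [ModularCurve.coeffMap_id] at h1
  exact h1.unique_fun (isModReal_rho e a)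

/-- The realisations over `K` and over `ℂ` are compatible with every base change map which is
`coeffMap e` on `q`-expansions. -/
theorem iota_base (base : FK K N →+* FK ℂ N)
    (hcoe : ∀ f : FK K N, ((base f : FK ℂ N) : LaurentSeries ℂ) =
      ModularCurve.coeffMap e (f : LaurentSeries K)) (f : FK K N) :
    iota (RingHom.id ℂ) (base f) = iota e f := by
  have key : ∀ a : AK K N, iota (RingHom.id ℂ) (base (inclAK K N a)) = iota e (inclAK K N a) := by
    intro a
    have h1 : base (inclAK K N a) = inclAK ℂ N ⟨ModularCurve.coeffMap e (a : LaurentSeries K),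
        coeffMap_mem_AK e a.2⟩ := Subtype.ext (hcoe _)
    rw [h1, iota_incl, iota_incl]
    have h2 : rhoH (RingHom.id ℂ) (⟨ModularCurve.coeffMap e (a : LaurentSeries K),
        coeffMap_mem_AK e a.2⟩ : AK ℂ N) = rhoH e a := Subtype.ext (rho_coeffMap e a)
    rw [h2]
  obtain ⟨a, b, hb, hab⟩ := exists_frac f
  have h1 : iota (RingHom.id ℂ) (base f) * iota e (inclAK K N b) = iota e (inclAK K N a) := by
    rw [← key b, ← key a, ← map_mul, ← map_mul, hab]
  have h2 : iota e f * iota e (inclAK K N b) = iota e (inclAK K N a) := by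
    rw [← map_mul, hab]
  have hb' : iota e (inclAK K N b) ≠ 0 := by
    rw [iota_incl]
    exact algebraMap_MerH_ne_zero (rhoH_ne_zero e hb)
  exact mul_right_cancel₀ hb' (h1.trans h2.symm)

theorem iota_baseE (f : FK K N) : iota (RingHom.id ℂ) (baseE e N f) = iota e f :=
  iota_base e (baseE e N) (fun _ => rfl) f

theorem baseE_injective : Function.Injective (baseE e N) :=
  (baseE e N).injective

end Base

/-- **(KEX-ASM)** Existence in the Kummer relation, from the Eisenstein quotient over `ℂ`,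
the divisibility of the orders by `p` and the descent from `ℂ` to `ℚ̄`. -/
theorem kex_of (N : ℕ) [NeZero N] (p : ℕ) (hp : p ≠ 0) (e : AlgebraicClosure ℚ →+* ℂ) (ζ : ℂ)
    (hζ : ζ ^ p = 1)
    (base : modularFunctionFieldBar N →+* FK ℂ N)
    (hbase : ∀ f : modularFunctionFieldBar N, iota (RingHom.id ℂ) (base f) = iota e f)
    (hOrdC : ∀ (g : FK ℂ N) (y : MerH), g ≠ 0 → y ^ p = iota (RingHom.id ℂ) g →
      (∀ δ : SL(2, ℤ), δ ∈ Gamma0 N → δ.1.trace ^ 2 = 4 → tauE δ y = y) →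
      ∀ v : Place ℂ (FK ℂ N), (p : ℤ) ∣ v.ord g)
    (hOrdQ : ∀ (f : modularFunctionFieldBar N) (y : MerH), f ≠ 0 → y ^ p = iota e f →
      (∀ δ : SL(2, ℤ), δ ∈ Gamma0 N → δ.1.trace ^ 2 = 4 → tauE δ y = y) →
      ∀ v : Place (AlgebraicClosure ℚ) (modularFunctionFieldBar N), (p : ℤ) ∣ v.ord f)
    (hDesc : ∀ fC : FK ℂ N, fC ≠ 0 → (∀ v : Place ℂ (FK ℂ N), (p : ℤ) ∣ v.ord fC) →
      ∃ (f : modularFunctionFieldBar N) (h : FK ℂ N), f ≠ 0 ∧ h ≠ 0 ∧ fC = base f * h ^ p)
    (b : Additive (Gamma0 N) →+ ℤ) (hb : ModularCurve.Period.IsParabolicHom (Gamma0 N) b) :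
    ∃ x : JZero N, KumRel N p e ζ x b := by
  obtain ⟨g, y, hg, hy0, hyg, hyγ⟩ := exists_kum_C N p hp ζ hζ b hb
  -- invariance under the parabolic elements
  have hpar : ∀ (y' : MerH), (∀ γ : Gamma0 N, tauE γ.1 y' =
      algebraMap HolH MerH (constH (ζ ^ (b (Additive.ofMul γ)))) * y') →
      ∀ δ : SL(2, ℤ), δ ∈ Gamma0 N → δ.1.trace ^ 2 = 4 → tauE δ y' = y' := by
    intro y' hy' δ hδ htr
    have h1 := hy' ⟨δ, hδ⟩
    have h2 : b (Additive.ofMul (⟨δ, hδ⟩ : Gamma0 N)) = 0 := hb ⟨δ, hδ⟩ htr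
    rw [h2, zpow_zero, map_one, map_one, one_mul] at h1
    exact h1
  -- descent
  obtain ⟨f, h, hf, hh, hfh⟩ := hDesc g hg (hOrdC g y hg hyg (hpar y hyγ))
  have hih : iota (RingHom.id ℂ) h ≠ 0 := (map_ne_zero_iff _ (iota_injective _)).mpr hh
  set y' : MerH := y / iota (RingHom.id ℂ) h with hy'
  have hy'p : y' ^ p = iota e f := by
    rw [hy', div_pow, hyg, hfh, map_mul, map_pow, hbase, mul_div_assoc,
      div_self (pow_ne_zero p hih), mul_one]
  have hy'γ : ∀ γ : Gamma0 N, tauE γ.1 y' =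
      algebraMap HolH MerH (constH (ζ ^ (b (Additive.ofMul γ)))) * y' := by
    intro γ
    rw [hy', map_div₀, hyγ γ, tauE_iota_of_mem (RingHom.id ℂ) γ.2 h, mul_div_assoc]
  -- the divisor
  have hdiv := hOrdQ f y' hf hy'p (hpar y' hy'γ)
  obtain ⟨D₀, hD₀, hD₀deg⟩ :=
    (Fermat.Agent.S18x.E.H12.h12_hasPrincipalDivisors_bar N).exists_divisor f hf
  obtain ⟨D, hD, hDdeg⟩ := exists_divisor_div p hp D₀ (fun v => by rw [hD₀ v]; exact hdiv v)
    hD₀deg
  refine ⟨Pic0.mk ⟨D, Divisor.mem_degZero.mpr hDdeg⟩, f, ⟨D, Divisor.mem_degZero.mpr hDdeg⟩,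
    y', hf, fun v => ?_, rfl, hy'p, fun γ => ?_⟩
  · rw [← hD₀ v]
    exact hD v
  · rw [cM_apply]
    exact hy'γ γ

/-- **(KEX-ASM)**, with the canonical base change `baseE e N`. -/
theorem kex_of_baseE (N : ℕ) [NeZero N] (p : ℕ) (hp : p ≠ 0) (e : AlgebraicClosure ℚ →+* ℂ)
    (ζ : ℂ) (hζ : ζ ^ p = 1)
    (hOrdC : ∀ (g : FK ℂ N) (y : MerH), g ≠ 0 → y ^ p = iota (RingHom.id ℂ) g →
      (∀ δ : SL(2, ℤ), δ ∈ Gamma0 N → δ.1.trace ^ 2 = 4 → tauE δ y = y) →
      ∀ v : Place ℂ (FK ℂ N), (p : ℤ) ∣ v.ord g)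
    (hOrdQ : ∀ (f : modularFunctionFieldBar N) (y : MerH), f ≠ 0 → y ^ p = iota e f →
      (∀ δ : SL(2, ℤ), δ ∈ Gamma0 N → δ.1.trace ^ 2 = 4 → tauE δ y = y) →
      ∀ v : Place (AlgebraicClosure ℚ) (modularFunctionFieldBar N), (p : ℤ) ∣ v.ord f)
    (hDesc : ∀ fC : FK ℂ N, fC ≠ 0 → (∀ v : Place ℂ (FK ℂ N), (p : ℤ) ∣ v.ord fC) →
      ∃ (f : modularFunctionFieldBar N) (h : FK ℂ N), f ≠ 0 ∧ h ≠ 0 ∧
        (fC : LaurentSeries ℂ) =
          ModularCurve.coeffMap e (f : LaurentSeries (AlgebraicClosure ℚ)) *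
            (h : LaurentSeries ℂ) ^ p)
    (b : Additive (Gamma0 N) →+ ℤ) (hb : ModularCurve.Period.IsParabolicHom (Gamma0 N) b) :
    ∃ x : JZero N, KumRel N p e ζ x b := by
  refine kex_of N p hp e ζ hζ (baseE e N) (iota_baseE e) hOrdC hOrdQ ?_ b hb
  intro fC hfC hdiv
  obtain ⟨f, h, hf, hh, hfh⟩ := hDesc fC hfC hdiv
  exact ⟨f, h, hf, hh, Subtype.ext hfh⟩

end Fermat.Agent.S42x.Kum.H8
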