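import Mathlib
import Fermat.Agent.S42x.Kum.H28_Ell
import Fermat.Agent.S42x.Kum.H17_Ord
import Fermat.Agent.S42x.Kum.H8_KEx

/-!
# W7 (B2c) for EVERY `p ≠ 0` (helper28): all places, and (K-ex) without a hypothesis on `p`

* `h28_dvd_ord_all` : `y ^ p = iota e g`, `y` invariant under the conjugates of the powers of
  `T` in `Γ₀(N)` and under the elements of finite order of `Γ₀(N)`: `p ∣ ord_Q g` at EVERY
  place `Q` (cusps: helper17's `h17_dvd_ord_cusp`; finite places: `h28_dvd_ord_fin`);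
* `h28_hell_of_char`, `h28_hpar_of_char` : both invariances for a root with multiplier
  `ζ ^ b`, `b` a parabolic homomorphism (`b` kills torsion because `ℤ` is torsion free);
* `h28_ord_of_char` : (B2c) for a Kummer pair, every `p ≠ 0`, generic in `(K, e)`;
* `h28_kex_of`, `h28_kex_of_baseE` : helper8's `kex_of` / `kex_of_baseE` with the two
  hypotheses `hOrdC`, `hOrdQ` DISCHARGED for every `p ≠ 0`.
-/

set_option autoImplicit false
set_option linter.unusedSectionVars false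
set_option linter.style.haveILetI false
set_option synthInstance.maxHeartbeats 400000
set_option maxHeartbeats 1000000

noncomputable section

namespace Fermat.Agent.S42x.Kum.H28

open UpperHalfPlane CongruenceSubgroup AlgebraicCurve ModularCurve
open Fermat.Agent.S24 Fermat.Agent.S24.Real Fermat.Agent.S24.Mer
open Fermat.Agent.S42x.Kum.H12 Fermat.Agent.S42x.Kum.H17 Fermat.Agent.S42x.Kum.H8
open scoped MatrixGroups Manifold

section K

variable {K : Type*} [Field K] [Algebra ℚ K] [CharZero K] [IsAlgClosed K] (e : K →+* ℂ)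
  (N : ℕ) [NeZero N]

/-- **(B2c) at every place, for every `p ≠ 0`.** -/
theorem h28_dvd_ord_all (p : ℕ) (hp : p ≠ 0) (g : FK K N) (y : MerH) (hy : y ^ p = iota e g)
    (hpar : ∀ (γ : SL(2, ℤ)) (w : ℤ), γ * ModularGroup.T ^ w * γ⁻¹ ∈ Gamma0 N →
      tauE (γ * ModularGroup.T ^ w * γ⁻¹) y = y)
    (hell : ∀ δ : SL(2, ℤ), δ ∈ Gamma0 N → δ ^ 12 = 1 → tauE δ y = y)
    (Q : Place K (FK K N)) : (p : ℤ) ∣ Q.ord g := by
  by_cases hg : g = 0
  · subst hg
    simp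
  rcases lt_or_ge (Q.ord (Final.jF K N)) 0 with hQ | hQ
  · exact h17_dvd_ord_cusp e N hp g hg y hy hpar Q hQ
  · exact h28_dvd_ord_fin e N p g y hy hell Q hQ

end K

/-- a homomorphism to `ℤ` kills the elements of finite order -/
theorem h28_hom_torsion (N : ℕ) (b : Additive (Gamma0 N) →+ ℤ) (δ : Gamma0 N) (n : ℕ)
    (hn : n ≠ 0) (hδ : δ ^ n = 1) : b (Additive.ofMul δ) = 0 := by
  have h1 : b (Additive.ofMul (δ ^ n)) = n • b (Additive.ofMul δ) := by
    rw [ofMul_pow, map_nsmul]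
  rw [hδ, ofMul_one, map_zero] at h1
  rcases smul_eq_zero.mp h1.symm with h | h
  · exact absurd h hn
  · exact h

/-- the invariance under the elements of finite order of a root with multiplier `ζ ^ b` -/
theorem h28_hell_of_char (N : ℕ) (ζ : ℂ) (b : Additive (Gamma0 N) →+ ℤ) (y : MerH)
    (hchar : ∀ γ : Gamma0 N,
      tauE (γ : SL(2, ℤ)) y = H12.cM (ζ ^ (b (Additive.ofMul γ))) * y) :
    ∀ δ : SL(2, ℤ), δ ∈ Gamma0 N → δ ^ 12 = 1 → tauE δ y = y := by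
  intro δ hδ h12
  have h1 := hchar ⟨δ, hδ⟩
  have h2 : (⟨δ, hδ⟩ : Gamma0 N) ^ 12 = 1 := Subtype.ext (by
    rw [Subgroup.coe_pow, Subgroup.coe_one]
    exact h12)
  rw [h28_hom_torsion N b ⟨δ, hδ⟩ 12 (by norm_num) h2, zpow_zero, map_one, one_mul] at h1
  exact h1

/-- the invariance under the conjugates of the powers of `T` of a root with multiplier
`ζ ^ b`, `b` parabolic -/
theorem h28_hpar_of_char (N : ℕ) (ζ : ℂ) (b : Additive (Gamma0 N) →+ ℤ)
    (hb : Period.IsParabolicHom (Gamma0 N) b) (y : MerH)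
    (hchar : ∀ γ : Gamma0 N,
      tauE (γ : SL(2, ℤ)) y = H12.cM (ζ ^ (b (Additive.ofMul γ))) * y) :
    ∀ (γ : SL(2, ℤ)) (w : ℤ), γ * ModularGroup.T ^ w * γ⁻¹ ∈ Gamma0 N →
      tauE (γ * ModularGroup.T ^ w * γ⁻¹) y = y :=
  h17_hpar_of_trace N y (h17_htr_of_char N ζ b hb y hchar)

/-- **(B2c) for a Kummer pair, every `p ≠ 0`**, generic in `(K, e)`. -/
theorem h28_ord_of_char {K : Type*} [Field K] [Algebra ℚ K] [CharZero K] [IsAlgClosed K]
    (e : K →+* ℂ) (N : ℕ) [NeZero N] (p : ℕ) (hp : p ≠ 0) (ζ : ℂ)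
    (b : Additive (Gamma0 N) →+ ℤ) (hb : Period.IsParabolicHom (Gamma0 N) b)
    (f : FK K N) (y : MerH) (hy : y ^ p = iota e f)
    (hchar : ∀ γ : Gamma0 N,
      tauE (γ : SL(2, ℤ)) y = H12.cM (ζ ^ (b (Additive.ofMul γ))) * y)
    (v : Place K (FK K N)) : (p : ℤ) ∣ v.ord f :=
  h28_dvd_ord_all e N p hp f y hy (h28_hpar_of_char N ζ b hb y hchar)
    (h28_hell_of_char N ζ b y hchar) v

/-- **(KEX-ASM) for every `p ≠ 0`**: helper8's `kex_of` with `hOrdC`, `hOrdQ` discharged. -/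
theorem h28_kex_of (N : ℕ) [NeZero N] (p : ℕ) (hp : p ≠ 0) (e : AlgebraicClosure ℚ →+* ℂ)
    (ζ : ℂ) (hζ : ζ ^ p = 1)
    (base : modularFunctionFieldBar N →+* FK ℂ N)
    (hbase : ∀ f : modularFunctionFieldBar N, iota (RingHom.id ℂ) (base f) = iota e f)
    (hDesc : ∀ fC : FK ℂ N, fC ≠ 0 → (∀ v : Place ℂ (FK ℂ N), (p : ℤ) ∣ v.ord fC) →
      ∃ (f : modularFunctionFieldBar N) (h : FK ℂ N), f ≠ 0 ∧ h ≠ 0 ∧ fC = base f * h ^ p)
    (b : Additive (Gamma0 N) →+ ℤ) (hb : ModularCurve.Period.IsParabolicHom (Gamma0 N) b) :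
    ∃ x : JZero N, KumRel N p e ζ x b := by
  obtain ⟨g, y, hg, hy0, hyg, hyγ⟩ := exists_kum_C N p hp ζ hζ b hb
  -- descent
  obtain ⟨f, h, hf, hh, hfh⟩ := hDesc g hg
    (h28_ord_of_char (RingHom.id ℂ) N p hp ζ b hb g y hyg hyγ)
  have hih : iota (RingHom.id ℂ) h ≠ 0 := (map_ne_zero_iff _ (iota_injective _)).mpr hh
  have hy'p : (y / iota (RingHom.id ℂ) h) ^ p = iota e f := by
    rw [div_pow, hyg, hfh, map_mul, map_pow, hbase, mul_div_assoc,
      div_self (pow_ne_zero p hih), mul_one]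
  have hy'γ : ∀ γ : Gamma0 N, tauE γ.1 (y / iota (RingHom.id ℂ) h) =
      H12.cM (ζ ^ (b (Additive.ofMul γ))) * (y / iota (RingHom.id ℂ) h) := by
    intro γ
    rw [map_div₀, hyγ γ, tauE_iota_of_mem (RingHom.id ℂ) γ.2 h, mul_div_assoc]
    rfl
  -- the divisor
  have hdiv : ∀ v : Place (AlgebraicClosure ℚ) (modularFunctionFieldBar N),
      (p : ℤ) ∣ v.ord f :=
    fun v => h28_ord_of_char e N p hp ζ b hb f _ hy'p hy'γ v
  obtain ⟨D₀, hD₀, hD₀deg⟩ :=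
    (Fermat.Agent.S18x.E.H12.h12_hasPrincipalDivisors_bar N).exists_divisor f hf
  obtain ⟨D, hD, hDdeg⟩ := exists_divisor_div p hp D₀ (fun v => by rw [hD₀ v]; exact hdiv v)
    hD₀deg
  refine ⟨Pic0.mk ⟨D, Divisor.mem_degZero.mpr hDdeg⟩, f, ⟨D, Divisor.mem_degZero.mpr hDdeg⟩,
    y / iota (RingHom.id ℂ) h, hf, fun v => ?_, rfl, hy'p, fun γ => hy'γ γ⟩
  rw [← hD₀ v]
  exact hD v

/-- **(KEX-ASM) for every `p ≠ 0`**, with the canonical base change `baseE e N`. -/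
theorem h28_kex_of_baseE (N : ℕ) [NeZero N] (p : ℕ) (hp : p ≠ 0)
    (e : AlgebraicClosure ℚ →+* ℂ) (ζ : ℂ) (hζ : ζ ^ p = 1)
    (hDesc : ∀ fC : FK ℂ N, fC ≠ 0 → (∀ v : Place ℂ (FK ℂ N), (p : ℤ) ∣ v.ord fC) →
      ∃ (f : modularFunctionFieldBar N) (h : FK ℂ N), f ≠ 0 ∧ h ≠ 0 ∧
        (fC : LaurentSeries ℂ) =
          ModularCurve.coeffMap e (f : LaurentSeries (AlgebraicClosure ℚ)) *
            (h : LaurentSeries ℂ) ^ p)
    (b : Additive (Gamma0 N) →+ ℤ) (hb : ModularCurve.Period.IsParabolicHom (Gamma0 N) b) :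
    ∃ x : JZero N, KumRel N p e ζ x b := by
  refine h28_kex_of N p hp e ζ hζ (baseE e N) (iota_baseE e) ?_ b hb
  intro fC hfC hdiv
  obtain ⟨f, h, hf, hh, hfh⟩ := hDesc fC hfC hdiv
  exact ⟨f, h, hf, hh, Subtype.ext hfh⟩

end Fermat.Agent.S42x.Kum.H28
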