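import Fermat.Agent.S42x.Kum.H8_StKEx
import Fermat.Agent.S42x.Kum.H28_All

/-!
# W7 / W8 (K-ex) for every exponent

`stKEx_all` : for EVERY exponent `m ≠ 0` (a prime `p`, `p = 2, 3` included, or a prime power
`p ^ n`), every `m`-th root of unity `ζ` and every parabolic homomorphism `b : Γ₀(N) → ℤ` there
is a class `x ∈ J₀(N)` with `KumRel N m e ζ x b` (helper12's `KumRel`). Hypothesis-free.
-/

set_option autoImplicit false
set_option synthInstance.maxHeartbeats 400000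
set_option maxHeartbeats 1000000

open AlgebraicCurve ModularCurve UpperHalfPlane CongruenceSubgroup
open Fermat.Agent.S24.Mer Fermat.Agent.S24.Real

open scoped MatrixGroups

namespace Fermat.Agent.S42x.Kum.H8

/-- **(K-ex)** for every exponent `m ≠ 0`, hypothesis-free. -/
theorem stKEx_all (N : ℕ) [NeZero N] (m : ℕ) (hm : m ≠ 0)
    (e : AlgebraicClosure ℚ →+* ℂ) (ζ : ℂ) (hζ : ζ ^ m = 1)
    (b : Additive (Gamma0 N) →+ ℤ) (hb : ModularCurve.Period.IsParabolicHom (Gamma0 N) b) :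
    ∃ x : JZero N, Fermat.Agent.S42x.Kum.H12.KumRel N m e ζ x b :=
  stKEx_of_ord N m hm e ζ hζ b hb
    (fun g y _ hy hchar v =>
      Fermat.Agent.S42x.Kum.H28.h28_ord_of_char (RingHom.id ℂ) N m hm ζ b hb g y hy hchar v)
    (fun f y _ hy hchar v =>
      Fermat.Agent.S42x.Kum.H28.h28_ord_of_char e N m hm ζ b hb f y hy hchar v)

/-- **(K-ex)** for every exponent `m ≠ 0`, in the spelling of `Kum/Defs`. -/
theorem stKumEx_all (N : ℕ) [NeZero N] (m : ℕ) (hm : m ≠ 0)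
    (e : AlgebraicClosure ℚ →+* ℂ) (ζ : ℂ) (hζ : ζ ^ m = 1) :
    Fermat.Agent.S42x.Kum.StKumEx N m e ζ := by
  intro b hb
  obtain ⟨x, hx⟩ := stKEx_all N m hm e ζ hζ b hb
  exact ⟨x, Fermat.Agent.S42x.Asm.H23.h23_kumRel_iff.mpr hx⟩

end Fermat.Agent.S42x.Kum.H8
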