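import Mathlib
import Fermat.Prelude.Def_ModularCurve_HeckeModule
import Fermat.Prelude.Def_ModularCurve_PeriodMap
import Fermat.Agent.S24.H21_Iota
import Fermat.Agent.S16x.Low.Defs

/-!
# W7 (S42 + S29), package (KUM): interface (helper15, chief)

Kummer theory on the upper half plane.  `F = modularFunctionFieldBar N` (over `ℚ̄`),
`F_ℂ = FK ℂ N`, both realised in `MerH` (meromorphic functions on `ℍ`) by `iota`.

* `KumRel N p e ζ x b` : the class `x ∈ J₀(N)` and the homomorphism `b : Γ₀(N) → ℤ` are related: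
  `x = [D]`, `p D = div f`, and a `p`-th root `y` of `f` on `ℍ` has the multiplier `ζ ^ b(γ)`;
* `StKumEx`    **(K-ex)**    every parabolic `b` is related to some `x`;
* `StKumUniq`  **(K-uniq)**  `KumRel x 0 → x = 0`;
* `StKumHecke` **(K-hecke)** compatibility with `T_ℓ` (coset formula on the `b`-side);
* `StKumC`     **(B2)**      the same existence statement over `ℂ` (Eisenstein quotient);
* `StFinC`     **(FIN)**     finitely many classes of functions with `p`-divisible divisor;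
* `StDescC`    **(B3)**      descent from `ℂ` to `ℚ̄`.
-/

set_option autoImplicit false

open CongruenceSubgroup ModularCurve ModularCurve.Period AlgebraicCurve
open Fermat.Agent.S24.Mer Fermat.Agent.S24.Real

open scoped MatrixGroups

noncomputable section

namespace Fermat.Agent.S42x.Kum

/-- The constant function `c`, as a meromorphic function on `ℍ`. -/
def cE (c : ℂ) : MerH := algebraMap HolH MerH (constH c)

/-- **The Kummer relation** between a class `x ∈ J₀(N)` and a homomorphism `b : Γ₀(N) → ℤ`. -/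
def KumRel (N p : ℕ) [NeZero N] (e : AlgebraicClosure ℚ →+* ℂ) (ζ : ℂ) (x : JZero N)
    (b : Additive ↥(Gamma0 N) →+ ℤ) : Prop :=
  ∃ (f : ↥(modularFunctionFieldBar N))
    (D : Divisor.degZero (K := AlgebraicClosure ℚ) (F := ↥(modularFunctionFieldBar N)))
    (y : MerH),
    f ≠ 0 ∧
    (∀ v : Place (AlgebraicClosure ℚ) ↥(modularFunctionFieldBar N),
      (p : ℤ) * (D : Divisor (AlgebraicClosure ℚ) ↥(modularFunctionFieldBar N)) v = v.ord f) ∧
    x = Pic0.mk D ∧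
    y ^ p = iota e f ∧
    ∀ γ : ↥(Gamma0 N), tauE (γ : SL(2, ℤ)) y = cE (ζ ^ b (Additive.ofMul γ)) * y

/-- **(K-ex)** -/
def StKumEx (N p : ℕ) [NeZero N] (e : AlgebraicClosure ℚ →+* ℂ) (ζ : ℂ) : Prop :=
  ∀ b : Additive ↥(Gamma0 N) →+ ℤ, IsParabolicHom (Gamma0 N) b → ∃ x, KumRel N p e ζ x b

/-- **(K-uniq)** -/
def StKumUniq (N p : ℕ) [NeZero N] (e : AlgebraicClosure ℚ →+* ℂ) (ζ : ℂ) : Prop :=
  ∀ x, KumRel N p e ζ x 0 → x = 0

/-- **(K-hecke)** -/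
def StKumHecke (N p : ℕ) [NeZero N] (e : AlgebraicClosure ℚ →+* ℂ) (ζ : ℂ) : Prop :=
  ∀ (ℓ : ℕ) [Fact ℓ.Prime], ¬ ℓ ∣ N → ∀ (x : JZero N) (b b' : Additive ↥(Gamma0 N) →+ ℤ),
    KumRel N p e ζ x b →
    (∀ (g : ↥(Gamma0 N)) (σ : Equiv.Perm (OnePoint (ZMod ℓ)))
      (g' : OnePoint (ZMod ℓ) → SL(2, ℤ))
      (h : Fermat.Agent.S16x.Low.CosetData (Fermat.Agent.S22.tA ℓ) (Fermat.Agent.S22.tB ℓ)
        (Fermat.Agent.S22.tD ℓ) N (g : SL(2, ℤ)) σ g'),
      b' (Additive.ofMul g) = ∑ i, b (Additive.ofMul (h.elt i))) →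
    KumRel N p e ζ (heckeOperatorBar N ⟨ℓ, Fact.out⟩ x) b'

/-- **(B2)** `= (B2a) + (B2b) + (B2c)`: for every parabolic `b` a function `g ∈ F_ℂ` with
`p`-divisible divisor and a `p`-th root `y` of `g` on `ℍ` with multiplier `ζ ^ b`. -/
def StKumC (N p : ℕ) (ζ : ℂ) : Prop :=
  ∀ b : Additive ↥(Gamma0 N) →+ ℤ, IsParabolicHom (Gamma0 N) b →
    ∃ (g : ↥(FK ℂ N)) (y : MerH), g ≠ 0 ∧
      (∀ v : Place ℂ ↥(FK ℂ N), (p : ℤ) ∣ v.ord g) ∧
      y ^ p = iota (RingHom.id ℂ) g ∧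
      ∀ γ : ↥(Gamma0 N), tauE (γ : SL(2, ℤ)) y = cE (ζ ^ b (Additive.ofMul γ)) * y

/-- **(FIN)** the functions on `X₀(N)_ℂ` with `p`-divisible divisor fall into finitely many
classes modulo `p`-th powers. -/
def StFinC (N p : ℕ) : Prop :=
  ∃ S : Finset ↥(FK ℂ N), ∀ g : ↥(FK ℂ N), g ≠ 0 →
    (∀ v : Place ℂ ↥(FK ℂ N), (p : ℤ) ∣ v.ord g) →
    ∃ s ∈ S, ∃ h : ↥(FK ℂ N), h ≠ 0 ∧ g = s * h ^ p

/-- **(B3)** descent: a function on `X₀(N)_ℂ` with `p`-divisible divisor is, up to a `p`-th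
power, defined over `ℚ̄` (and the divisor of the descended function is `p`-divisible). -/
def StDescC (N p : ℕ) (e : AlgebraicClosure ℚ →+* ℂ) : Prop :=
  ∀ g : ↥(FK ℂ N), g ≠ 0 → (∀ v : Place ℂ ↥(FK ℂ N), (p : ℤ) ∣ v.ord g) →
    ∃ (f : ↥(modularFunctionFieldBar N)) (h : ↥(FK ℂ N)), f ≠ 0 ∧ h ≠ 0 ∧
      iota (RingHom.id ℂ) g = iota e f * iota (RingHom.id ℂ) h ^ p ∧
      ∀ v : Place (AlgebraicClosure ℚ) ↥(modularFunctionFieldBar N), (p : ℤ) ∣ v.ord f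

end Fermat.Agent.S42x.Kum
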