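import Fermat.Agent.S24.H21_Iota
import Fermat.Agent.S18x.E.H12_Div

/-!
# W7 (S42/S29), package [KUM] (helper12): generic lemmas for the calculus of `KumRel`

* `h12_const_of_pow_eq_const` : a meromorphic function on `ℍ` whose `p`-th power is a constant is
  a constant (`ℂ` is algebraically closed in `MerH`; pure algebra: `MerH` is a field containing
  the `p`-th roots of unity of `ℂ`);
* `h12_const_of_pow_eq_one`  : a meromorphic function on `ℍ` with `y ^ p = 1` is a constant root
  of unity `ζ ^ i`;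
* `h12_const_of_ord_eq_zero` : a non-zero function of `F_N / ℚ̄` without zeros and poles is a
  constant;
* `h12_zpow_eq_one_iff`      : `ζ ^ b = 1 ↔ p ∣ b` for a primitive `p`-th root of unity.
-/

set_option autoImplicit false
set_option synthInstance.maxHeartbeats 400000
set_option maxHeartbeats 1000000

open AlgebraicCurve IntermediateField ModularCurve UpperHalfPlane
open Fermat.Agent.S24.Mer

noncomputable section

namespace Fermat.Agent.S42x.Kum.H12

/-- the constants of `MerH` -/
def cM : ℂ →+* MerH := (algebraMap HolH MerH).comp constH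

theorem cM_apply (c : ℂ) : cM c = algebraMap HolH MerH (constH c) := rfl

theorem cM_injective : Function.Injective cM :=
  (algebraMap_MerH_injective).comp constH_injective

theorem tauE_cM (γ : Matrix.SpecialLinearGroup (Fin 2) ℤ) (c : ℂ) : tauE γ (cM c) = cM c := by
  rw [cM_apply, tauE_algebraMap, tau_constH]

/-- a meromorphic function on `ℍ` with `y ^ p = 1` is a constant root of unity. -/
theorem h12_const_of_pow_eq_one (p : ℕ) (hp : p ≠ 0) (ζ : ℂ) (hζ : IsPrimitiveRoot ζ p)
    (y : MerH) (h : y ^ p = 1) : ∃ i : ℕ, i < p ∧ y = cM (ζ ^ i) := by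
  have : NeZero p := ⟨hp⟩
  have hζ' : IsPrimitiveRoot (cM ζ) p := hζ.map_of_injective cM_injective
  obtain ⟨i, hi, hiy⟩ := hζ'.eq_pow_of_pow_eq_one h
  exact ⟨i, hi, by rw [map_pow, hiy]⟩

/-- a meromorphic function on `ℍ` whose `p`-th power is a constant is a constant. -/
theorem h12_const_of_pow_eq_const (p : ℕ) (hp : p ≠ 0) (y : MerH) (c : ℂ)
    (h : y ^ p = cM c) : ∃ c' : ℂ, y = cM c' := by
  by_cases hc : c = 0
  · refine ⟨0, ?_⟩
    rw [hc, map_zero] at h
    rw [map_zero]
    exact pow_eq_zero_iff hp |>.mp h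
  · obtain ⟨c₀, hc₀⟩ := IsAlgClosed.exists_pow_nat_eq c (Nat.pos_of_ne_zero hp)
    have hc₀0 : c₀ ≠ 0 := by
      rintro rfl
      rw [zero_pow hp] at hc₀
      exact hc hc₀.symm
    have hz : cM c₀ ≠ 0 := fun h0 => hc₀0 (cM_injective (by rw [h0, map_zero]))
    have h1 : (y / cM c₀) ^ p = 1 := by
      rw [div_pow, h, ← map_pow, hc₀, div_self]
      exact fun h0 => hc (cM_injective (by rw [h0, map_zero]))
    obtain ⟨i, -, hi⟩ := h12_const_of_pow_eq_one p hp _ (Complex.isPrimitiveRoot_exp p hp) _ h1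
    refine ⟨Complex.exp (2 * Real.pi * Complex.I / p) ^ i * c₀, ?_⟩
    rw [map_mul, ← hi, div_mul_cancel₀ _ hz]

/-- `ζ ^ b = 1 ↔ p ∣ b` for a primitive `p`-th root of unity. -/
theorem h12_zpow_eq_one_iff {p : ℕ} {ζ : ℂ} (hζ : IsPrimitiveRoot ζ p) (b : ℤ) :
    ζ ^ b = 1 ↔ (p : ℤ) ∣ b :=
  hζ.zpow_eq_one_iff_dvd b

/-- a non-zero function of `F_N / ℚ̄` without zeros and poles is a constant. -/
theorem h12_const_of_ord_eq_zero (N : ℕ) [NeZero N] (g : modularFunctionFieldBar N)
    (_hg : g ≠ 0)
    (h : ∀ v : Place (AlgebraicClosure ℚ) (modularFunctionFieldBar N), v.ord g = 0) :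
    ∃ c : AlgebraicClosure ℚ,
      algebraMap (AlgebraicClosure ℚ) (modularFunctionFieldBar N) c = g := by
  classical
  have hfd := Fermat.Agent.S24.Final.finiteDimensional_jF (K := AlgebraicClosure ℚ)
    Fermat.Agent.S18x.E.H12.h12_embQbar N
  have hx := Fermat.Agent.S24.Final.transcendental_jF (AlgebraicClosure ℚ) N
  by_cases hga : IsAlgebraic (AlgebraicClosure ℚ) g
  · have hint : IsIntegral (AlgebraicClosure ℚ) g := hga.isIntegral
    have hq := minpoly.monic hint
    have hd : (minpoly (AlgebraicClosure ℚ) g).degree = 1 :=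
      IsAlgClosed.degree_eq_one_of_irreducible (AlgebraicClosure ℚ) (minpoly.irreducible hint)
    have h0 : Polynomial.aeval g (minpoly (AlgebraicClosure ℚ) g) = 0 := minpoly.aeval _ _
    rw [Polynomial.eq_X_add_C_of_degree_eq_one hd, hq.leadingCoeff, Polynomial.C_1, one_mul,
      Polynomial.aeval_add, Polynomial.aeval_X, Polynomial.aeval_C, add_eq_zero_iff_eq_neg] at h0
    exact ⟨-(minpoly (AlgebraicClosure ℚ) g).coeff 0, by rw [map_neg]; exact h0.symm⟩
  · exfalso
    have hgt : Transcendental (AlgebraicClosure ℚ) g := hga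
    have h1 : FiniteDimensional (AlgebraicClosure ℚ)⟮g⟯ (modularFunctionFieldBar N) :=
      Fermat.Agent.S24.Alg.finiteDimensional_adjoin_of_transcendental hx hgt
    obtain ⟨Z, hZ, hsum⟩ := Fermat.Agent.S24.Alg.exists_zeros g hgt
    have hZe : Z = ∅ := by
      rw [Finset.eq_empty_iff_forall_notMem]
      intro v hv
      have := (hZ v).mp hv
      rw [h v] at this
      exact lt_irrefl _ this
    rw [hZe, Finset.sum_empty] at hsum
    have hpos : 0 < Module.finrank (AlgebraicClosure ℚ)⟮g⟯ (modularFunctionFieldBar N) :=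
      Module.finrank_pos
    omega

end Fermat.Agent.S42x.Kum.H12
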