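import Fermat.Agent.S42x.Root.H9_Inv
import Fermat.Agent.S24.H12_CuspCount
import Fermat.Agent.S24.H12_CuspShape
import Fermat.Agent.S24.H21_NormInf

/-!
# W7 (B2c), cusp part (helper17): `p ∣ ord_Q g` at the places over `j = ∞`

`F = FK K N`, `iota e : F → MerH`.  Let `g ∈ F^*` and `y ∈ MerH` with `y ^ p = iota e g`.

* `h17_cusp_core` : for `γ ∈ SL(2, ℤ)` and `N = d * w` with `γ T^w γ⁻¹ ∈ Γ₀(N)` fixing `y`, the
  cusp valuation of `g` at `γ` (order at `i∞` of the `γ`-translate in the parameter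
  `exp (2 π i z / N)`) is divisible by `p * d`.  (The holomorphic function `c₀ = ρ(b) y`,
  `g = a / b`, is `w`-periodic after translation by `γ` and of moderate growth, hence meromorphic
  at `i∞` in the parameter `exp (2 π i z / w)`.)
* `h17_dvd_ord_cusp` : if `y` is invariant under the parabolic elements `γ T^w γ⁻¹` of `Γ₀(N)`,
  then `p ∣ ord_Q g` at every place `Q` over `j = ∞` - also when `p ∣ N`, since the ramification
  index of `Q` over `j = ∞` is exactly the width of the cusp.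
-/

set_option autoImplicit false
set_option linter.style.haveILetI false
set_option linter.unusedSectionVars false

open UpperHalfPlane CongruenceSubgroup AlgebraicCurve MulAction
open scoped MatrixGroups Manifold

namespace Fermat.Agent.S42x.Kum.H17

open Fermat.Agent.S24 Fermat.Agent.S24.Real Fermat.Agent.S24.Mer Fermat.Agent.S24.Cusp
open Fermat.Agent.S42x.Root.H9

/-- Invariance under one conjugate `γ T^w γ⁻¹` makes the `γ`-translate `w`-periodic. -/
theorem h17_periodic_of_conj {f : ℍ → ℂ} (γ : SL(2, ℤ)) (w : ℤ)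
    (hinv : ∀ z : ℍ, f ((γ * ModularGroup.T ^ w * γ⁻¹) • z) = f z) :
    Function.Periodic ((fun z : ℍ => f (γ • z)) ∘ ofComplex) (w : ℝ) := by
  refine periodic_comp_ofComplex_of_vadd fun z => ?_
  have h1 : ((w : ℝ) +ᵥ z : ℍ) = ModularGroup.T ^ w • z := (modular_T_zpow_smul z w).symm
  show f (γ • ((w : ℝ) +ᵥ z)) = f (γ • z)
  rw [h1, ← hinv (γ • z)]
  congr 1
  rw [← mul_smul, ← mul_smul]
  congr 1
  group

variable {K : Type*} [Field K] [Algebra ℚ K] (e : K →+* ℂ) {N : ℕ}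

/-- `cuspW` of a power. -/
theorem h17_cuspW_pow [NeZero N] (γ : SL(2, ℤ)) (b : AK K N) (hb : b ≠ 0) (n : ℕ) :
    G4.cuspW e γ (b ^ n) = n * G4.cuspW e γ b := by
  induction n with
  | zero =>
    have h1 : (1 : AK K N) = algebraMap K (AK K N) 1 := (map_one _).symm
    rw [pow_zero, h1, G4.cuspW_algebraMap e γ one_ne_zero]
    simp
  | succ n ih =>
    rw [pow_succ, G4.cuspW_mul e γ _ _ (pow_ne_zero n hb) hb, ih]
    push_cast
    ring

/-- **The cusp core.**  If `y ^ p = iota e g` and `y` is fixed by `γ T^w γ⁻¹ ∈ Γ₀(N)`, where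
`N = d * w`, then `p * d` divides the cusp valuation of `g` at `γ`. -/
theorem h17_cusp_core [NeZero N] {p : ℕ} (hp : p ≠ 0) (g : FK K N) (hg : g ≠ 0) (y : MerH)
    (hy : y ^ p = iota e g) (γ : SL(2, ℤ)) {w d : ℕ} (hN : N = d * w)
    (hw : γ * ModularGroup.T ^ (w : ℤ) * γ⁻¹ ∈ Gamma0 N)
    (hinv : tauE (γ * ModularGroup.T ^ (w : ℤ) * γ⁻¹) y = y) :
    ((p : ℤ) * d) ∣ G4.cuspVal e γ g := by
  have hN0 : N ≠ 0 := NeZero.ne N
  have hw0 : w ≠ 0 := by
    rintro rfl
    exact hN0 (by rw [hN, mul_zero])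
  have hd0 : d ≠ 0 := by
    rintro rfl
    exact hN0 (by rw [hN, zero_mul])
  obtain ⟨a, b, hb, hab⟩ := Mer.exists_frac g
  have ha : a ≠ 0 := by
    rintro rfl
    rw [map_zero] at hab
    rcases mul_eq_zero.mp hab with h1 | h1
    · exact hg h1
    · exact hb (inclAK_injective K N (h1.trans (map_zero _).symm))
  have hbH : rhoH e b ≠ 0 := rhoH_ne_zero _ hb
  have hbE : algebraMap HolH MerH (rhoH e b) ≠ 0 := algebraMap_MerH_ne_zero hbH
  -- the holomorphic function `c₀ = ρ(b) y`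
  have hcp : (algebraMap HolH MerH (rhoH e b) * y) ^ p =
      algebraMap HolH MerH (rhoH e (a * b ^ (p - 1))) := by
    rw [mul_pow, hy, iota_eq_div _ g a b hb hab, map_mul, map_mul, map_pow, map_pow]
    obtain ⟨k, rfl⟩ := Nat.exists_eq_succ_of_ne_zero hp
    rw [Nat.succ_sub_one, pow_succ]
    field_simp
  obtain ⟨c₀, hc₀⟩ := h9_holH_of_pow p hp _ _ hcp
  -- invariance under `δ = γ T^w γ⁻¹`
  have hc₀inv : ∀ z : ℍ, c₀.1 ((γ * ModularGroup.T ^ (w : ℤ) * γ⁻¹) • z) = c₀.1 z := by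
    intro z
    have h1 : tauE (γ * ModularGroup.T ^ (w : ℤ) * γ⁻¹) (algebraMap HolH MerH c₀) =
        algebraMap HolH MerH c₀ := by
      rw [hc₀, map_mul, hinv, tauE_algebraMap, tau_rhoH_of_mem _ hw]
    rw [tauE_algebraMap] at h1
    have h2 := algebraMap_MerH_injective h1
    have h3 := congrFun (congrArg Subtype.val h2) ((γ * ModularGroup.T ^ (w : ℤ) * γ⁻¹) • z)
    rw [tau_apply, inv_smul_smul] at h3
    exact h3.symm
  -- pointwise `p`-th power
  have hpow : ∀ z : ℍ, c₀.1 z ^ p = rho e (a * b ^ (p - 1)) z := by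
    intro z
    have h1 : algebraMap HolH MerH (c₀ ^ p) =
        algebraMap HolH MerH (rhoH e (a * b ^ (p - 1))) := by
      rw [map_pow, hc₀, hcp]
    have h2 := algebraMap_MerH_injective h1
    have h3 := congrFun (congrArg Subtype.val h2) z
    simpa using h3
  -- the translate
  set f : ℍ → ℂ := fun z => c₀.1 (γ • z) with hf
  have hper : Function.Periodic (f ∘ ofComplex) ((w : ℕ) : ℝ) := by
    have := h17_periodic_of_conj (f := c₀.1) γ (w : ℤ) hc₀inv
    rw [Int.cast_natCast] at this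
    exact this
  have hol : MDiff f := Fermat.Agent.S23.R4.mdifferentiable_comp_smul c₀.2 γ
  obtain ⟨m, hm⟩ := rho_modGrowth e (a * b ^ (p - 1)) γ
  have hbd : IsBoundedAtImInfty (fun z : ℍ => f z * ModularForm.discriminant z ^ m) :=
    h9_growth_of_pow p hp f (fun z => rho e (a * b ^ (p - 1)) (γ • z))
      (fun z => hpow (γ • z)) m hm
  have hmw : MeroAtInf ((w : ℕ) : ℝ) f := MeroAtInf.of_mul_discriminant_pow hw0 hper hol m hbd
  have hwR : ((w : ℕ) : ℝ) ≠ 0 := by exact_mod_cast hw0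
  have hNR : ((d : ℝ) * (w : ℝ)) = (N : ℝ) := by rw [hN]; push_cast; ring
  have hmN : MeroAtInf (N : ℝ) f := by
    have := hmw.period_mul hwR d hd0
    rwa [hNR] at this
  have hordN : ordInf (N : ℝ) f = d * ordInf ((w : ℕ) : ℝ) f := by
    have := hmw.ordInf_period_mul hwR d hd0
    rwa [hNR] at this
  -- the `p`-th power of the translate
  have hab' : a * b ^ (p - 1) ≠ 0 := mul_ne_zero ha (pow_ne_zero _ hb)
  have hfp : f ^ p = G4.cuspTrans e γ (a * b ^ (p - 1)) := by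
    funext z
    show c₀.1 (γ • z) ^ p = rho e (a * b ^ (p - 1)) (γ • z)
    exact hpow (γ • z)
  have hf0 : f ≠ 0 := by
    intro h0
    apply G4.cuspTrans_ne_zero e γ hab'
    rw [← hfp, h0, zero_pow hp]
  have h1 : G4.cuspW e γ (a * b ^ (p - 1)) = p * ordInf (N : ℝ) f := by
    rw [G4.cuspW, ← hfp]
    exact MeroAtInf.ordInf_pow hmN (G4.h12_Npos N) hf0 p
  have h2 : G4.cuspW e γ (a * b ^ (p - 1)) =
      G4.cuspW e γ a + ((p - 1 : ℕ) : ℤ) * G4.cuspW e γ b := by
    rw [G4.cuspW_mul e γ _ _ ha (pow_ne_zero _ hb), h17_cuspW_pow e γ b hb]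
  obtain ⟨t, ht⟩ := G4.dvd_cuspW_of_width e γ b hN hw
  rw [G4.cuspVal_eq e γ hg hb hab]
  refine ⟨ordInf ((w : ℕ) : ℝ) f - t, ?_⟩
  have h3 : ((p - 1 : ℕ) : ℤ) = (p : ℤ) - 1 := by
    have : 1 ≤ p := Nat.one_le_iff_ne_zero.mpr hp
    push_cast [Nat.cast_sub this]
    ring
  rw [h3] at h2
  rw [h2, hordN, ht] at h1
  linear_combination h1 - ht

end Fermat.Agent.S42x.Kum.H17
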