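import Fermat.Agent.S42x.Kum.H17_Top
import Fermat.Agent.S24.H25_G3Inst

/-!
# W7 (B2c-ell) (helper17): the elliptic points, `p = 2, 3`

* `h17_two_dvd_ordE`, `h17_three_dvd_ordE` : a meromorphic function on the upper half plane
  invariant under `g⁻¹ S g` (resp. `g⁻¹ (S T) g`) has even order at `g⁻¹ • i` (resp. order
  divisible by `3` at `g⁻¹ • ρ`);
* `h17_ord_eq_classCard` : the ramification index of the place of a point over `j = c` is the
  size of the class of the coset;
* `h17_exists_point_ell` : every place `Q` at which `j` is regular is the place of a point `z`,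
  `ord_z = m * ord_Q`, where `m = 1`, or `m = 2` and `z = g⁻¹ • i` with `g⁻¹ S g ∈ Γ₀(N)`, or
  `m = 3` and `z = g⁻¹ • ρ` with `g⁻¹ (S T) g ∈ Γ₀(N)`;
* `h17_dvd_ord_point_all` : (B2c) at these places for EVERY prime `p`, if `y` is invariant under
  the elements of finite order of `Γ₀(N)`;
* `h17_dvd_ord_all` : (B2c) at every place, for every prime `p`.
-/

set_option autoImplicit false
set_option linter.style.haveILetI false
set_option linter.unusedSectionVars false

open UpperHalfPlane CongruenceSubgroup AlgebraicCurve MulAction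
open scoped MatrixGroups Manifold

namespace Fermat.Agent.S42x.Kum.H17

open Fermat.Agent.S24 Fermat.Agent.S24.Real Fermat.Agent.S24.Mer

/-- The cross relation of a fraction invariant under `δ`. -/
theorem h17_cross {a b : HolH} (hb : b ≠ 0) (δ : SL(2, ℤ))
    (hinv : tauE δ (algebraMap HolH MerH a / algebraMap HolH MerH b) =
      algebraMap HolH MerH a / algebraMap HolH MerH b) (z : ℍ) :
    a.1 (δ • z) * b.1 z = a.1 z * b.1 (δ • z) := by
  have hbE : algebraMap HolH MerH b ≠ 0 := algebraMap_MerH_ne_zero hb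
  have hτb : tau δ b ≠ 0 := fun h => hb ((tau δ).injective (h.trans (map_zero _).symm))
  have hτbE : algebraMap HolH MerH (tau δ b) ≠ 0 := algebraMap_MerH_ne_zero hτb
  rw [map_div₀, tauE_algebraMap, tauE_algebraMap, div_eq_div_iff hτbE hbE, ← map_mul,
    ← map_mul] at hinv
  have h2 := algebraMap_MerH_injective hinv
  have h3 := congrFun (congrArg Subtype.val h2) (δ • z)
  simp only [Subring.coe_mul, Pi.mul_apply, tau_apply, inv_smul_smul] at h3
  rw [mul_comm (a.1 z), mul_comm (a.1 (δ • z))]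
  linear_combination -h3

/-- A meromorphic function invariant under `g⁻¹ S g` has even order at `g⁻¹ • i`. -/
theorem h17_two_dvd_ordE (g : SL(2, ℤ)) (y : MerH)
    (hinv : tauE (g⁻¹ * ModularGroup.S * g) y = y) :
    (2 : ℤ) ∣ ordE (g⁻¹ • UpperHalfPlane.I) y := by
  by_cases hy : y = 0
  · rw [hy, ordE_zero]
    exact dvd_zero _
  obtain ⟨a, b, ha, hb, rfl⟩ := exists_rep hy
  rw [ordE_div _ ha hb]
  exact G2.two_dvd_sub_conj_S g a.2 b.2 (h17_cross hb _ hinv)
    (cast_ordN _ ha).symm (cast_ordN _ hb).symm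

/-- A meromorphic function invariant under `g⁻¹ (S T) g` has order divisible by `3` at
`g⁻¹ • ρ`. -/
theorem h17_three_dvd_ordE (g : SL(2, ℤ)) (y : MerH)
    (hinv : tauE (g⁻¹ * (ModularGroup.S * ModularGroup.T) * g) y = y) :
    (3 : ℤ) ∣ ordE (g⁻¹ • G1.rho) y := by
  by_cases hy : y = 0
  · rw [hy, ordE_zero]
    exact dvd_zero _
  obtain ⟨a, b, ha, hb, rfl⟩ := exists_rep hy
  rw [ordE_div _ ha hb]
  exact G2.three_dvd_sub_conj_ST g a.2 b.2 (h17_cross hb _ hinv)
    (cast_ordN _ ha).symm (cast_ordN _ hb).symm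

variable {K : Type*} [Field K] [Algebra ℚ K] [CharZero K] [IsAlgClosed K] (e : K →+* ℂ)
  (N : ℕ) [NeZero N]

open Classical in
/-- **The ramification index of the place of a point** over `j = c` is the size of the class of
the coset (general form, same hypotheses as `G3.card_places_eq_card_quotient`). -/
theorem h17_ord_eq_classCard (c : K) (z0 : ℍ)
    (hz0 : Fermat.Agent.S23.R4.jInv z0 = e c) (r : Setoid (Comb.X N))
    (hr : ∀ k k', r k k' → ∃ δ ∈ Gamma0 N, G3.zk z0 k = δ • G3.zk z0 k')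
    (hc : ∀ k, G3.locDeg (e c) ∣
      Orb.classCard r k * G3.ptMult e N (G3.zk z0 k) c (G3.jInv_zk e z0 c hz0 k))
    (k : Comb.X N) :
    (G3.ptPlace e N (G3.zk z0 k) c (G3.jInv_zk e z0 c hz0 k)).ord
      (Final.jF K N - algebraMap K (FK K N) c) = (Orb.classCard r k : ℤ) := by
  have : Finite (Comb.X N) := Comb.finite_X
  let _ : Fintype (Comb.X N) := Fintype.ofFinite _
  have hfd := G3.finDim_final K N e
  obtain ⟨S, hS, hsum⟩ := Alg.fundId_sub (Final.jF K N) (Final.transcendental_jF K N) c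
  rw [G3.finrank_eq_final K N e, Nat.card_eq_fintype_card] at hsum
  refine (Orb.orbit_place r
    (fun k => G3.ptPlace e N (G3.zk z0 k) c (G3.jInv_zk e z0 c hz0 k))
    (fun k => G3.ptMult e N (G3.zk z0 k) c (G3.jInv_zk e z0 c hz0 k))
    (Final.jF K N - algebraMap K (FK K N) c) (G3.locDeg (e c)) (G3.locDeg_pos _)
    (fun k => G3.ptMult_mul_ord e (G3.zk z0 k) c (G3.jInv_zk e z0 c hz0 k)) ?_ hc
    (SurjFin.hsurj e N c z0 hz0) S hS hsum).2 k
  intro k k' hkk'
  obtain ⟨δ, hδ, h⟩ := hr k k' hkk'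
  refine G3.ptPlace_eq_of_ordAt_eq e c _ _ fun x => ?_
  rw [h, ordAt_smul_of_mem_Gamma0 e hδ]

end Fermat.Agent.S42x.Kum.H17
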