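import Fermat.Agent.S24.H23_SurjFin
import Fermat.Agent.S24.H15_DiffFK

/-!
# W7 (B2c), point part (helper17): `p ∣ ord_Q g` at the places where `j` is regular

`F = FK K N` is the modular function field over an algebraically closed field `K ⊆ ℂ` (via `e`),
`iota e : F → MerH` the realisation by meromorphic functions on the upper half plane.

* `h17_exists_point` : every place `Q` of `F / K` at which `j` is regular is the place of a point
  `z` of the upper half plane: `ord_z = m * ord_Q` with `m ∣ 6`;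
* `h17_dvd_ord_point` : if `iota e g = y ^ p` in `MerH` with `p ≥ 5` prime, then `p ∣ ord_Q g`
  at every such place.  No hypothesis on the transformation behaviour of `y` is needed.
-/

set_option autoImplicit false
set_option linter.style.haveILetI false
set_option linter.unusedSectionVars false

open UpperHalfPlane CongruenceSubgroup AlgebraicCurve
open scoped MatrixGroups Manifold

namespace Fermat.Agent.S42x.Kum.H17

open Fermat.Agent.S24 Fermat.Agent.S24.Real Fermat.Agent.S24.Mer

variable {K : Type*} [Field K] [Algebra ℚ K] [CharZero K] [IsAlgClosed K] (e : K →+* ℂ)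
  (N : ℕ) [NeZero N]

/-- The local degree of `j` divides `6`. -/
theorem h17_locDeg_dvd_six (c : ℂ) : G3.locDeg c ∣ 6 := by
  unfold G3.locDeg
  split_ifs
  · exact ⟨2, rfl⟩
  · exact ⟨3, rfl⟩
  · exact one_dvd _

include e in
/-- `j` is not a constant of the modular function field. -/
theorem h17_jF_not_const : Final.jF K N ∉ Set.range (algebraMap K (FK K N)) := by
  rintro ⟨c, hc⟩
  exact Final.transcendental_jF K N (hc ▸ isAlgebraic_algebraMap c)

/-- **Every place at which `j` is regular is the place of a point of the upper half plane.** -/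
theorem h17_exists_point (Q : Place K (FK K N)) (hQ : 0 ≤ Q.ord (Final.jF K N)) :
    ∃ (z : ℍ) (m : ℕ), 0 < m ∧ m ∣ 6 ∧
      ∀ h : FK K N, h ≠ 0 → Mer.ordAt e z h = (m : ℤ) * Q.ord h := by
  rcases RH.ord_pos_or_ord_neg Q (RH.residueTrivial_FK e N Q) (h17_jF_not_const e N) with
    hneg | ⟨c, hc⟩
  · exact absurd hneg (not_lt.mpr hQ)
  obtain ⟨z0, hz0⟩ := G1.jInv_surjective (e c)
  obtain ⟨k, hk⟩ := SurjFin.hsurj e N c z0 hz0 Q hc
  refine ⟨G3.zk z0 k, G3.ptMult e N (G3.zk z0 k) c (G3.jInv_zk e z0 c hz0 k),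
    G3.ptMult_pos e _ c _, ?_, fun h hh => ?_⟩
  · have h1 := G3.ptMult_mul_ord (N := N) e (G3.zk z0 k) c (G3.jInv_zk e z0 c hz0 k)
    have h2 : ((G3.ptMult e N (G3.zk z0 k) c (G3.jInv_zk e z0 c hz0 k) : ℕ) : ℤ) ∣
        (G3.locDeg (e c) : ℤ) := Dvd.intro _ h1
    exact (Int.natCast_dvd_natCast.mp h2).trans (h17_locDeg_dvd_six (e c))
  · rw [SurjFin.mer_ordAt_eq_real, G3.ordAt_eq_ptMult_mul e _ c (G3.jInv_zk e z0 c hz0 k) hh, hk]

/-- **(B2c), point part.**  If `iota e g` is a `p`-th power in `MerH`, `p ≥ 5` prime, then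
`p ∣ ord_Q g` at every place `Q` at which `j` is regular. -/
theorem h17_dvd_ord_point {p : ℕ} (hp : p.Prime) (hp5 : 5 ≤ p) (g : FK K N) (hg : g ≠ 0)
    (y : MerH) (hy : y ^ p = iota e g) (Q : Place K (FK K N))
    (hQ : 0 ≤ Q.ord (Final.jF K N)) : (p : ℤ) ∣ Q.ord g := by
  obtain ⟨z, m, hm, hm6, hord⟩ := h17_exists_point e N Q hQ
  have h1 : (p : ℤ) * ordE z y = (m : ℤ) * Q.ord g := by
    rw [← hord g hg, Mer.ordAt_def, ← hy, ordE_pow]
  have hcop : Nat.Coprime p m := by
    rw [Nat.Prime.coprime_iff_not_dvd hp]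
    intro hpm
    have h6 : p ∣ 6 := hpm.trans hm6
    have := Nat.le_of_dvd (by norm_num) h6
    interval_cases p
    · norm_num at h6
    · exact absurd hp (by norm_num)
  have hcop' : IsCoprime (p : ℤ) (m : ℤ) := Nat.isCoprime_iff_coprime.mpr hcop
  exact hcop'.dvd_of_dvd_mul_left (Dvd.intro _ h1)

end Fermat.Agent.S42x.Kum.H17
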