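import Fermat.Agent.S42x.Kum.H17_Point
import Fermat.Agent.S42x.Kum.H17_Cusp

/-!
# W7 (B2c), top (helper17): `p ∣ ord_Q g` at every place

`F = FK K N` over an algebraically closed field `K ⊆ ℂ` (via `e`), `g ∈ F^*`, `y ∈ MerH` with
`y ^ p = iota e g`, `p ≥ 5` prime, and `y` invariant under the parabolic elements
`γ T^w γ⁻¹` of `Γ₀(N)`.

* `h17_exists_cusp`   : every place over `j = ∞` is a cusp place `cuspPlace e N γ`, with
  `N = cuspMult * w` and `γ T^w γ⁻¹ ∈ Γ₀(N)` (`w` = the width = the ramification index);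
* `h17_dvd_ord_cusp`  : `p ∣ ord_Q g` at the places over `j = ∞` (any `p ≠ 0`, also `p ∣ N`);
* `h17_dvd_ord`       : `p ∣ ord_Q g` at every place;
* `h17_hpar_of_char`  : the parabolic invariance from a character relation
  `tauE γ y = c(γ) * y` with `c(γ) = 1` on the elements of trace `2`.
-/

set_option autoImplicit false
set_option linter.style.haveILetI false
set_option linter.unusedSectionVars false

open UpperHalfPlane CongruenceSubgroup AlgebraicCurve MulAction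
open scoped MatrixGroups Manifold

namespace Fermat.Agent.S42x.Kum.H17

open Fermat.Agent.S24 Fermat.Agent.S24.Real Fermat.Agent.S24.Mer Fermat.Agent.S24.Cusp

variable {K : Type*} [Field K] [Algebra ℚ K] [CharZero K] [IsAlgClosed K] (e : K →+* ℂ)
  (N : ℕ) [NeZero N]

/-- **Every place over `j = ∞` is a cusp place**, whose multiplicity is `N / w` for the width
`w` of the cusp. -/
theorem h17_exists_cusp (Q : Place K (FK K N)) (hQ : Q.ord (Final.jF K N) < 0) :
    ∃ (γ : SL(2, ℤ)) (w : ℕ), G4.cuspPlace e N γ = Q ∧ N = G4.cuspMult e N γ * w ∧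
      γ * ModularGroup.T ^ (w : ℤ) * γ⁻¹ ∈ Gamma0 N := by
  haveI : FiniteDimensional (IntermediateField.adjoin K {G4.jF K N}) (FK K N) :=
    Final.finiteDimensional_jF e N
  have hd : ∀ Q : Place K (FK K N), 0 < Q.ord (G4.jF K N)⁻¹ →
      ∃ k : Comb.X N, G4.cosetPlace e N k = Q :=
    CRT.surj_of_norm_R_inv_of_ord_pos (G4.cosetPlace e N) (G4.jF K N)
      (G4.ord_cosetPlace_pos e N) (Mer.hNORM_inf e N)
  have hQ' : 0 < Q.ord (G4.jF K N)⁻¹ := by
    rw [Place.ord_inv]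
    have : Q.ord (G4.jF K N) < 0 := hQ
    omega
  obtain ⟨k, hk⟩ := hd Q hQ'
  have h1 := G4.cosetMult_mul_ord e N k
  have h2 := (G4.cosetPlace_eq_iff_of_surj_of_fundId e N hd (G4.fundId_jF_inv e N)).2 k
  refine ⟨(Quotient.out k)⁻¹,
    Orb.classCard (orbitRel (Subgroup.zpowers ModularGroup.T) (Comb.X N)) k, hk, ?_, ?_⟩
  · rw [h2] at h1
    have h3 : ((G4.cuspMult e N (Quotient.out k)⁻¹ *
        Orb.classCard (orbitRel (Subgroup.zpowers ModularGroup.T) (Comb.X N)) k : ℕ) : ℤ) =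
        (N : ℤ) := by
      push_cast
      exact h1
    exact_mod_cast h3.symm
  · rw [inv_inv, zpow_natCast]
    exact Comb.h9_conj_pow_classCard_mem ModularGroup.T k

/-- **(B2c), cusp part.**  If `iota e g = y ^ p` and `y` is invariant under the parabolic
elements `γ T^w γ⁻¹` of `Γ₀(N)`, then `p ∣ ord_Q g` at every place `Q` over `j = ∞`. -/
theorem h17_dvd_ord_cusp {p : ℕ} (hp0 : p ≠ 0) (g : FK K N) (hg : g ≠ 0)
    (y : MerH) (hy : y ^ p = iota e g)
    (hpar : ∀ (γ : SL(2, ℤ)) (w : ℤ), γ * ModularGroup.T ^ w * γ⁻¹ ∈ Gamma0 N →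
      tauE (γ * ModularGroup.T ^ w * γ⁻¹) y = y)
    (Q : Place K (FK K N)) (hQ : Q.ord (Final.jF K N) < 0) : (p : ℤ) ∣ Q.ord g := by
  obtain ⟨γ, w, hγQ, hN, hw⟩ := h17_exists_cusp e N Q hQ
  have h1 := h17_cusp_core e hp0 g hg y hy γ hN hw (hpar γ w hw)
  rw [G4.cuspVal_eq_mul_ord e γ hg, hγQ, mul_comm (p : ℤ)] at h1
  have hd0 : ((G4.cuspMult e N γ : ℕ) : ℤ) ≠ 0 := by
    exact_mod_cast (G4.cuspMult_pos (N := N) e γ).ne'
  exact (mul_dvd_mul_iff_left hd0).mp h1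

/-- **(B2c).**  If `iota e g = y ^ p` in `MerH` with `p ≥ 5` prime and `y` is invariant under the
parabolic elements `γ T^w γ⁻¹` of `Γ₀(N)`, then `p ∣ ord_Q g` at EVERY place `Q` of the modular
function field. -/
theorem h17_dvd_ord {p : ℕ} (hp : p.Prime) (hp5 : 5 ≤ p) (g : FK K N) (hg : g ≠ 0)
    (y : MerH) (hy : y ^ p = iota e g)
    (hpar : ∀ (γ : SL(2, ℤ)) (w : ℤ), γ * ModularGroup.T ^ w * γ⁻¹ ∈ Gamma0 N →
      tauE (γ * ModularGroup.T ^ w * γ⁻¹) y = y)
    (Q : Place K (FK K N)) : (p : ℤ) ∣ Q.ord g := by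
  rcases lt_or_ge (Q.ord (Final.jF K N)) 0 with hQ | hQ
  · exact h17_dvd_ord_cusp e N hp.ne_zero g hg y hy hpar Q hQ
  · exact h17_dvd_ord_point e N hp hp5 g hg y hy Q hQ

omit [CharZero K] [IsAlgClosed K] [NeZero N] in
/-- The trace of a conjugate of a power of `T` is `2`. -/
theorem h17_trace_conj (γ : SL(2, ℤ)) (w : ℤ) :
    ((γ * ModularGroup.T ^ w * γ⁻¹ : SL(2, ℤ)) : Matrix (Fin 2) (Fin 2) ℤ).trace = 2 := by
  have hT : ((ModularGroup.T ^ w : SL(2, ℤ)) : Matrix (Fin 2) (Fin 2) ℤ) = !![1, w; 0, 1] :=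
    ModularGroup.coe_T_zpow w
  rw [Matrix.SpecialLinearGroup.coe_mul, Matrix.trace_mul_comm, ← Matrix.SpecialLinearGroup.coe_mul,
    ← mul_assoc, inv_mul_cancel, one_mul, hT]
  simp [Matrix.trace_fin_two]

end Fermat.Agent.S42x.Kum.H17
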