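import Mathlib
import Fermat.Agent.S24.H21_NormInf
import Fermat.Agent.S24.H12_CuspCount
import Fermat.Agent.S24.H7_CuspBridge
import Fermat.Agent.S42x.Root.H9_Char

/-!
# W7 (B2c), cusp part (helper28): `p ∣ ord_v g` at the poles of `j`

`g` a modular function of level `N` over `ℂ` and `y` a meromorphic function on `ℍ` with
`y ^ p = g` which is invariant under the unipotent elements of `Γ₀(N)`: then `p ∣ ord_v g`
at every pole `v` of `j`.  No growth hypothesis on `y`.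
-/

set_option autoImplicit false
set_option linter.unusedSectionVars false
set_option linter.style.haveILetI false

noncomputable section

namespace Fermat.Agent.S42x.Kum.H28

open UpperHalfPlane CongruenceSubgroup AlgebraicCurve Filter Function MulAction
open Fermat.Agent.S24 Fermat.Agent.S24.Real Fermat.Agent.S24.Mer Fermat.Agent.S24.Cusp
  Fermat.Agent.S24.Comb Fermat.Agent.S24.Orb
open Fermat.Agent.S42x.Root.H9
open scoped MatrixGroups Manifold

/-- a function with a bounded power is bounded -/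
theorem h28_bdd_of_pow {f : ℍ → ℂ} {p : ℕ} (hp : p ≠ 0) (h : IsBoundedAtImInfty (f ^ p)) :
    IsBoundedAtImInfty f := by
  rw [UpperHalfPlane.isBoundedAtImInfty_iff] at h ⊢
  obtain ⟨M, A, hMA⟩ := h
  refine ⟨max M 1, A, fun z hz => ?_⟩
  have h1 := hMA z hz
  simp only [Pi.pow_apply, norm_pow] at h1
  by_cases h2 : ‖f z‖ ≤ 1
  · exact h2.trans (le_max_right _ _)
  · have h2 := not_le.mp h2
    have h3 : ‖f z‖ ≤ ‖f z‖ ^ p := le_self_pow₀ h2.le hp
    exact (h3.trans h1).trans (le_max_left _ _)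

/-- **the root is holomorphic after clearing the denominator** -/
theorem h28_exists_holo_root (p : ℕ) (hp : p ≠ 0) (y : MerH) (A B : HolH) (hA : A ≠ 0)
    (hB : B ≠ 0) (hy : y ^ p = algebraMap HolH MerH A / algebraMap HolH MerH B) :
    ∃ Y : HolH, algebraMap HolH MerH Y = y * algebraMap HolH MerH B ∧
      Y ^ p = A * B ^ (p - 1) := by
  have hH0 : A * B ^ (p - 1) ≠ 0 := mul_ne_zero hA (pow_ne_zero _ hB)
  have hB' : algebraMap HolH MerH B ≠ 0 := algebraMap_MerH_ne_zero hB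
  have hYp : (y * algebraMap HolH MerH B) ^ p = algebraMap HolH MerH (A * B ^ (p - 1)) := by
    rw [mul_pow, hy, map_mul, map_pow]
    have : algebraMap HolH MerH B ^ p
        = algebraMap HolH MerH B * algebraMap HolH MerH B ^ (p - 1) := by
      rw [← pow_succ', Nat.sub_add_cancel (Nat.pos_of_ne_zero hp)]
    rw [this]
    field_simp
  have hdiv : ∀ z : ℍ, p ∣ ordN z (A * B ^ (p - 1)) := by
    intro z
    have h1 := congrArg (ordE z) hYp
    rw [ordE_pow, ordE_algebraMap] at h1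
    have : (p : ℤ) ∣ (ordN z (A * B ^ (p - 1)) : ℤ) := Dvd.intro _ h1
    exact_mod_cast this
  obtain ⟨c, hc⟩ := h9_root_holH p hp (A * B ^ (p - 1)) hH0 hdiv
  have hc0 : c ≠ 0 := by
    rintro rfl
    rw [zero_pow hp] at hc
    exact hH0 hc.symm
  have hc' : algebraMap HolH MerH c ≠ 0 := algebraMap_MerH_ne_zero hc0
  have hu : (y * algebraMap HolH MerH B / algebraMap HolH MerH c) ^ p = 1 := by
    rw [div_pow, hYp, ← map_pow, hc]
    exact div_self (algebraMap_MerH_ne_zero hH0)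
  obtain ⟨ζ, hζ, hζu⟩ := h9_const_of_pow_eq_one p hp _ hu
  refine ⟨constH ζ * c, ?_, ?_⟩
  · rw [map_mul, ← h9constE_apply, ← hζu]
    field_simp
  · rw [mul_pow, ← map_pow, hζ, map_one, one_mul, hc]

/-- **a holomorphic periodic `p`-th root of a function meromorphic at `i∞` is meromorphic at
`i∞`** -/
theorem h28_meroAtInf_root {w : ℝ} (hw : 0 < w) {p : ℕ} (hp : p ≠ 0) {Y H : ℍ → ℂ}
    (hper : Function.Periodic (Y ∘ ofComplex) w) (hol : MDiff Y) (hH : MeroAtInf w H)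
    (hH0 : H ≠ 0) (hYH : Y ^ p = H) : MeroAtInf w Y := by
  have hq := meroAtInf_qFun hw
  have hq0 := qFun_ne_zero_fun w
  have hqm := hq.pow (-ordInf w H).toNat
  have hqm0 : (G4.qFun w : ℍ → ℂ) ^ (-ordInf w H).toNat ≠ 0 := pow_ne_zero _ hq0
  refine MeroAtInf.of_mul_isBounded hper hol hqm hw hqm0 ?_
  apply h28_bdd_of_pow hp
  have h1 : (Y * G4.qFun w ^ (-ordInf w H).toNat) ^ p
      = (H * G4.qFun w ^ (-ordInf w H).toNat) * (G4.qFun w ^ (-ordInf w H).toNat) ^ (p - 1) := by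
    rw [mul_pow, hYH, mul_assoc, ← pow_succ', Nat.sub_add_cancel (Nat.pos_of_ne_zero hp)]
  rw [h1]
  have hb1 : IsBoundedAtImInfty (H * G4.qFun w ^ (-ordInf w H).toNat) := by
    rw [← (hH.mul hqm).ordInf_nonneg_iff hw (MeroAtInf.mul_ne_zero hH hqm hH0 hqm0),
      MeroAtInf.ordInf_mul hH hqm hw hH0 hqm0, MeroAtInf.ordInf_pow hq hw hq0, ordInf_qFun hw]
    have := Int.self_le_toNat (-ordInf w H)
    omega
  have hb2 : IsBoundedAtImInfty ((G4.qFun w ^ (-ordInf w H).toNat) ^ (p - 1)) := by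
    rw [← pow_mul]
    exact ((G4.nice_qFun hw).pow _).bdd
  exact hb1.mul hb2

/-- the order at `i∞` of a `p`-th root -/
theorem h28_ordInf_root {w : ℝ} (hw : 0 < w) {p : ℕ} (hp : p ≠ 0) {Y H : ℍ → ℂ}
    (hY : MeroAtInf w Y) (hH0 : H ≠ 0) (hYH : Y ^ p = H) :
    ordInf w H = p * ordInf w Y := by
  have hY0 : Y ≠ 0 := by
    rintro rfl
    rw [zero_pow hp] at hYH
    exact hH0 hYH.symm
  rw [← hYH, MeroAtInf.ordInf_pow hY hw hY0]

/-- the conjugates of the powers of `T` have trace `2` -/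
theorem h28_trace_conj_T (γ : SL(2, ℤ)) (n : ℤ) :
    ((γ * ModularGroup.T ^ n * γ⁻¹ : SL(2, ℤ)) : Matrix (Fin 2) (Fin 2) ℤ).trace = 2 := by
  have h1 : ((γ * ModularGroup.T ^ n * γ⁻¹ : SL(2, ℤ)) : Matrix (Fin 2) (Fin 2) ℤ)
      = (γ : Matrix (Fin 2) (Fin 2) ℤ)
        * ((ModularGroup.T ^ n * γ⁻¹ : SL(2, ℤ)) : Matrix (Fin 2) (Fin 2) ℤ) := by
    rw [mul_assoc, Matrix.SpecialLinearGroup.coe_mul]
  rw [h1, Matrix.trace_mul_comm, ← Matrix.SpecialLinearGroup.coe_mul, mul_assoc,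
    inv_mul_cancel, mul_one, ModularGroup.coe_T_zpow, Matrix.trace_fin_two]
  simp

variable (N : ℕ) [NeZero N]

/-- **(B2c), cusp part, valuation form**: the cusp valuation of `g` at `γ` is divisible by
`p * (N / w)` for every `w` with `γ T^w γ⁻¹ ∈ Γ₀(N)`. -/
theorem h28_dvd_cuspVal (p : ℕ) (hp : p ≠ 0) (g : FK ℂ N) (hg : g ≠ 0) (y : MerH)
    (hy : y ^ p = iota (RingHom.id ℂ) g)
    (hpar : ∀ δ : SL(2, ℤ), δ ∈ Gamma0 N →
      (δ : Matrix (Fin 2) (Fin 2) ℤ).trace = 2 → tauE δ y = y)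
    (γ : SL(2, ℤ)) (w d : ℕ) (hN : N = d * w)
    (hw : γ * ModularGroup.T ^ (w : ℤ) * γ⁻¹ ∈ Gamma0 N) :
    ((p : ℤ) * (d : ℤ)) ∣ G4.cuspVal (RingHom.id ℂ) γ g := by
  have hN0 : N ≠ 0 := NeZero.ne N
  have hw0 : w ≠ 0 := by
    rintro rfl
    exact hN0 (by rw [hN, mul_zero])
  have hd0 : d ≠ 0 := by
    rintro rfl
    exact hN0 (by rw [hN, zero_mul])
  have hwR : (0 : ℝ) < (w : ℝ) := Nat.cast_pos.mpr (Nat.pos_of_ne_zero hw0)
  obtain ⟨a, b, hb, hab⟩ := Mer.exists_frac g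
  have ha : a ≠ 0 := by
    rintro rfl
    rw [map_zero] at hab
    rcases mul_eq_zero.mp hab with h1 | h1
    · exact hg h1
    · exact hb (inclAK_injective ℂ N (h1.trans (map_zero _).symm))
  have hi := iota_eq_div (RingHom.id ℂ) g a b hb hab
  obtain ⟨Y, hY1, hY2⟩ := h28_exists_holo_root p hp y (rhoH (RingHom.id ℂ) a)
    (rhoH (RingHom.id ℂ) b) (rhoH_ne_zero _ ha) (rhoH_ne_zero _ hb) (hy.trans hi)
  -- invariance of `Y`
  have hδ : (γ * ModularGroup.T ^ (w : ℤ) * γ⁻¹)⁻¹ ∈ Gamma0 N := inv_mem hw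
  have hδe : (γ * ModularGroup.T ^ (w : ℤ) * γ⁻¹)⁻¹ = γ * ModularGroup.T ^ (-(w : ℤ)) * γ⁻¹ := by
    rw [zpow_neg]
    group
  have htr : (((γ * ModularGroup.T ^ (w : ℤ) * γ⁻¹)⁻¹ : SL(2, ℤ)) :
      Matrix (Fin 2) (Fin 2) ℤ).trace = 2 := by
    rw [hδe]
    exact h28_trace_conj_T γ _
  have hYinv : tau (γ * ModularGroup.T ^ (w : ℤ) * γ⁻¹)⁻¹ Y = Y := by
    apply algebraMap_MerH_injective
    rw [← tauE_algebraMap, hY1, map_mul, hpar _ hδ htr, tauE_algebraMap,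
      tau_rhoH_of_mem _ hδ]
  -- the translate
  have hol : MDiff (fun z : ℍ => (Y : ℍ → ℂ) (γ • z)) := mdiff_comp_smul Y.2 γ
  have hper : Function.Periodic ((fun z : ℍ => (Y : ℍ → ℂ) (γ • z)) ∘ ofComplex) (w : ℝ) := by
    refine periodic_comp_ofComplex_of_vadd fun z => ?_
    have h1 : (((w : ℤ) : ℝ) +ᵥ z : ℍ) = ModularGroup.T ^ (w : ℤ) • z :=
      (modular_T_zpow_smul z w).symm
    rw [Int.cast_natCast] at h1
    show (Y : ℍ → ℂ) (γ • ((w : ℝ) +ᵥ z)) = (Y : ℍ → ℂ) (γ • z)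
    rw [h1]
    have h2 := congrFun (congrArg Subtype.val hYinv) (γ • z)
    rw [tau_apply, inv_inv] at h2
    rw [← h2]
    rw [← mul_smul, ← mul_smul]
    group
  have haγ := G4.meroAtInf_cuspTrans_width (RingHom.id ℂ) γ a hw0 hw
  have hbγ := G4.meroAtInf_cuspTrans_width (RingHom.id ℂ) γ b hw0 hw
  have haγ0 := G4.cuspTrans_ne_zero (RingHom.id ℂ) γ ha
  have hbγ0 := G4.cuspTrans_ne_zero (RingHom.id ℂ) γ hb
  have hbp := hbγ.pow (p - 1)
  have hbp0 : G4.cuspTrans (RingHom.id ℂ) γ b ^ (p - 1) ≠ 0 := by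
    intro h0
    obtain ⟨z, hz⟩ := Function.ne_iff.mp hbγ0
    have := congrFun h0 z
    simp only [Pi.pow_apply, Pi.zero_apply] at this hz
    exact hz (pow_eq_zero_iff (n := p - 1) (by
      intro h; rw [h, pow_zero] at this; exact one_ne_zero this) |>.mp this)
  have hH := haγ.mul hbp
  have hH0 := MeroAtInf.mul_ne_zero haγ hbp haγ0 hbp0
  have hYH : (fun z : ℍ => (Y : ℍ → ℂ) (γ • z)) ^ p
      = G4.cuspTrans (RingHom.id ℂ) γ a * G4.cuspTrans (RingHom.id ℂ) γ b ^ (p - 1) := by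
    funext z
    have h2 := congrFun (congrArg Subtype.val hY2) (γ • z)
    simpa [G4.cuspTrans] using h2
  have hYm := h28_meroAtInf_root hwR hp hper hol hH hH0 hYH
  have hord := h28_ordInf_root hwR hp hYm hH0 hYH
  rw [MeroAtInf.ordInf_mul haγ hbp hwR haγ0 hbp0, MeroAtInf.ordInf_pow hbγ hwR hbγ0] at hord
  -- the cusp valuation
  have hNR : ((d : ℝ) * (w : ℝ)) = (N : ℝ) := by rw [hN]; push_cast; ring
  have h1 := haγ.ordInf_period_mul hwR.ne' d hd0
  have h2 := hbγ.ordInf_period_mul hwR.ne' d hd0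
  rw [hNR] at h1 h2
  have hval := G4.cuspVal_eq (RingHom.id ℂ) γ hg hb hab
  rw [G4.cuspW, G4.cuspW, h1, h2] at hval
  rw [hval]
  refine ⟨ordInf (w : ℝ) (fun z : ℍ => (Y : ℍ → ℂ) (γ • z))
    - ordInf (w : ℝ) (G4.cuspTrans (RingHom.id ℂ) γ b), ?_⟩
  have hp1 : ((p - 1 : ℕ) : ℤ) = (p : ℤ) - 1 := by
    rw [Nat.cast_sub (Nat.pos_of_ne_zero hp)]
    simp
  rw [hp1] at hord
  linear_combination (d : ℤ) * hord

end Fermat.Agent.S42x.Kum.H28
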