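import Mathlib
import Fermat.Agent.S24.H23_SurjFin
import Fermat.Agent.S24.H15_DiffFK

/-!
# W7 (B2c), point part (helper28): `p ∣ ord_v g` at the places over a finite value of `j`

`g` a modular function of level `N` over `ℂ` and `y` a meromorphic function on `ℍ` with
`y ^ p = g`, `p` prime to `6`: then `p ∣ ord_v g` at every place `v` of the function field
which is not a pole of `j`.
-/

set_option autoImplicit false
set_option linter.unusedSectionVars false
set_option linter.style.haveILetI false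

noncomputable section

namespace Fermat.Agent.S42x.Kum.H28

open UpperHalfPlane CongruenceSubgroup AlgebraicCurve
open Fermat.Agent.S24 Fermat.Agent.S24.Real Fermat.Agent.S24.Mer
open scoped MatrixGroups

variable (N : ℕ) [NeZero N]

/-- the element `j` of the modular function field is not a constant -/
theorem h28_jF_not_const :
    Final.jF ℂ N ∉ Set.range (algebraMap ℂ (FK ℂ N)) := by
  rintro ⟨c, hc⟩
  exact Final.transcendental_jF ℂ N (hc ▸ isAlgebraic_algebraMap c)

/-- every place of the modular function field over `ℂ` is a pole of `j` or lies over a finite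
value of `j` -/
theorem h28_pole_or_value (v : Place ℂ (FK ℂ N)) :
    v.ord (Final.jF ℂ N) < 0 ∨
      ∃ c : ℂ, 0 < v.ord (Final.jF ℂ N - algebraMap ℂ (FK ℂ N) c) :=
  RH.ord_pos_or_ord_neg v (RH.residueTrivial_FK (RingHom.id ℂ) N v) (h28_jF_not_const N)

/-- the local multiplicity at a point is prime to every `p` prime to `6` -/
theorem h28_coprime_of_mul_eq_locDeg {p m : ℕ} (hp : Nat.Coprime p 6) {t : ℤ} {c : ℂ}
    (h : (m : ℤ) * t = (G3.locDeg c : ℤ)) : Nat.Coprime p m := by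
  have hm : (m : ℤ) ∣ (G3.locDeg c : ℤ) := Dvd.intro _ h
  have hm' : m ∣ G3.locDeg c := by exact_mod_cast hm
  have h6 : G3.locDeg c ∣ 6 := by
    unfold G3.locDeg
    split_ifs <;> norm_num
  exact Nat.Coprime.coprime_dvd_right (hm'.trans h6) hp

/-- **(B2c), point part**: `p ∣ ord_v g` at the places over finite values of `j`. -/
theorem h28_dvd_ord_point (p : ℕ) (hp : Nat.Coprime p 6) (g : FK ℂ N) (y : MerH)
    (hy : y ^ p = iota (RingHom.id ℂ) g) (v : Place ℂ (FK ℂ N)) (c : ℂ)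
    (hv : 0 < v.ord (Final.jF ℂ N - algebraMap ℂ (FK ℂ N) c)) : (p : ℤ) ∣ v.ord g := by
  by_cases hg : g = 0
  · subst hg
    simp
  obtain ⟨z0, hz0⟩ := G1.jInv_surjective c
  have hz0' : Fermat.Agent.S23.R4.jInv z0 = (RingHom.id ℂ) c := hz0
  obtain ⟨k, hk⟩ := SurjFin.hsurj (RingHom.id ℂ) N c z0 hz0' v hv
  have h1 := G3.ordAt_eq_ptMult_mul (N := N) (RingHom.id ℂ) (G3.zk z0 k) c
    (G3.jInv_zk (RingHom.id ℂ) z0 c hz0' k) hg
  have h2 := G3.ptMult_mul_ord (N := N) (RingHom.id ℂ) (G3.zk z0 k) c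
    (G3.jInv_zk (RingHom.id ℂ) z0 c hz0' k)
  rw [hk] at h1 h2
  have hcop := h28_coprime_of_mul_eq_locDeg hp h2
  have h3 : Real.ordAt (RingHom.id ℂ) (G3.zk z0 k) g = (p : ℤ) * ordE (G3.zk z0 k) y := by
    rw [← SurjFin.mer_ordAt_eq_real, Mer.ordAt_def, ← hy, ordE_pow]
  rw [h3] at h1
  have h4 : (p : ℤ) ∣ (G3.ptMult (RingHom.id ℂ) N (G3.zk z0 k) c
      (G3.jInv_zk (RingHom.id ℂ) z0 c hz0' k) : ℤ) * v.ord g := Dvd.intro _ h1
  have hcop' : IsCoprime (p : ℤ) (G3.ptMult (RingHom.id ℂ) N (G3.zk z0 k) c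
      (G3.jInv_zk (RingHom.id ℂ) z0 c hz0' k) : ℤ) := Nat.isCoprime_iff_coprime.mpr hcop
  exact hcop'.dvd_of_dvd_mul_left h4

end Fermat.Agent.S42x.Kum.H28
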