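import Mathlib
import Fermat.Agent.S42x.Kum.H28_OrdPoint
import Fermat.Agent.S42x.Kum.H28_OrdCusp
import Fermat.Agent.S18x.E.H12_Div

/-!
# W7 (B2c) (helper28): `p ∣ ord_v g` at every place of the modular function field over `ℂ`

`g` a modular function of level `N` over `ℂ`, `y` a meromorphic function on `ℍ` with
`y ^ p = g`, invariant under the unipotent elements of `Γ₀(N)`, `p` prime to `6`:
then `p ∣ ord_v g` at every place `v` of the function field.

* `h28_dvd_ord_point` : the places over the finite values of `j` (no invariance needed);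
* `h28_dvd_ord_cusp` : the poles of `j` (any `p ≠ 0`);
* `h28_dvd_ord` : all places;
* `h28_exists_divisor` : the divisor `D` with `p • D = div g`.
-/

set_option autoImplicit false
set_option linter.unusedSectionVars false
set_option linter.style.haveILetI false

noncomputable section

namespace Fermat.Agent.S42x.Kum.H28

open UpperHalfPlane CongruenceSubgroup AlgebraicCurve Filter Function MulAction
open Fermat.Agent.S24 Fermat.Agent.S24.Real Fermat.Agent.S24.Mer Fermat.Agent.S24.Cusp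
  Fermat.Agent.S24.Comb Fermat.Agent.S24.Orb
open scoped MatrixGroups Manifold

variable (N : ℕ) [NeZero N]

/-- every pole of `j` is a cusp place -/
theorem h28_exists_cosetPlace (v : Place ℂ (FK ℂ N)) (hv : v.ord (Final.jF ℂ N) < 0) :
    ∃ k : X N, G4.cosetPlace (RingHom.id ℂ) N k = v := by
  haveI : FiniteDimensional (IntermediateField.adjoin ℂ {G4.jF ℂ N}) (FK ℂ N) :=
    Final.finiteDimensional_jF (RingHom.id ℂ) N
  haveI : Finite (X N) := Comb.finite_X
  have hv' : 0 < v.ord (G4.jF ℂ N)⁻¹ := by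
    rw [Place.ord_inv]
    have : v.ord (G4.jF ℂ N) < 0 := hv
    omega
  exact CRT.surj_of_norm_R_inv_of_ord_pos (G4.cosetPlace (RingHom.id ℂ) N) (G4.jF ℂ N)
    (G4.ord_cosetPlace_pos (RingHom.id ℂ) N) (Mer.hNORM_inf (RingHom.id ℂ) N) v hv'

/-- the multiplicity of a cusp place is `N / width` -/
theorem h28_cosetMult_mul_classCard (k : X N) :
    G4.cosetMult (RingHom.id ℂ) N k
      * classCard (orbitRel (Subgroup.zpowers ModularGroup.T) (X N)) k = N := by
  have h1 := G4.cosetMult_mul_ord (RingHom.id ℂ) N k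
  have h2 := (G4.cosetPlace_eq_iff_of_surj_of_fundId (RingHom.id ℂ) N
    (fun Q hQ => h28_exists_cosetPlace N Q (by
      have : 0 < Q.ord (G4.jF ℂ N)⁻¹ := hQ
      rw [Place.ord_inv] at this
      show Q.ord (G4.jF ℂ N) < 0
      omega))
    (G4.fundId_jF_inv (RingHom.id ℂ) N)).2 k
  rw [h2] at h1
  exact_mod_cast h1

/-- **(B2c), cusp part**: `p ∣ ord_v g` at the poles of `j`. -/
theorem h28_dvd_ord_cusp (p : ℕ) (hp : p ≠ 0) (g : FK ℂ N) (y : MerH)
    (hy : y ^ p = iota (RingHom.id ℂ) g)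
    (hpar : ∀ δ : SL(2, ℤ), δ ∈ Gamma0 N →
      (δ : Matrix (Fin 2) (Fin 2) ℤ).trace = 2 → tauE δ y = y)
    (v : Place ℂ (FK ℂ N)) (hv : v.ord (Final.jF ℂ N) < 0) : (p : ℤ) ∣ v.ord g := by
  by_cases hg : g = 0
  · subst hg
    simp
  obtain ⟨k, rfl⟩ := h28_exists_cosetPlace N v hv
  have hmul := h28_cosetMult_mul_classCard N k
  have hw := h9_conj_pow_classCard_mem ModularGroup.T k
  have hw' : (Quotient.out k)⁻¹
      * ModularGroup.T ^ ((classCard (orbitRel (Subgroup.zpowers ModularGroup.T) (X N)) k : ℕ) : ℤ)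
      * ((Quotient.out k)⁻¹)⁻¹ ∈ Gamma0 N := by
    rw [inv_inv, zpow_natCast]
    exact hw
  have hdvd := h28_dvd_cuspVal N p hp g hg y hy hpar (Quotient.out k)⁻¹
    (classCard (orbitRel (Subgroup.zpowers ModularGroup.T) (X N)) k)
    (G4.cosetMult (RingHom.id ℂ) N k) hmul.symm hw'
  rw [G4.cuspVal_eq_mul_ord (RingHom.id ℂ) _ hg] at hdvd
  have hm : (G4.cosetMult (RingHom.id ℂ) N k : ℤ) ≠ 0 := by
    intro h0
    have h1 : G4.cosetMult (RingHom.id ℂ) N k = 0 := by exact_mod_cast h0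
    rw [h1, zero_mul] at hmul
    exact NeZero.ne N hmul.symm
  rw [mul_comm (p : ℤ)] at hdvd
  exact (mul_dvd_mul_iff_left hm).mp hdvd

/-- **(B2c)**: `p ∣ ord_v g` at every place `v`, for a modular function `g` with a `p`-th root
in the field of meromorphic functions on `ℍ` which is invariant under the unipotent elements of
`Γ₀(N)`, `p` prime to `6`. -/
theorem h28_dvd_ord (p : ℕ) (hp : Nat.Coprime p 6) (g : FK ℂ N) (y : MerH)
    (hy : y ^ p = iota (RingHom.id ℂ) g)
    (hpar : ∀ δ : SL(2, ℤ), δ ∈ Gamma0 N →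
      (δ : Matrix (Fin 2) (Fin 2) ℤ).trace = 2 → tauE δ y = y)
    (v : Place ℂ (FK ℂ N)) : (p : ℤ) ∣ v.ord g := by
  have hp0 : p ≠ 0 := by
    rintro rfl
    simp at hp
  rcases h28_pole_or_value N v with h | ⟨c, hc⟩
  · exact h28_dvd_ord_cusp N p hp0 g y hy hpar v h
  · exact h28_dvd_ord_point N p hp g y hy v c hc

/-- **(B2c), parabolic form**: the hypothesis in the spelling of `IsParabolicHom`. -/
theorem h28_dvd_ord_of_sq (p : ℕ) (hp : Nat.Coprime p 6) (g : FK ℂ N) (y : MerH)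
    (hy : y ^ p = iota (RingHom.id ℂ) g)
    (hpar : ∀ δ : SL(2, ℤ), δ ∈ Gamma0 N →
      (δ : Matrix (Fin 2) (Fin 2) ℤ).trace ^ 2 = 4 → tauE δ y = y)
    (v : Place ℂ (FK ℂ N)) : (p : ℤ) ∣ v.ord g :=
  h28_dvd_ord N p hp g y hy (fun δ hδ ht => hpar δ hδ (by rw [ht]; norm_num)) v

/-- the modular function field over `ℂ` has principal divisors -/
theorem h28_hasPrincipalDivisors : HasPrincipalDivisors ℂ (FK ℂ N) := by
  haveI := Final.finiteDimensional_jF (RingHom.id ℂ) N
  exact Fermat.Agent.S18x.E.H12.h12_hasPrincipalDivisors (Final.jF ℂ N)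
    (Final.transcendental_jF ℂ N)

/-- **(B2c), divisor form**: `div g = p • D` with `D` of degree `0`. -/
theorem h28_exists_divisor (p : ℕ) (hp : Nat.Coprime p 6) (g : FK ℂ N) (hg : g ≠ 0)
    (y : MerH) (hy : y ^ p = iota (RingHom.id ℂ) g)
    (hpar : ∀ δ : SL(2, ℤ), δ ∈ Gamma0 N →
      (δ : Matrix (Fin 2) (Fin 2) ℤ).trace = 2 → tauE δ y = y) :
    ∃ D : Divisor ℂ (FK ℂ N), (∀ v : Place ℂ (FK ℂ N), (p : ℤ) * D v = v.ord g) ∧
      Divisor.degree D = 0 := by
  have hp0 : p ≠ 0 := by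
    rintro rfl
    simp at hp
  have hpZ : (p : ℤ) ≠ 0 := by exact_mod_cast hp0
  obtain ⟨D0, hD0, hdeg⟩ := (h28_hasPrincipalDivisors N).exists_divisor g hg
  have hD : ∀ v : Place ℂ (FK ℂ N),
      (p : ℤ) * (Finsupp.mapRange (fun n : ℤ => n / (p : ℤ)) (Int.zero_ediv _) D0) v
        = v.ord g := by
    intro v
    rw [Finsupp.mapRange_apply, hD0 v]
    exact Int.mul_ediv_cancel' (h28_dvd_ord N p hp g y hy hpar v)
  refine ⟨Finsupp.mapRange (fun n : ℤ => n / (p : ℤ)) (Int.zero_ediv _) D0, hD, ?_⟩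
  have h1 : (p : ℤ) • Finsupp.mapRange (fun n : ℤ => n / (p : ℤ)) (Int.zero_ediv _) D0 = D0 := by
    ext v
    rw [Finsupp.smul_apply, smul_eq_mul, hD v, hD0 v]
  have h2 := congrArg Divisor.degree h1
  rw [map_zsmul, hdeg, smul_eq_mul] at h2
  rcases mul_eq_zero.mp h2 with h3 | h3
  · exact absurd h3 hpZ
  · exact h3

end Fermat.Agent.S42x.Kum.H28
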