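import Mathlib

/-!
# W7 (B2a) [EIS], part 1 (helper8): weighted Eisenstein series

For a bounded weight `w : (Fin 2 → ℤ) → ℂ` and `3 ≤ k`,
`eisW k w z = ∑_v w v · (v₀ z + v₁)^(-k)` (sum over all of `ℤ²`; the term `v = 0` vanishes).

* `eisW_slash` : `eisW k w ∣[k] γ = eisW k (w ∘ (· ᵥ* γ⁻¹))`;
* `eisW_mdifferentiable` : holomorphy;
* `eisW_isBoundedAtImInfty` : boundedness at `i∞` (hence, with `eisW_slash`, at every cusp);
* `eisW_norm_le` : the majorant.
-/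

set_option autoImplicit false

noncomputable section

open ModularForm UpperHalfPlane Complex Matrix CongruenceSubgroup Set Filter Topology
open EisensteinSeries

open scoped MatrixGroups Manifold

namespace Fermat.Agent.S42x.Kum.H8

/-- The weighted Eisenstein series. -/
def eisW (k : ℤ) (w : (Fin 2 → ℤ) → ℂ) (z : ℍ) : ℂ :=
  ∑' v : Fin 2 → ℤ, w v * eisSummand k v z

/-- Right multiplication by `γ ∈ SL(2, ℤ)` as a permutation of `ℤ²`. -/
def vecMulEquiv (γ : SL(2, ℤ)) : (Fin 2 → ℤ) ≃ (Fin 2 → ℤ) where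
  toFun v := v ᵥ* γ.1
  invFun v := v ᵥ* (γ⁻¹).1
  left_inv v := by
    show (v ᵥ* γ.1) ᵥ* (γ⁻¹).1 = v
    have h : γ.1 * (γ⁻¹).1 = 1 := by
      have h := Matrix.SpecialLinearGroup.coe_mul γ γ⁻¹
      rw [mul_inv_cancel] at h
      exact h.symm
    rw [vecMul_vecMul, h, vecMul_one]
  right_inv v := by
    show (v ᵥ* (γ⁻¹).1) ᵥ* γ.1 = v
    have h : (γ⁻¹).1 * γ.1 = 1 := by
      have h := Matrix.SpecialLinearGroup.coe_mul γ⁻¹ γ
      rw [inv_mul_cancel] at h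
      exact h.symm
    rw [vecMul_vecMul, h, vecMul_one]

@[simp] theorem vecMulEquiv_apply (γ : SL(2, ℤ)) (v : Fin 2 → ℤ) :
    vecMulEquiv γ v = v ᵥ* γ.1 := rfl

@[simp] theorem vecMulEquiv_symm_apply (γ : SL(2, ℤ)) (v : Fin 2 → ℤ) :
    (vecMulEquiv γ).symm v = v ᵥ* (γ⁻¹).1 := rfl

/-- **(E1)** The slash action on weighted Eisenstein series. -/
theorem eisW_slash (k : ℤ) (w : (Fin 2 → ℤ) → ℂ) (γ : SL(2, ℤ)) :
    eisW k w ∣[k] γ =
      eisW k (fun v => w (v ᵥ* (γ⁻¹).1)) := by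
  ext1 z
  rw [SL_slash_apply, _root_.zpow_neg,
    mul_inv_eq_iff_eq_mul₀ (zpow_ne_zero _ <| denom_ne_zero _ z)]
  simp only [eisW]
  rw [← tsum_mul_right]
  rw [← (vecMulEquiv γ).tsum_eq (fun v =>
    w (v ᵥ* (γ⁻¹).1) * eisSummand k v z * denom γ z ^ k)]
  refine tsum_congr fun v => ?_
  have h1 : (vecMulEquiv γ v) ᵥ* (γ⁻¹).1 = v :=
    (vecMulEquiv γ).left_inv v
  rw [h1, eisSummand_SL2_apply, vecMulEquiv_apply]
  ring

section Bounded

variable {k : ℤ} {w : (Fin 2 → ℤ) → ℂ} {C : ℝ}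

theorem norm_summand_le (hw : ∀ v, ‖w v‖ ≤ C) (v : Fin 2 → ℤ) (z : ℍ) :
    ‖w v * eisSummand k v z‖ ≤ C * ‖eisSummand k v z‖ := by
  rw [norm_mul]
  exact mul_le_mul_of_nonneg_right (hw v) (norm_nonneg _)

theorem summable_norm_eisW (hk : 3 ≤ k) (hw : ∀ v, ‖w v‖ ≤ C) (z : ℍ) :
    Summable fun v : Fin 2 → ℤ => ‖w v * eisSummand k v z‖ :=
  ((summable_norm_eisSummand hk z).mul_left C).of_nonneg_of_le (fun _ => norm_nonneg _)
    (fun v => norm_summand_le hw v z)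

theorem summable_eisW (hk : 3 ≤ k) (hw : ∀ v, ‖w v‖ ≤ C) (z : ℍ) :
    Summable fun v : Fin 2 → ℤ => w v * eisSummand k v z :=
  (summable_norm_eisW hk hw z).of_norm

/-- The majorant: `‖eisW k w z‖ ≤ C · ∑ ‖eisSummand k v z‖`. -/
theorem eisW_norm_le (hk : 3 ≤ k) (hw : ∀ v, ‖w v‖ ≤ C) (z : ℍ) :
    ‖eisW k w z‖ ≤ C * ∑' v : Fin 2 → ℤ, ‖eisSummand k v z‖ := by
  rw [eisW, ← tsum_mul_left]
  refine (norm_tsum_le_tsum_norm (summable_norm_eisW hk hw z)).trans ?_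
  exact (summable_norm_eisW hk hw z).tsum_le_tsum (fun v => norm_summand_le hw v z)
    ((summable_norm_eisSummand hk z).mul_left C)

/-- The sum defining `eisW` converges locally uniformly on `ℍ`. -/
theorem eisW_tendstoLocallyUniformly (hk : 3 ≤ k) (hw : ∀ v, ‖w v‖ ≤ C) :
    TendstoLocallyUniformly (fun (s : Finset (Fin 2 → ℤ)) ↦ (∑ x ∈ s, w x * eisSummand k x ·))
      (eisW k w ·) Filter.atTop := by
  have hk' : (2 : ℝ) < k := by norm_cast
  have hC : 0 ≤ C := (norm_nonneg _).trans (hw 0)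
  have p_sum : Summable fun x : Fin 2 → ℤ ↦ ‖x‖ ^ (-k) :=
    mod_cast (summable_one_div_norm_rpow hk')
  simp only [tendstoLocallyUniformly_iff_forall_isCompact, eisW]
  intro K hK
  obtain ⟨A, B, hB, HABK⟩ := subset_verticalStrip_of_isCompact hK
  refine (tendstoUniformlyOn_tsum
    (hu := (p_sum.mul_left <| r ⟨⟨A, B⟩, hB⟩ ^ (-k : ℝ)).mul_left C) (fun p z hz ↦ ?_)).mono HABK
  refine (norm_summand_le hw p z).trans (mul_le_mul_of_nonneg_left ?_ hC)
  simpa only [eisSummand, one_div, ← _root_.zpow_neg, norm_zpow, ← Real.rpow_intCast,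
    Int.cast_neg] using summand_bound_of_mem_verticalStrip (by positivity) p hB hz

theorem eisW_tendstoLocallyUniformlyOn (hk : 3 ≤ k) (hw : ∀ v, ‖w v‖ ≤ C) :
    TendstoLocallyUniformlyOn (fun (s : Finset (Fin 2 → ℤ)) ↦
      ↑ₕ(fun (z : ℍ) ↦ ∑ x ∈ s, w x * eisSummand k x z)) (↑ₕ(eisW k w))
          Filter.atTop {z : ℂ | 0 < z.im} := by
  rw [← upperHalfPlaneSet, ← range_coe, ← image_univ]
  apply TendstoLocallyUniformlyOn.comp (s := ⊤) _ _ _ (OpenPartialHomeomorph.continuousOn_symm _)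
  · simp only [Set.top_eq_univ, tendstoLocallyUniformlyOn_univ]
    exact eisW_tendstoLocallyUniformly hk hw
  · simp only [IsOpenEmbedding.toOpenPartialHomeomorph_target, Set.top_eq_univ, mapsTo_range_iff,
    Set.mem_univ, forall_const]

theorem summand_extension_differentiableOn (k : ℤ) (c : ℂ) (a : Fin 2 → ℤ) :
    DifferentiableOn ℂ (↑ₕ(fun z : ℍ => c * eisSummand k a z)) {z : ℂ | 0 < z.im} := by
  have h := (eisSummand_extension_differentiableOn k a).const_mul c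
  refine h.congr ?_
  intro z hz
  simp only [Function.comp_apply]

/-- **(E2)** Weighted Eisenstein series are holomorphic. -/
theorem eisW_mdifferentiable (hk : 3 ≤ k) (hw : ∀ v, ‖w v‖ ≤ C) :
    MDifferentiable 𝓘(ℂ) 𝓘(ℂ) (eisW k w) := by
  intro τ
  suffices DifferentiableAt ℂ (↑ₕ(eisW k w)) τ.1 by
    convert!
      MDifferentiableAt.comp τ (DifferentiableAt.mdifferentiableAt this) τ.mdifferentiable_coe
    exact funext fun z ↦ (comp_ofComplex (eisW k w) z).symm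
  refine DifferentiableOn.differentiableAt ?_ (isOpen_upperHalfPlaneSet.mem_nhds τ.2)
  exact (eisW_tendstoLocallyUniformlyOn hk hw).differentiableOn
    (Eventually.of_forall fun s ↦ DifferentiableOn.fun_sum
    fun _ _ ↦ summand_extension_differentiableOn _ _ _) isOpen_upperHalfPlaneSet

end Bounded

/-! ### the majorant and boundedness at `i∞` -/

/-- The majorant `∑ ‖(v₀ z + v₁)^(-k)‖`. -/
def majE (k : ℤ) (z : ℍ) : ℝ := ∑' v : Fin 2 → ℤ, ‖eisSummand k v z‖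

theorem denom_T_zpow (n : ℤ) (z : ℍ) :
    denom (((ModularGroup.T ^ n : SL(2, ℤ)) : SL(2, ℤ)) : GL (Fin 2) ℝ) z = 1 := by
  rw [ModularGroup.denom_apply, ModularGroup.coe_T_zpow]
  simp

theorem eisSummand_T_zpow (k : ℤ) (v : Fin 2 → ℤ) (n : ℤ) (z : ℍ) :
    eisSummand k v (ModularGroup.T ^ n • z) = eisSummand k (vecMulEquiv (ModularGroup.T ^ n) v) z := by
  rw [eisSummand_SL2_apply, denom_T_zpow, _root_.one_zpow, one_mul]
  rfl

/-- The majorant is invariant under translations. -/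
theorem majE_T_zpow (k : ℤ) (n : ℤ) (z : ℍ) : majE k (ModularGroup.T ^ n • z) = majE k z := by
  simp only [majE, eisSummand_T_zpow]
  exact (vecMulEquiv (ModularGroup.T ^ n)).tsum_eq (fun v => ‖eisSummand k v z‖)

theorem majE_le_of_mem_verticalStrip {k : ℤ} (hk : 3 ≤ k) {A B : ℝ} (hB : 0 < B) {z : ℍ}
    (hz : z ∈ verticalStrip A B) :
    majE k z ≤ ∑' x : Fin 2 → ℤ, r ⟨⟨A, B⟩, hB⟩ ^ (-k) * ‖x‖ ^ (-k) := by
  have hk' : (2 : ℝ) < k := by norm_cast
  apply (summable_norm_eisSummand hk _).tsum_le_tsum _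
  · exact_mod_cast (summable_one_div_norm_rpow hk').mul_left <| r ⟨⟨A, B⟩, hB⟩ ^ (-k)
  · intro x
    simp_rw [eisSummand, norm_zpow]
    exact_mod_cast
      summand_bound_of_mem_verticalStrip (lt_trans two_pos hk').le x hB hz

/-- The majorant is bounded on `{Im z ≥ 2}`. -/
theorem majE_le {k : ℤ} (hk : 3 ≤ k) {z : ℍ} (hz : 2 ≤ z.im) :
    majE k z ≤ ∑' x : Fin 2 → ℤ, r ⟨⟨1, 2⟩, two_pos⟩ ^ (-k) * ‖x‖ ^ (-k) := by
  obtain ⟨n, hn⟩ := ModularGroup_T_zpow_mem_verticalStrip z (N := 1) one_pos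
  rw [← majE_T_zpow k ((1 : ℕ) * n) z]
  have h1 : ModularGroup.T ^ (((1 : ℕ) : ℤ) * n) • z ∈ verticalStrip (1 : ℝ) 2 := by
    have h2 := verticalStrip_anti_right ((1 : ℕ) : ℝ) hz hn
    simpa using h2
  exact majE_le_of_mem_verticalStrip hk two_pos h1

/-- **(E3)** Weighted Eisenstein series are bounded at `i∞`. -/
theorem eisW_isBoundedAtImInfty {k : ℤ} {w : (Fin 2 → ℤ) → ℂ} {C : ℝ} (hk : 3 ≤ k)
    (hw : ∀ v, ‖w v‖ ≤ C) : IsBoundedAtImInfty (eisW k w) := by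
  have hC : 0 ≤ C := (norm_nonneg _).trans (hw 0)
  rw [UpperHalfPlane.isBoundedAtImInfty_iff]
  refine ⟨C * ∑' x : Fin 2 → ℤ, r ⟨⟨1, 2⟩, two_pos⟩ ^ (-k) * ‖x‖ ^ (-k), 2, fun z hz => ?_⟩
  exact (eisW_norm_le hk hw z).trans (mul_le_mul_of_nonneg_left (majE_le hk hz) hC)

/-- **(E3')** Every slash of a weighted Eisenstein series by `SL(2, ℤ)` is bounded at `i∞`. -/
theorem eisW_slash_isBoundedAtImInfty {k : ℤ} {w : (Fin 2 → ℤ) → ℂ} {C : ℝ} (hk : 3 ≤ k)
    (hw : ∀ v, ‖w v‖ ≤ C) (γ : SL(2, ℤ)) : IsBoundedAtImInfty (eisW k w ∣[k] γ) := by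
  rw [eisW_slash]
  exact eisW_isBoundedAtImInfty hk (fun v => hw _)

/-! ### the limit at `i∞` -/

/-- The part of the majorant with `v 0 ≠ 0`. -/
def majE0 (k : ℤ) (z : ℍ) : ℝ :=
  ∑' v : Fin 2 → ℤ, if v 0 = 0 then 0 else ‖eisSummand k v z‖

theorem vecMul_T_zpow_zero (n : ℤ) (v : Fin 2 → ℤ) :
    (vecMulEquiv (ModularGroup.T ^ n) v) 0 = v 0 := by
  rw [vecMulEquiv_apply]
  have h : (ModularGroup.T ^ n : SL(2, ℤ)).1 = !![1, n; 0, 1] := ModularGroup.coe_T_zpow n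
  rw [h]
  simp [Matrix.vecMul, dotProduct, Fin.sum_univ_two]

theorem majE0_T_zpow (k : ℤ) (n : ℤ) (z : ℍ) : majE0 k (ModularGroup.T ^ n • z) = majE0 k z := by
  simp only [majE0, eisSummand_T_zpow]
  rw [← (vecMulEquiv (ModularGroup.T ^ n)).tsum_eq
    (fun v => if v 0 = 0 then 0 else ‖eisSummand k v z‖)]
  refine tsum_congr fun v => ?_
  rw [vecMul_T_zpow_zero]

theorem norm_eisSummand_le_inv_im {k : ℤ} (hk : 1 ≤ k) (v : Fin 2 → ℤ) (hv : v 0 ≠ 0) (z : ℍ)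
    (hz : 1 ≤ z.im) : ‖eisSummand k v z‖ ≤ (z.im)⁻¹ := by
  have h1 : z.im ≤ ‖(v 0 : ℂ) * (z : ℂ) + (v 1 : ℂ)‖ := by
    have h2 := Complex.abs_im_le_norm ((v 0 : ℂ) * (z : ℂ) + (v 1 : ℂ))
    have h3 : ((v 0 : ℂ) * (z : ℂ) + (v 1 : ℂ)).im = (v 0 : ℝ) * z.im := by
      simp [Complex.add_im, Complex.mul_im]
    rw [h3, abs_mul, abs_of_pos z.im_pos] at h2
    have h4 : (1 : ℝ) ≤ |(v 0 : ℝ)| := by
      have : (1 : ℤ) ≤ |v 0| := Int.one_le_abs hv
      exact_mod_cast this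
    calc z.im = 1 * z.im := (one_mul _).symm
      _ ≤ |(v 0 : ℝ)| * z.im := mul_le_mul_of_nonneg_right h4 z.im_pos.le
      _ ≤ _ := h2
  have hpos : 0 < z.im := z.im_pos
  have h5 : (1 : ℝ) ≤ ‖(v 0 : ℂ) * (z : ℂ) + (v 1 : ℂ)‖ := hz.trans h1
  obtain ⟨m, rfl⟩ : ∃ m : ℕ, k = (m : ℤ) + 1 := ⟨(k - 1).toNat, by omega⟩
  rw [eisSummand, norm_zpow, _root_.zpow_neg, inv_le_inv₀ (by positivity) hpos]
  calc z.im ≤ ‖(v 0 : ℂ) * (z : ℂ) + (v 1 : ℂ)‖ := h1
    _ = ‖(v 0 : ℂ) * (z : ℂ) + (v 1 : ℂ)‖ ^ (1 : ℕ) := (pow_one _).symm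
    _ ≤ ‖(v 0 : ℂ) * (z : ℂ) + (v 1 : ℂ)‖ ^ (m + 1) := pow_le_pow_right₀ h5 (by omega)
    _ = _ := by
      rw [← zpow_natCast]
      push_cast
      rfl

theorem tendsto_inv_im_atImInfty : Tendsto (fun z : ℍ => (z.im)⁻¹) atImInfty (𝓝 0) :=
  tendsto_inv_atTop_zero.comp tendsto_comap

theorem tendsto_majE0_strip {k : ℤ} (hk : 3 ≤ k) :
    Tendsto (majE0 k) (atImInfty ⊓ 𝓟 (verticalStrip 1 1)) (𝓝 0) := by
  have hk' : (2 : ℝ) < k := by norm_cast
  have hsum : Summable fun x : Fin 2 → ℤ => r ⟨⟨1, 1⟩, one_pos⟩ ^ (-k) * ‖x‖ ^ (-k) := by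
    exact_mod_cast (summable_one_div_norm_rpow hk').mul_left <| r ⟨⟨1, 1⟩, one_pos⟩ ^ (-k)
  have hstrip : ∀ᶠ z : ℍ in atImInfty ⊓ 𝓟 (verticalStrip 1 1), z ∈ verticalStrip 1 1 :=
    eventually_inf_principal.mpr (Eventually.of_forall fun _ h => h)
  have h0 : (0 : ℝ) = ∑' _ : Fin 2 → ℤ, (0 : ℝ) := tsum_zero.symm
  rw [h0]
  refine tendsto_tsum_of_dominated_convergence hsum (fun v => ?_) ?_
  · by_cases hv : v 0 = 0
    · simp only [hv, if_true]
      exact tendsto_const_nhds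
    · simp only [hv, if_false]
      refine squeeze_zero' (Eventually.of_forall fun z => norm_nonneg _) ?_
        (tendsto_inv_im_atImInfty.mono_left inf_le_left)
      filter_upwards [hstrip] with z hz
      exact norm_eisSummand_le_inv_im (by omega) v hv z hz.2
  · filter_upwards [hstrip] with z hz v
    by_cases hv : v 0 = 0
    · simp only [hv, if_true, norm_zero]
      exact mul_nonneg (zpow_nonneg (r_pos _).le _) (zpow_nonneg (norm_nonneg _) _)
    · simp only [hv, if_false, norm_norm]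
      simp_rw [eisSummand, norm_zpow]
      exact_mod_cast
        summand_bound_of_mem_verticalStrip (lt_trans two_pos hk').le v one_pos hz

theorem majE0_nonneg (k : ℤ) (z : ℍ) : 0 ≤ majE0 k z :=
  tsum_nonneg fun v => by
    by_cases hv : v 0 = 0
    · simp [hv]
    · simp [hv]

/-- The part of the majorant with `v 0 ≠ 0` tends to `0` at `i∞`. -/
theorem tendsto_majE0 {k : ℤ} (hk : 3 ≤ k) : Tendsto (majE0 k) atImInfty (𝓝 0) := by
  rw [tendsto_order]
  refine ⟨fun a ha => Eventually.of_forall fun z => ha.trans_le (majE0_nonneg k z), fun ε hε => ?_⟩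
  have h1 := (tendsto_order.1 (tendsto_majE0_strip hk)).2 ε hε
  rw [eventually_inf_principal] at h1
  obtain ⟨B, hB⟩ := (atImInfty_mem _).1 h1
  refine (atImInfty_mem _).2 ⟨max B 1, fun z hz => ?_⟩
  obtain ⟨n, hn⟩ := ModularGroup_T_zpow_mem_verticalStrip z (N := 1) one_pos
  have h2 : ModularGroup.T ^ (((1 : ℕ) : ℤ) * n) • z ∈ verticalStrip (1 : ℝ) 1 := by
    have h3 := verticalStrip_anti_right ((1 : ℕ) : ℝ) ((le_max_right B 1).trans hz) hn
    simpa using h3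
  have h4 : B ≤ (ModularGroup.T ^ (((1 : ℕ) : ℤ) * n) • z).im :=
    ((le_max_left B 1).trans hz).trans (by
      have := ((mem_verticalStrip_iff _ _ _).1 hn).2
      exact this)
  have h5 : majE0 k (ModularGroup.T ^ (((1 : ℕ) : ℤ) * n) • z) < ε := hB _ h4 h2
  rw [majE0_T_zpow] at h5
  exact h5

section Limit

variable {k : ℤ} {w : (Fin 2 → ℤ) → ℂ} {C : ℝ}

/-- The remainder: the terms with `v 0 ≠ 0`. -/
def eisRem (k : ℤ) (w : (Fin 2 → ℤ) → ℂ) (z : ℍ) : ℂ :=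
  ∑' v : Fin 2 → ℤ, if v 0 = 0 then 0 else w v * eisSummand k v z

theorem norm_eisRem_le (hk : 3 ≤ k) (hw : ∀ v, ‖w v‖ ≤ C) (z : ℍ) :
    ‖eisRem k w z‖ ≤ C * majE0 k z := by
  have hC : 0 ≤ C := (norm_nonneg _).trans (hw 0)
  have hs0 : Summable fun v : Fin 2 → ℤ => if v 0 = 0 then 0 else ‖eisSummand k v z‖ :=
    (summable_norm_eisSummand hk z).of_nonneg_of_le
      (fun v => by by_cases hv : v 0 = 0 <;> simp [hv])
      (fun v => by by_cases hv : v 0 = 0 <;> simp [hv])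
  have hs1 : Summable fun v : Fin 2 → ℤ => ‖if v 0 = 0 then 0 else w v * eisSummand k v z‖ :=
    (summable_norm_eisW hk hw z).of_nonneg_of_le (fun v => norm_nonneg _)
      (fun v => by
        by_cases hv : v 0 = 0
        · simp only [hv, if_true, norm_zero]
          exact norm_nonneg _
        · simp only [hv, if_false]
          exact le_rfl)
  rw [eisRem, majE0, ← tsum_mul_left]
  refine (norm_tsum_le_tsum_norm hs1).trans ?_
  refine hs1.tsum_le_tsum (fun v => ?_) (hs0.mul_left C)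
  by_cases hv : v 0 = 0
  · simp [hv]
  · simp only [hv, if_false]
    exact norm_summand_le hw v z

theorem tendsto_eisRem (hk : 3 ≤ k) (hw : ∀ v, ‖w v‖ ≤ C) :
    Tendsto (eisRem k w) atImInfty (𝓝 0) := by
  rw [tendsto_zero_iff_norm_tendsto_zero]
  refine squeeze_zero' (Eventually.of_forall fun z => norm_nonneg _)
    (Eventually.of_forall fun z => norm_eisRem_le hk hw z) ?_
  have h := (tendsto_majE0 hk).const_mul C
  rwa [mul_zero] at h

theorem eisSummand_zero_one (k : ℤ) (z : ℍ) : eisSummand k ![0, 1] z = 1 := by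
  have h0 : (![0, 1] : Fin 2 → ℤ) 0 = 0 := rfl
  have h1 : (![0, 1] : Fin 2 → ℤ) 1 = 1 := rfl
  rw [eisSummand, h0, h1, Int.cast_zero, zero_mul, zero_add, Int.cast_one, _root_.one_zpow]

theorem eisSummand_zero_neg_one (k : ℤ) (z : ℍ) : eisSummand k ![0, -1] z = (-1) ^ k := by
  have h0 : (![0, -1] : Fin 2 → ℤ) 0 = 0 := rfl
  have h1 : (![0, -1] : Fin 2 → ℤ) 1 = -1 := rfl
  rw [eisSummand, h0, h1, Int.cast_zero, zero_mul, zero_add, Int.cast_neg, Int.cast_one,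
    _root_.zpow_neg]
  rcases Int.even_or_odd k with h | h
  · rw [h.neg_one_zpow, inv_one]
  · rw [h.neg_one_zpow, inv_neg_one]

/-- Decomposition of a weighted Eisenstein series (weight supported on primitive vectors) into
its constant term and the remainder. -/
theorem eisW_eq_add_eisRem (hk : 3 ≤ k) (hw : ∀ v, ‖w v‖ ≤ C)
    (hprim : ∀ v : Fin 2 → ℤ, v 0 = 0 → v ≠ ![0, 1] → v ≠ ![0, -1] → w v = 0) (z : ℍ) :
    eisW k w z = (w ![0, 1] + (-1) ^ k * w ![0, -1]) + eisRem k w z := by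
  have hn1 : Summable fun v : Fin 2 → ℤ => ‖if v 0 = 0 then 0 else w v * eisSummand k v z‖ :=
    (summable_norm_eisW hk hw z).of_nonneg_of_le (fun v => norm_nonneg _)
      (fun v => by
        by_cases hv : v 0 = 0
        · simp only [hv, if_true, norm_zero]
          exact norm_nonneg _
        · simp only [hv, if_false]
          exact le_rfl)
  have hn2 : Summable fun v : Fin 2 → ℤ => ‖if v 0 = 0 then w v * eisSummand k v z else 0‖ :=
    (summable_norm_eisW hk hw z).of_nonneg_of_le (fun v => norm_nonneg _)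
      (fun v => by
        by_cases hv : v 0 = 0
        · simp only [hv, if_true]
          exact le_rfl
        · simp only [hv, if_false, norm_zero]
          exact norm_nonneg _)
  have hs1 : Summable fun v : Fin 2 → ℤ => if v 0 = 0 then 0 else w v * eisSummand k v z :=
    hn1.of_norm
  have hs2 : Summable fun v : Fin 2 → ℤ => if v 0 = 0 then w v * eisSummand k v z else 0 :=
    hn2.of_norm
  have hsplit : eisW k w z = (∑' v : Fin 2 → ℤ, if v 0 = 0 then w v * eisSummand k v z else 0) +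
      eisRem k w z := by
    rw [eisW, eisRem, ← hs2.tsum_add hs1]
    refine tsum_congr fun v => ?_
    by_cases hv : v 0 = 0 <;> simp [hv]
  have hne : (![0, 1] : Fin 2 → ℤ) ≠ ![0, -1] := by
    intro h
    have := congrFun h 1
    simp at this
  have hfin : (∑' v : Fin 2 → ℤ, if v 0 = 0 then w v * eisSummand k v z else 0) =
      ∑ v ∈ ({![0, 1], ![0, -1]} : Finset (Fin 2 → ℤ)),
        if v 0 = 0 then w v * eisSummand k v z else 0 := by
    refine tsum_eq_sum fun v hv => ?_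
    by_cases hv0 : v 0 = 0
    · have h1 : v ≠ ![0, 1] := fun h => hv (by simp [h])
      have h2 : v ≠ ![0, -1] := fun h => hv (by simp [h])
      simp [hv0, hprim v hv0 h1 h2]
    · simp [hv0]
  rw [hsplit, hfin, Finset.sum_pair hne]
  simp only [Matrix.cons_val_zero, if_true, eisSummand_zero_one, eisSummand_zero_neg_one]
  ring

/-- **(E4)** The limit of a weighted Eisenstein series at `i∞`. -/
theorem tendsto_eisW (hk : 3 ≤ k) (hw : ∀ v, ‖w v‖ ≤ C)
    (hprim : ∀ v : Fin 2 → ℤ, v 0 = 0 → v ≠ ![0, 1] → v ≠ ![0, -1] → w v = 0) :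
    Tendsto (eisW k w) atImInfty (𝓝 (w ![0, 1] + (-1) ^ k * w ![0, -1])) := by
  have h : eisW k w = fun z => (w ![0, 1] + (-1) ^ k * w ![0, -1]) + eisRem k w z :=
    funext fun z => eisW_eq_add_eisRem hk hw hprim z
  rw [h]
  have h2 := (tendsto_eisRem (k := k) hk hw).const_add (w ![0, 1] + (-1) ^ k * w ![0, -1])
  rwa [add_zero] at h2

/-- **(E4')** Non-vanishing. -/
theorem eisW_ne_zero (hk : 3 ≤ k) (hw : ∀ v, ‖w v‖ ≤ C)
    (hprim : ∀ v : Fin 2 → ℤ, v 0 = 0 → v ≠ ![0, 1] → v ≠ ![0, -1] → w v = 0)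
    (hL : w ![0, 1] + (-1) ^ k * w ![0, -1] ≠ 0) : eisW k w ≠ 0 := by
  intro h0
  have h1 := tendsto_eisW hk hw hprim
  rw [h0] at h1
  have h2 : Tendsto (0 : ℍ → ℂ) atImInfty (𝓝 0) := tendsto_const_nhds
  exact hL (tendsto_nhds_unique h1 h2)

end Limit

end Fermat.Agent.S42x.Kum.H8
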