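import Mathlib
import Fermat.Agent.S42x.Kum.H8_EisW
import Fermat.Agent.S24.H21_MerOrd

/-!
# W7 (B2a), part 2: Eisenstein series twisted by a character of a subgroup of `SL(2, ℤ)`

For a subgroup `Γ ≤ SL(2, ℤ)` and a character `χ : Γ →* ℂˣ` which is trivial on the elements
of `Γ` with bottom row `(0, 1)`, the weight function
`wChar Γ χ v := χ(γ)⁻¹` if `v` is the bottom row of `γ ∈ Γ` (and `0` otherwise) is well defined
and `eisChar k Γ χ := eisW k (wChar Γ χ)` satisfies `eisChar ∣[k] γ = χ γ • eisChar` for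
`γ ∈ Γ`.
-/

set_option autoImplicit false

open ModularForm UpperHalfPlane Complex Matrix CongruenceSubgroup Set Filter Topology
open EisensteinSeries

open scoped MatrixGroups Manifold

namespace Fermat.Agent.S42x.Kum.H8

/-- The bottom row of a matrix of `SL(2, ℤ)`. -/
def botRow (γ : SL(2, ℤ)) : Fin 2 → ℤ := ![0, 1] ᵥ* γ.1

theorem botRow_apply (γ : SL(2, ℤ)) (i : Fin 2) : botRow γ i = γ.1 1 i := by
  simp [botRow, Matrix.vecMul, dotProduct, Fin.sum_univ_two]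

theorem botRow_eq (γ : SL(2, ℤ)) : botRow γ = ![γ.1 1 0, γ.1 1 1] := by
  ext i
  fin_cases i <;> simp [botRow_apply]

theorem botRow_one : botRow 1 = ![0, 1] := by
  simp [botRow]

theorem botRow_mul (γ δ : SL(2, ℤ)) : botRow (γ * δ) = botRow γ ᵥ* δ.1 := by
  simp only [botRow]
  rw [Matrix.SpecialLinearGroup.coe_mul, vecMul_vecMul]

theorem botRow_mul_inv_self (γ : SL(2, ℤ)) : botRow γ ᵥ* (γ⁻¹).1 = ![0, 1] := by
  rw [← botRow_mul, mul_inv_cancel, botRow_one]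

theorem botRow_neg_one : botRow (-1) = ![0, -1] := by
  ext i
  fin_cases i <;> simp [botRow_apply]

/-- A bottom row with vanishing first entry is `(0, 1)` or `(0, -1)`. -/
theorem botRow_eq_of_zero (γ : SL(2, ℤ)) (h : botRow γ 0 = 0) :
    botRow γ = ![0, 1] ∨ botRow γ = ![0, -1] := by
  rw [botRow_apply] at h
  have hdet := Matrix.SpecialLinearGroup.det_coe γ
  rw [Matrix.det_fin_two, h, mul_zero, sub_zero] at hdet
  have h1 : γ.1 1 1 = 1 ∨ γ.1 1 1 = -1 := by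
    have h2 : IsUnit (γ.1 1 1) := IsUnit.of_mul_eq_one_right _ hdet
    exact Int.isUnit_iff.mp h2
  rcases h1 with h1 | h1
  · left
    rw [botRow_eq, h, h1]
  · right
    rw [botRow_eq, h, h1]

section Char

variable (Γ : Subgroup SL(2, ℤ)) (χ : Γ →* ℂˣ)

/-- The weight function attached to a character: `χ(γ)⁻¹` on the bottom row of `γ ∈ Γ`,
and `0` outside the bottom rows of `Γ`. -/
noncomputable def wChar (v : Fin 2 → ℤ) : ℂ :=
  open Classical in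
  if h : ∃ γ : Γ, botRow γ.1 = v then (((χ h.choose)⁻¹ : ℂˣ) : ℂ) else 0

variable {Γ χ}

theorem wChar_of_not (v : Fin 2 → ℤ) (h : ¬ ∃ γ : Γ, botRow γ.1 = v) : wChar Γ χ v = 0 := by
  classical
  rw [wChar, dif_neg h]

/-- The character only depends on the bottom row. -/
theorem chi_eq_of_botRow_eq (hT : ∀ γ : Γ, botRow γ.1 = ![0, 1] → χ γ = 1) (γ δ : Γ)
    (h : botRow γ.1 = botRow δ.1) : χ γ = χ δ := by
  have h1 : botRow ((γ * δ⁻¹ : Γ) : SL(2, ℤ)) = ![0, 1] := by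
    rw [Subgroup.coe_mul, Subgroup.coe_inv, botRow_mul, h, botRow_mul_inv_self]
  have h2 := hT _ h1
  rw [map_mul, map_inv, mul_inv_eq_one] at h2
  exact h2

theorem wChar_botRow (hT : ∀ γ : Γ, botRow γ.1 = ![0, 1] → χ γ = 1) (γ : Γ) :
    wChar Γ χ (botRow γ.1) = (((χ γ)⁻¹ : ℂˣ) : ℂ) := by
  classical
  have h : ∃ δ : Γ, botRow δ.1 = botRow γ.1 := ⟨γ, rfl⟩
  rw [wChar, dif_pos h, chi_eq_of_botRow_eq hT _ _ h.choose_spec]

theorem wChar_zero_one (hT : ∀ γ : Γ, botRow γ.1 = ![0, 1] → χ γ = 1) :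
    wChar Γ χ ![0, 1] = 1 := by
  have h := wChar_botRow hT (1 : Γ)
  rw [Subgroup.coe_one, botRow_one, map_one, inv_one, Units.val_one] at h
  exact h

theorem norm_wChar_le (hu : ∀ γ : Γ, ‖((χ γ : ℂˣ) : ℂ)‖ = 1) (v : Fin 2 → ℤ) :
    ‖wChar Γ χ v‖ ≤ 1 := by
  classical
  rw [wChar]
  split_ifs with h
  · rw [Units.val_inv_eq_inv_val, norm_inv, hu, inv_one]
  · rw [norm_zero]
    exact zero_le_one

/-- The transformation rule of the weight function. -/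
theorem wChar_vecMul (hT : ∀ γ : Γ, botRow γ.1 = ![0, 1] → χ γ = 1) (γ : Γ)
    (v : Fin 2 → ℤ) :
    wChar Γ χ (v ᵥ* γ.1.1) = (((χ γ)⁻¹ : ℂˣ) : ℂ) * wChar Γ χ v := by
  by_cases h : ∃ δ : Γ, botRow δ.1 = v
  · obtain ⟨δ, rfl⟩ := h
    have h1 : botRow δ.1 ᵥ* γ.1.1 = botRow ((δ * γ : Γ) : SL(2, ℤ)) := by
      rw [Subgroup.coe_mul, botRow_mul]
    rw [h1, wChar_botRow hT, wChar_botRow hT, map_mul, _root_.mul_inv_rev, Units.val_mul]
  · have h2 : ¬ ∃ δ : Γ, botRow δ.1 = v ᵥ* γ.1.1 := by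
      rintro ⟨δ, hδ⟩
      apply h
      refine ⟨δ * γ⁻¹, ?_⟩
      rw [Subgroup.coe_mul, Subgroup.coe_inv, botRow_mul, hδ]
      exact (vecMulEquiv γ.1).left_inv v
    rw [wChar_of_not _ h, wChar_of_not _ h2, mul_zero]

/-- The weight function vanishes on the non-primitive vectors `(0, d)`, `d ≠ ±1`. -/
theorem wChar_prim (v : Fin 2 → ℤ) (h0 : v 0 = 0) (h1 : v ≠ ![0, 1]) (h2 : v ≠ ![0, -1]) :
    wChar Γ χ v = 0 := by
  apply wChar_of_not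
  rintro ⟨γ, rfl⟩
  rcases botRow_eq_of_zero γ.1 h0 with h | h
  · exact h1 h
  · exact h2 h

end Char

/-! ### the twisted Eisenstein series -/

section EisChar

variable (k : ℤ) (Γ : Subgroup SL(2, ℤ)) (χ : Γ →* ℂˣ)

/-- The Eisenstein series of weight `k` twisted by the character `χ` of `Γ`:
`∑ χ(γ)⁻¹ (c z + d)⁻ᵏ` over the bottom rows `(c, d)` of `Γ`. -/
noncomputable def eisChar : ℍ → ℂ := eisW k (wChar Γ χ)

variable {k Γ χ}

theorem eisW_const_mul (k : ℤ) (c : ℂ) (w : (Fin 2 → ℤ) → ℂ) :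
    eisW k (fun v => c * w v) = c • eisW k w := by
  ext1 z
  simp only [eisW, Pi.smul_apply, smul_eq_mul]
  rw [← tsum_mul_left]
  exact tsum_congr fun v => mul_assoc _ _ _

/-- **(C1)** The twisted Eisenstein series transforms by the character. -/
theorem eisChar_slash (hT : ∀ γ : Γ, botRow γ.1 = ![0, 1] → χ γ = 1) (γ : Γ) :
    eisChar k Γ χ ∣[k] γ.1 = ((χ γ : ℂˣ) : ℂ) • eisChar k Γ χ := by
  rw [eisChar, eisW_slash, ← eisW_const_mul]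
  congr 1
  funext v
  have h := wChar_vecMul hT γ⁻¹ v
  rw [Subgroup.coe_inv, map_inv, inv_inv] at h
  exact h

/-- **(C1')** pointwise form: `E_χ(γ z) = χ(γ) (c z + d)ᵏ E_χ(z)`. -/
theorem eisChar_smul (hT : ∀ γ : Γ, botRow γ.1 = ![0, 1] → χ γ = 1) (γ : Γ) (z : ℍ) :
    eisChar k Γ χ (γ.1 • z) = ((χ γ : ℂˣ) : ℂ) * denom γ.1 z ^ k * eisChar k Γ χ z := by
  have h := congrFun (eisChar_slash (k := k) hT γ) z
  rw [SL_slash_apply, Pi.smul_apply, smul_eq_mul, _root_.zpow_neg,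
    mul_inv_eq_iff_eq_mul₀ (zpow_ne_zero _ <| denom_ne_zero _ z)] at h
  rw [h]
  ring

/-- **(C2)** The twisted Eisenstein series is holomorphic. -/
theorem eisChar_mdifferentiable (hk : 3 ≤ k) (hu : ∀ γ : Γ, ‖((χ γ : ℂˣ) : ℂ)‖ = 1) :
    MDifferentiable 𝓘(ℂ) 𝓘(ℂ) (eisChar k Γ χ) :=
  eisW_mdifferentiable hk (norm_wChar_le hu)

/-- **(C3)** The twisted Eisenstein series is bounded at `i∞` after every slash. -/
theorem eisChar_slash_isBoundedAtImInfty (hk : 3 ≤ k) (hu : ∀ γ : Γ, ‖((χ γ : ℂˣ) : ℂ)‖ = 1)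
    (γ : SL(2, ℤ)) : IsBoundedAtImInfty (eisChar k Γ χ ∣[k] γ) :=
  eisW_slash_isBoundedAtImInfty hk (norm_wChar_le hu) γ

/-- **(C4)** The limit of the twisted Eisenstein series at `i∞`. -/
theorem tendsto_eisChar (hk : 3 ≤ k) (hu : ∀ γ : Γ, ‖((χ γ : ℂˣ) : ℂ)‖ = 1)
    (hT : ∀ γ : Γ, botRow γ.1 = ![0, 1] → χ γ = 1) :
    Tendsto (eisChar k Γ χ) atImInfty (𝓝 (1 + (-1) ^ k * wChar Γ χ ![0, -1])) := by
  have h := tendsto_eisW hk (norm_wChar_le hu) (fun v h0 h1 h2 => wChar_prim (Γ := Γ) (χ := χ)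
    v h0 h1 h2)
  rwa [wChar_zero_one hT] at h

/-- The value of the weight function at `(0, -1)` when `χ` is trivial on the elements with
this bottom row. -/
theorem wChar_zero_neg_one (hT' : ∀ γ : Γ, botRow γ.1 = ![0, -1] → χ γ = 1) :
    wChar Γ χ ![0, -1] = 0 ∨ wChar Γ χ ![0, -1] = 1 := by
  classical
  by_cases h : ∃ γ : Γ, botRow γ.1 = ![0, -1]
  · right
    rw [wChar, dif_pos h, hT' _ h.choose_spec, inv_one, Units.val_one]
  · left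
    exact wChar_of_not _ h

/-- **(C4')** Non-vanishing of the twisted Eisenstein series of even weight. -/
theorem eisChar_ne_zero (hk : 3 ≤ k) (hk2 : Even k) (hu : ∀ γ : Γ, ‖((χ γ : ℂˣ) : ℂ)‖ = 1)
    (hT : ∀ γ : Γ, botRow γ.1 = ![0, 1] → χ γ = 1)
    (hT' : ∀ γ : Γ, botRow γ.1 = ![0, -1] → χ γ = 1) : eisChar k Γ χ ≠ 0 := by
  intro h0
  have h1 := tendsto_eisChar hk hu hT
  rw [h0, hk2.neg_one_zpow, one_mul] at h1
  have h2 : Tendsto (0 : ℍ → ℂ) atImInfty (𝓝 0) := tendsto_const_nhds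
  have h3 := tendsto_nhds_unique h1 h2
  rcases wChar_zero_neg_one hT' with h | h
  · rw [h] at h3
    norm_num at h3
  · rw [h] at h3
    norm_num at h3

end EisChar

/-! ### powers -/

section Pow

theorem pow_slash_SL2 (k : ℤ) (n : ℕ) (γ : SL(2, ℤ)) (f : ℍ → ℂ) :
    (f ^ n) ∣[k * n] γ = (f ∣[k] γ) ^ n := by
  ext1 z
  rw [SL_slash_apply, Pi.pow_apply, Pi.pow_apply, SL_slash_apply, mul_pow,
    ← zpow_natCast (denom γ z ^ (-k)) n, ← _root_.zpow_mul, neg_mul]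

theorem pow_slash_SL2' (k n : ℕ) (γ : SL(2, ℤ)) (f : ℍ → ℂ) :
    (f ^ n) ∣[((k * n : ℕ) : ℤ)] γ = (f ∣[(k : ℤ)] γ) ^ n := by
  rw [Nat.cast_mul, pow_slash_SL2]

variable {k : ℕ} {Γ : Subgroup SL(2, ℤ)} {χ : Γ →* ℂˣ} {p : ℕ}

/-- **(C5a)** The `p`-th power of the twisted Eisenstein series is slash invariant if
`χ ^ p = 1`. -/
theorem eisChar_pow_slash (hT : ∀ γ : Γ, botRow γ.1 = ![0, 1] → χ γ = 1)
    (hχ : ∀ γ : Γ, χ γ ^ p = 1) (γ : SL(2, ℤ)) (hγ : γ ∈ Γ) :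
    (eisChar k Γ χ ^ p) ∣[((k * p : ℕ) : ℤ)] γ = eisChar k Γ χ ^ p := by
  rw [pow_slash_SL2', eisChar_slash hT ⟨γ, hγ⟩, smul_pow]
  have h := congrArg (fun u : ℂˣ => (u : ℂ)) (hχ ⟨γ, hγ⟩)
  simp only [Units.val_pow_eq_pow_val, Units.val_one] at h
  rw [h, one_smul]

/-- **(C5b)** holomorphy of the power. -/
theorem eisChar_pow_mdifferentiable (hk : 3 ≤ k) (hu : ∀ γ : Γ, ‖((χ γ : ℂˣ) : ℂ)‖ = 1)
    (p : ℕ) : MDifferentiable 𝓘(ℂ) 𝓘(ℂ) (eisChar k Γ χ ^ p) :=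
  (eisChar_mdifferentiable (by exact_mod_cast hk) hu).pow p

/-- **(C5c)** boundedness of the power at `i∞` after every slash. -/
theorem eisChar_pow_slash_isBoundedAtImInfty (hk : 3 ≤ k)
    (hu : ∀ γ : Γ, ‖((χ γ : ℂˣ) : ℂ)‖ = 1) (p : ℕ) (γ : SL(2, ℤ)) :
    IsBoundedAtImInfty ((eisChar k Γ χ ^ p) ∣[((k * p : ℕ) : ℤ)] γ) := by
  rw [pow_slash_SL2']
  have h := eisChar_slash_isBoundedAtImInfty (k := (k : ℤ)) (χ := χ) (by exact_mod_cast hk) hu γ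
  induction p with
  | zero =>
    rw [pow_zero]
    exact Filter.const_boundedAtFilter _ (1 : ℂ)
  | succ n ih =>
    rw [pow_succ]
    exact ih.mul h

/-- **(C5d)** non-vanishing of the power. -/
theorem eisChar_pow_ne_zero (hk : 3 ≤ k) (hk2 : Even k) (hu : ∀ γ : Γ, ‖((χ γ : ℂˣ) : ℂ)‖ = 1)
    (hT : ∀ γ : Γ, botRow γ.1 = ![0, 1] → χ γ = 1)
    (hT' : ∀ γ : Γ, botRow γ.1 = ![0, -1] → χ γ = 1) (p : ℕ) : eisChar k Γ χ ^ p ≠ 0 := by
  have h1 : ∃ L : ℂ, L ≠ 0 ∧ Tendsto (eisChar k Γ χ) atImInfty (𝓝 L) := by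
    have h1 := tendsto_eisChar (k := (k : ℤ)) (by exact_mod_cast hk) hu hT
    have hk2' : Even (k : ℤ) := by exact_mod_cast hk2
    rw [hk2'.neg_one_zpow, one_mul] at h1
    refine ⟨_, ?_, h1⟩
    rcases wChar_zero_neg_one hT' with h | h
    · rw [h]; norm_num
    · rw [h]; norm_num
  obtain ⟨L, hL, hL'⟩ := h1
  intro h0
  have h2 : Tendsto (eisChar k Γ χ ^ p) atImInfty (𝓝 (L ^ p)) := hL'.pow p
  rw [h0] at h2
  have h3 : Tendsto (0 : ℍ → ℂ) atImInfty (𝓝 0) := tendsto_const_nhds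
  exact pow_ne_zero p hL (tendsto_nhds_unique h2 h3)

end Pow

/-! ### the modular form `E_χ ^ p` on `Γ₀(N)` -/

section Gamma0

variable (N : ℕ) [NeZero N] {k : ℕ} {χ : Gamma0 N →* ℂˣ} {p : ℕ}

/-- **(C5)** The `p`-th power of the twisted Eisenstein series as a modular form of weight
`k p` on `Γ₀(N)`, for a character `χ` with `χ ^ p = 1`. -/
noncomputable def eisCharPowMF (hk : 3 ≤ k) (hu : ∀ γ : Gamma0 N, ‖((χ γ : ℂˣ) : ℂ)‖ = 1)
    (hT : ∀ γ : Gamma0 N, botRow γ.1 = ![0, 1] → χ γ = 1)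
    (hχ : ∀ γ : Gamma0 N, χ γ ^ p = 1) : ModularForm (Gamma0 N) ((k * p : ℕ) : ℤ) where
  toFun := eisChar k (Gamma0 N) χ ^ p
  slash_action_eq' := by
    intro γ hγ
    obtain ⟨γ', hγ', rfl⟩ := hγ
    exact eisChar_pow_slash hT hχ γ' hγ'
  holo' := eisChar_pow_mdifferentiable hk hu p
  bdd_at_cusps' {c} hc := by
    rw [Subgroup.IsArithmetic.isCusp_iff_isCusp_SL2Z] at hc
    rw [OnePoint.isBoundedAt_iff_forall_SL2Z hc]
    exact fun γ _ ↦ eisChar_pow_slash_isBoundedAtImInfty hk hu p γ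

theorem coe_eisCharPowMF (hk : 3 ≤ k) (hu : ∀ γ : Gamma0 N, ‖((χ γ : ℂˣ) : ℂ)‖ = 1)
    (hT : ∀ γ : Gamma0 N, botRow γ.1 = ![0, 1] → χ γ = 1)
    (hχ : ∀ γ : Gamma0 N, χ γ ^ p = 1) :
    (eisCharPowMF N hk hu hT hχ : ℍ → ℂ) = eisChar k (Gamma0 N) χ ^ p := rfl

/-- In `Γ₀(N)` the matrix `-1` is the only source of the bottom row `(0, -1)` up to
translations: a character trivial on the bottom row `(0, 1)` and with `χ(-1) = 1` is trivial on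
the bottom row `(0, -1)`. -/
theorem chi_eq_one_of_botRow_neg (Γ : Subgroup SL(2, ℤ)) (χ : Γ →* ℂˣ)
    (hT : ∀ γ : Γ, botRow γ.1 = ![0, 1] → χ γ = 1) (p : ℕ) (hp : Odd p)
    (hχ : ∀ γ : Γ, χ γ ^ p = 1) (γ : Γ) (h : botRow γ.1 = ![0, -1]) : χ γ = 1 := by
  have h1 : botRow ((γ * γ : Γ) : SL(2, ℤ)) = ![0, 1] := by
    rw [Subgroup.coe_mul, botRow_mul, h]
    have h2 := botRow_eq γ.1
    rw [h] at h2
    have h3 : γ.1.1 1 0 = 0 := by
      have := congrFun h2 0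
      simpa using this.symm
    have h4 : γ.1.1 1 1 = -1 := by
      have := congrFun h2 1
      simpa using this.symm
    ext i
    fin_cases i <;> simp [Matrix.vecMul, dotProduct, Fin.sum_univ_two, h3, h4]
  have h2 := hT _ h1
  rw [map_mul, ← sq] at h2
  obtain ⟨m, hm⟩ := hp
  have h3 := hχ γ
  rw [hm, pow_succ, pow_mul, h2, one_pow, one_mul] at h3
  exact h3

end Gamma0

/-! ### the quotient `E_χ / E_1` as a meromorphic function -/

section Mer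

open Fermat.Agent.S24.Mer

variable {k : ℕ} {Γ : Subgroup SL(2, ℤ)}

theorem norm_one_char (γ : Γ) : ‖(((1 : Γ →* ℂˣ) γ : ℂˣ) : ℂ)‖ = 1 := by
  simp

/-- The twisted Eisenstein series as an element of `HolH`. -/
noncomputable def eisCharH (hk : 3 ≤ k) (χ : Γ →* ℂˣ) (hu : ∀ γ : Γ, ‖((χ γ : ℂˣ) : ℂ)‖ = 1) :
    HolH :=
  ⟨eisChar k Γ χ, eisChar_mdifferentiable (by exact_mod_cast hk) hu⟩

@[simp] theorem coe_eisCharH (hk : 3 ≤ k) (χ : Γ →* ℂˣ)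
    (hu : ∀ γ : Γ, ‖((χ γ : ℂˣ) : ℂ)‖ = 1) :
    ((eisCharH hk χ hu : HolH) : ℍ → ℂ) = eisChar k Γ χ := rfl

variable {χ : Γ →* ℂˣ}

theorem eisCharH_ne_zero (hk : 3 ≤ k) (hk2 : Even k) (hu : ∀ γ : Γ, ‖((χ γ : ℂˣ) : ℂ)‖ = 1)
    (hT : ∀ γ : Γ, botRow γ.1 = ![0, 1] → χ γ = 1)
    (hT' : ∀ γ : Γ, botRow γ.1 = ![0, -1] → χ γ = 1) : eisCharH hk χ hu ≠ 0 := by
  intro h
  have h1 := eisChar_pow_ne_zero hk hk2 hu hT hT' 1
  rw [pow_one] at h1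
  exact h1 (congrArg Subtype.val h)

/-- The translate of the twisted Eisenstein series. -/
theorem tau_eisCharH (hk : 3 ≤ k) (hu : ∀ γ : Γ, ‖((χ γ : ℂˣ) : ℂ)‖ = 1)
    (hT : ∀ γ : Γ, botRow γ.1 = ![0, 1] → χ γ = 1) (γ : Γ) (z : ℍ) :
    ((tau γ.1 (eisCharH hk χ hu) : HolH) : ℍ → ℂ) z =
      (((χ γ)⁻¹ : ℂˣ) : ℂ) * denom (γ⁻¹ : Γ).1 z ^ (k : ℤ) * eisChar k Γ χ z := by
  rw [tau_apply, coe_eisCharH]
  have h := eisChar_smul (k := (k : ℤ)) hT γ⁻¹ z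
  rw [Subgroup.coe_inv, map_inv] at h
  rw [h, Subgroup.coe_inv]

/-- **(C6)** The quotient `f_χ = E_χ / E_1` in the field of meromorphic functions. -/
noncomputable def fChi (hk : 3 ≤ k) (χ : Γ →* ℂˣ) (hu : ∀ γ : Γ, ‖((χ γ : ℂˣ) : ℂ)‖ = 1) :
    MerH :=
  algebraMap HolH MerH (eisCharH hk χ hu) /
    algebraMap HolH MerH (eisCharH hk (1 : Γ →* ℂˣ) norm_one_char)

theorem fChi_ne_zero (hk : 3 ≤ k) (hk2 : Even k) (hu : ∀ γ : Γ, ‖((χ γ : ℂˣ) : ℂ)‖ = 1)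
    (hT : ∀ γ : Γ, botRow γ.1 = ![0, 1] → χ γ = 1)
    (hT' : ∀ γ : Γ, botRow γ.1 = ![0, -1] → χ γ = 1) : fChi hk χ hu ≠ 0 := by
  rw [fChi]
  apply div_ne_zero
  · exact algebraMap_MerH_ne_zero (eisCharH_ne_zero hk hk2 hu hT hT')
  · exact algebraMap_MerH_ne_zero (eisCharH_ne_zero hk hk2 norm_one_char (fun _ _ => rfl)
      (fun _ _ => rfl))

/-- **(C6)** The character of `f_χ`: `f_χ ∘ γ⁻¹ = χ(γ)⁻¹ f_χ` for `γ ∈ Γ`. -/
theorem tauE_fChi (hk : 3 ≤ k) (hu : ∀ γ : Γ, ‖((χ γ : ℂˣ) : ℂ)‖ = 1)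
    (hT : ∀ γ : Γ, botRow γ.1 = ![0, 1] → χ γ = 1) (γ : Γ) :
    tauE γ.1 (fChi hk χ hu) =
      algebraMap HolH MerH (constH (((χ γ)⁻¹ : ℂˣ) : ℂ)) * fChi hk χ hu := by
  set a := eisCharH hk χ hu with ha
  set b := eisCharH hk (1 : Γ →* ℂˣ) norm_one_char with hb
  have key : tau γ.1 a * b = constH (((χ γ)⁻¹ : ℂˣ) : ℂ) * a * tau γ.1 b := by
    apply Subtype.ext
    funext z
    show ((tau γ.1 a : HolH) : ℍ → ℂ) z * (b : ℍ → ℂ) z =
      (((χ γ)⁻¹ : ℂˣ) : ℂ) * (a : ℍ → ℂ) z * ((tau γ.1 b : HolH) : ℍ → ℂ) z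
    rw [ha, hb, tau_eisCharH hk hu hT γ z, tau_eisCharH hk norm_one_char (fun _ _ => rfl) γ z,
      coe_eisCharH, coe_eisCharH]
    simp only [MonoidHom.one_apply, inv_one, Units.val_one, one_mul]
    ring
  by_cases hb0 : b = 0
  · rw [fChi, ← hb, hb0, map_zero, div_zero, map_zero, mul_zero]
  have hb1 : algebraMap HolH MerH b ≠ 0 := algebraMap_MerH_ne_zero hb0
  have hb2 : algebraMap HolH MerH (tau γ.1 b) ≠ 0 := by
    apply algebraMap_MerH_ne_zero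
    intro h
    apply hb0
    exact (tau γ.1).injective (by rw [h, map_zero])
  have key' := congrArg (algebraMap HolH MerH) key
  simp only [map_mul] at key'
  rw [fChi, ← ha, ← hb, map_div₀, tauE_algebraMap, tauE_algebraMap, div_eq_iff hb2]
  field_simp
  linear_combination key'

/-- The `p`-th power of `f_χ` is the quotient of the two functions `E_χ ^ p`, `E_1 ^ p`. -/
theorem fChi_pow (hk : 3 ≤ k) (hu : ∀ γ : Γ, ‖((χ γ : ℂˣ) : ℂ)‖ = 1) (p : ℕ) :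
    fChi hk χ hu ^ p =
      algebraMap HolH MerH ⟨eisChar k Γ χ ^ p, eisChar_pow_mdifferentiable hk hu p⟩ /
        algebraMap HolH MerH ⟨eisChar k Γ (1 : Γ →* ℂˣ) ^ p,
          eisChar_pow_mdifferentiable hk norm_one_char p⟩ := by
  rw [fChi, div_pow, ← map_pow, ← map_pow]
  rfl

end Mer

end Fermat.Agent.S42x.Kum.H8
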