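import Fermat.Agent.S42x.Kum.H8_EisChar
import Fermat.Agent.S42x.Kum.H21_Fun
import Fermat.Prelude.Def_ModularCurve_PeriodMap

/-!
# W7 (B2), glue: the Kummer functions over `ℂ`

For a parabolic homomorphism `b : Γ₀(N) → ℤ` and a `p`-th root of unity `ζ` (`p` odd) there
are `g` in the function field `F_ℂ` of `X₀(N)` and a meromorphic function `y ≠ 0` on the upper
half plane with `y ^ p = g` and `y ∘ γ⁻¹ = ζ ^ (b γ) y` for `γ ∈ Γ₀(N)`.
-/

set_option autoImplicit false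

open ModularForm UpperHalfPlane Complex Matrix CongruenceSubgroup Set Filter Topology

open scoped MatrixGroups Manifold

namespace Fermat.Agent.S42x.Kum.H8

open Fermat.Agent.S24.Mer Fermat.Agent.S24.Real Fermat.Agent.S42x.Kum.H21

/-- **(B2ab)** The `p`-th power of `f_χ = E_χ / E_1` lies in the function field of `X₀(N)`
over `ℂ`. -/
theorem exists_funField_fChi_pow (N : ℕ) [NeZero N] {k : ℕ} (hk : 3 ≤ k) (hk2 : Even k)
    {χ : Gamma0 N →* ℂˣ} (hu : ∀ γ : Gamma0 N, ‖((χ γ : ℂˣ) : ℂ)‖ = 1)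
    (hT : ∀ γ : Gamma0 N, botRow γ.1 = ![0, 1] → χ γ = 1) (p : ℕ)
    (hχ : ∀ γ : Gamma0 N, χ γ ^ p = 1) :
    ∃ h : FK ℂ N, iota (RingHom.id ℂ) h = fChi hk χ hu ^ p := by
  rw [fChi_pow]
  exact h21_div_mem_funField_fun N (k * p) _ _ (eisChar_pow_mdifferentiable hk hu p)
    (eisChar_pow_mdifferentiable hk norm_one_char p)
    (fun γ hγ => eisChar_pow_slash hT hχ γ hγ)
    (fun γ hγ => eisChar_pow_slash (fun _ _ => rfl) (fun _ => one_pow p) γ hγ)
    (fun γ => eisChar_pow_slash_isBoundedAtImInfty hk hu p γ)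
    (fun γ => eisChar_pow_slash_isBoundedAtImInfty hk norm_one_char p γ)
    (eisChar_pow_ne_zero hk hk2 norm_one_char (fun _ _ => rfl) (fun _ _ => rfl) p)

section CharOfHom

variable {Γ : Subgroup SL(2, ℤ)}

/-- The character `γ ↦ ζ ^ (- b γ)` attached to a homomorphism `b : Γ → ℤ`. -/
noncomputable def charOfHom (ζ : ℂˣ) (b : Additive Γ →+ ℤ) : Γ →* ℂˣ where
  toFun γ := ζ ^ (-(b (Additive.ofMul γ)))
  map_one' := by
    rw [ofMul_one, map_zero, neg_zero, zpow_zero]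
  map_mul' γ δ := by
    rw [ofMul_mul, map_add, neg_add, _root_.zpow_add]

@[simp] theorem charOfHom_apply (ζ : ℂˣ) (b : Additive Γ →+ ℤ) (γ : Γ) :
    charOfHom ζ b γ = ζ ^ (-(b (Additive.ofMul γ))) := rfl

theorem charOfHom_pow (ζ : ℂˣ) (p : ℕ) (hζ : ζ ^ p = 1) (b : Additive Γ →+ ℤ) (γ : Γ) :
    charOfHom ζ b γ ^ p = 1 := by
  rw [charOfHom_apply, ← zpow_natCast, ← _root_.zpow_mul, mul_comm, _root_.zpow_mul,
    zpow_natCast, hζ, _root_.one_zpow]

theorem norm_charOfHom (ζ : ℂˣ) (p : ℕ) (hp : p ≠ 0) (hζ : ζ ^ p = 1) (b : Additive Γ →+ ℤ)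
    (γ : Γ) : ‖((charOfHom ζ b γ : ℂˣ) : ℂ)‖ = 1 := by
  have h := congrArg (fun u : ℂˣ => ‖(u : ℂ)‖) (charOfHom_pow ζ p hζ b γ)
  simp only [Units.val_pow_eq_pow_val, norm_pow, Units.val_one, norm_one] at h
  exact (pow_eq_one_iff_of_nonneg (norm_nonneg _) hp).mp h

theorem trace_sq_of_botRow (γ : SL(2, ℤ)) (h : botRow γ = ![0, 1] ∨ botRow γ = ![0, -1]) :
    γ.1.trace ^ 2 = 4 := by
  have hdet := Matrix.SpecialLinearGroup.det_coe γ
  rw [Matrix.det_fin_two] at hdet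
  rw [Matrix.trace_fin_two]
  rcases h with h | h
  · have h0 : γ.1 1 0 = 0 := by
      rw [← botRow_apply, h]; rfl
    have h1 : γ.1 1 1 = 1 := by
      rw [← botRow_apply, h]; rfl
    rw [h0, h1] at hdet
    rw [h1]
    have : γ.1 0 0 = 1 := by linarith
    rw [this]
    norm_num
  · have h0 : γ.1 1 0 = 0 := by
      rw [← botRow_apply, h]; rfl
    have h1 : γ.1 1 1 = -1 := by
      rw [← botRow_apply, h]; rfl
    rw [h0, h1] at hdet
    rw [h1]
    have : γ.1 0 0 = -1 := by linarith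
    rw [this]
    norm_num

theorem charOfHom_botRow (ζ : ℂˣ) (b : Additive Γ →+ ℤ)
    (hb : ModularCurve.Period.IsParabolicHom Γ b) (γ : Γ)
    (h : botRow γ.1 = ![0, 1] ∨ botRow γ.1 = ![0, -1]) : charOfHom ζ b γ = 1 := by
  rw [charOfHom_apply, hb γ (trace_sq_of_botRow γ.1 h), neg_zero, zpow_zero]

end CharOfHom

/-- **(K-ex), over `ℂ`, function-field form.** For every parabolic homomorphism
`b : Γ₀(N) → ℤ` and every `p`-th root of unity `ζ` there are `g ∈ F_ℂ` and a meromorphic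
function `y ≠ 0` with `y ^ p = g` and `y ∘ γ⁻¹ = ζ ^ (b γ) y` for all `γ ∈ Γ₀(N)`. -/
theorem exists_kum_C (N : ℕ) [NeZero N] (p : ℕ) (hp : p ≠ 0) (ζ : ℂ) (hζ : ζ ^ p = 1)
    (b : Additive (Gamma0 N) →+ ℤ) (hb : ModularCurve.Period.IsParabolicHom (Gamma0 N) b) :
    ∃ (g : FK ℂ N) (y : MerH), g ≠ 0 ∧ y ≠ 0 ∧ y ^ p = iota (RingHom.id ℂ) g ∧
      ∀ γ : Gamma0 N, tauE γ.1 y =
        algebraMap HolH MerH (constH (ζ ^ (b (Additive.ofMul γ)))) * y := by
  have hζ0 : ζ ≠ 0 := by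
    rintro rfl
    rw [zero_pow hp] at hζ
    exact zero_ne_one hζ
  set u : ℂˣ := Units.mk0 ζ hζ0 with hu
  have hup : u ^ p = 1 := by
    apply Units.ext
    rw [Units.val_pow_eq_pow_val, Units.val_one, hu, Units.val_mk0, hζ]
  have hk : 3 ≤ 4 := by norm_num
  have hk2 : Even 4 := by decide
  have hnorm := norm_charOfHom u p hp hup b
  have hT : ∀ γ : Gamma0 N, botRow γ.1 = ![0, 1] → charOfHom u b γ = 1 :=
    fun γ h => charOfHom_botRow u b hb γ (Or.inl h)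
  have hT' : ∀ γ : Gamma0 N, botRow γ.1 = ![0, -1] → charOfHom u b γ = 1 :=
    fun γ h => charOfHom_botRow u b hb γ (Or.inr h)
  obtain ⟨g, hg⟩ := exists_funField_fChi_pow N hk hk2 hnorm hT p (charOfHom_pow u p hup b)
  have hy0 : fChi hk (charOfHom u b) hnorm ≠ 0 := fChi_ne_zero hk hk2 hnorm hT hT'
  refine ⟨g, fChi hk (charOfHom u b) hnorm, ?_, hy0, hg.symm, ?_⟩
  · rintro rfl
    rw [map_zero] at hg
    exact pow_ne_zero p hy0 hg.symm
  · intro γ
    rw [tauE_fChi hk hnorm hT γ]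
    congr 3
    rw [charOfHom_apply, ← _root_.zpow_neg, neg_neg, Units.val_zpow_eq_zpow_val, hu, Units.val_mk0]

end Fermat.Agent.S42x.Kum.H8
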