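import Fermat.Agent.S42x.Kum.H8_KEx
import Fermat.Agent.S42x.Kum.H12_Base

/-!
# W7 (KEX-ASM), character form (all primes `p`)

`kex_of_char` : the same as `kex_of`, but the divisibility hypotheses **(B2c)** receive the
full character relation `tauE γ y = cM (ζ ^ b γ) * y` of the root (so that the invariance under
the elliptic elements is available for `p = 2, 3`).
-/

set_option autoImplicit false
set_option synthInstance.maxHeartbeats 400000
set_option maxHeartbeats 1000000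

open AlgebraicCurve ModularCurve UpperHalfPlane CongruenceSubgroup
open Fermat.Agent.S24.Mer Fermat.Agent.S24.Real

open scoped MatrixGroups

namespace Fermat.Agent.S42x.Kum.H8

open Fermat.Agent.S42x.Kum.H12

/-- **(KEX-ASM)**, character form: existence in the Kummer relation for one parabolic
homomorphism `b`, from the divisibility of the orders of functions with a `p`-th root of
character `ζ ^ b` (over `ℂ` and over `ℚ̄`) and the descent from `ℂ` to `ℚ̄`. -/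
theorem kex_of_char (N : ℕ) [NeZero N] (p : ℕ) (hp : p ≠ 0) (e : AlgebraicClosure ℚ →+* ℂ)
    (ζ : ℂ) (hζ : ζ ^ p = 1)
    (base : modularFunctionFieldBar N →+* FK ℂ N)
    (hbase : ∀ f : modularFunctionFieldBar N, iota (RingHom.id ℂ) (base f) = iota e f)
    (b : Additive (Gamma0 N) →+ ℤ) (hb : ModularCurve.Period.IsParabolicHom (Gamma0 N) b)
    (hOrdC : ∀ (g : FK ℂ N) (y : MerH), g ≠ 0 → y ^ p = iota (RingHom.id ℂ) g →
      (∀ γ : Gamma0 N, tauE γ.1 y = cM (ζ ^ (b (Additive.ofMul γ))) * y) →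
      ∀ v : Place ℂ (FK ℂ N), (p : ℤ) ∣ v.ord g)
    (hOrdQ : ∀ (f : modularFunctionFieldBar N) (y : MerH), f ≠ 0 → y ^ p = iota e f →
      (∀ γ : Gamma0 N, tauE γ.1 y = cM (ζ ^ (b (Additive.ofMul γ))) * y) →
      ∀ v : Place (AlgebraicClosure ℚ) (modularFunctionFieldBar N), (p : ℤ) ∣ v.ord f)
    (hDesc : ∀ fC : FK ℂ N, fC ≠ 0 → (∀ v : Place ℂ (FK ℂ N), (p : ℤ) ∣ v.ord fC) →
      ∃ (f : modularFunctionFieldBar N) (h : FK ℂ N), f ≠ 0 ∧ h ≠ 0 ∧ fC = base f * h ^ p) :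
    ∃ x : JZero N, KumRel N p e ζ x b := by
  obtain ⟨g, y, hg, hy0, hyg, hyγ⟩ := exists_kum_C N p hp ζ hζ b hb
  obtain ⟨f, h, hf, hh, hfh⟩ := hDesc g hg (hOrdC g y hg hyg hyγ)
  have hih : iota (RingHom.id ℂ) h ≠ 0 := (map_ne_zero_iff _ (iota_injective _)).mpr hh
  set y' : MerH := y / iota (RingHom.id ℂ) h with hy'
  have hy'p : y' ^ p = iota e f := by
    rw [hy', div_pow, hyg, hfh, map_mul, map_pow, hbase, mul_div_assoc,
      div_self (pow_ne_zero p hih), mul_one]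
  have hy'γ : ∀ γ : Gamma0 N, tauE γ.1 y' =
      cM (ζ ^ (b (Additive.ofMul γ))) * y' := by
    intro γ
    rw [hy', map_div₀, hyγ γ, tauE_iota_of_mem (RingHom.id ℂ) γ.2 h, mul_div_assoc, cM_apply]
  have hdiv := hOrdQ f y' hf hy'p hy'γ
  obtain ⟨D₀, hD₀, hD₀deg⟩ :=
    (Fermat.Agent.S18x.E.H12.h12_hasPrincipalDivisors_bar N).exists_divisor f hf
  obtain ⟨D, hD, hDdeg⟩ := exists_divisor_div p hp D₀ (fun v => by rw [hD₀ v]; exact hdiv v)
    hD₀deg
  refine ⟨Pic0.mk ⟨D, Divisor.mem_degZero.mpr hDdeg⟩, f, ⟨D, Divisor.mem_degZero.mpr hDdeg⟩,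
    y', hf, fun v => ?_, rfl, hy'p, hy'γ⟩
  rw [← hD₀ v]
  exact hD v

/-- **(KEX-ASM)**, character form, with helper12's base change `baseF`. -/
theorem kex_of_char_baseF (N : ℕ) [NeZero N] (p : ℕ) (hp : p ≠ 0)
    (e : AlgebraicClosure ℚ →+* ℂ) (ζ : ℂ) (hζ : ζ ^ p = 1)
    (b : Additive (Gamma0 N) →+ ℤ) (hb : ModularCurve.Period.IsParabolicHom (Gamma0 N) b)
    (hOrdC : ∀ (g : FK ℂ N) (y : MerH), g ≠ 0 → y ^ p = iota (RingHom.id ℂ) g →
      (∀ γ : Gamma0 N, tauE γ.1 y = cM (ζ ^ (b (Additive.ofMul γ))) * y) →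
      ∀ v : Place ℂ (FK ℂ N), (p : ℤ) ∣ v.ord g)
    (hOrdQ : ∀ (f : modularFunctionFieldBar N) (y : MerH), f ≠ 0 → y ^ p = iota e f →
      (∀ γ : Gamma0 N, tauE γ.1 y = cM (ζ ^ (b (Additive.ofMul γ))) * y) →
      ∀ v : Place (AlgebraicClosure ℚ) (modularFunctionFieldBar N), (p : ℤ) ∣ v.ord f)
    (hDesc : ∀ fC : FK ℂ N, fC ≠ 0 → (∀ v : Place ℂ (FK ℂ N), (p : ℤ) ∣ v.ord fC) →
      ∃ (f : modularFunctionFieldBar N) (h : FK ℂ N), f ≠ 0 ∧ h ≠ 0 ∧
        fC = baseF e N f * h ^ p) :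
    ∃ x : JZero N, KumRel N p e ζ x b :=
  kex_of_char N p hp e ζ hζ (baseF e N) (iota_baseF e) b hb hOrdC hOrdQ hDesc

end Fermat.Agent.S42x.Kum.H8
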