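import Fermat.Agent.S42x.Kum.H8_KEx
import Fermat.Agent.S42x.Kum.H17_Top
import Fermat.Agent.S42x.Kum.H12_Base

/-!
# W7 (KEX-ASM), second plug: `(K-ex)` from the descent `(B3)` alone

`kex_of_desc` : for `p ≥ 5` prime, `(K-ex)` follows from the descent statement `(B3)`; the
divisibility `(B2c)` is helper17's `h17_dvd_ord`, the base change is helper12's `baseF`.
-/

set_option autoImplicit false
set_option synthInstance.maxHeartbeats 400000
set_option maxHeartbeats 1000000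

open AlgebraicCurve ModularCurve UpperHalfPlane CongruenceSubgroup
open Fermat.Agent.S24.Mer Fermat.Agent.S24.Real

open scoped MatrixGroups

namespace Fermat.Agent.S42x.Kum.H8

open Fermat.Agent.S42x.Kum.H12 Fermat.Agent.S42x.Kum.H17

/-- **(B2c)** in the shape of `kex_of` (parabolic invariance stated with `trace ^ 2 = 4`). -/
theorem dvd_ord_of_trace {K : Type*} [Field K] [Algebra ℚ K] [CharZero K] [IsAlgClosed K]
    (e : K →+* ℂ) (N : ℕ) [NeZero N] {p : ℕ} (hp : p.Prime) (hp5 : 5 ≤ p)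
    (g : FK K N) (y : MerH) (hg : g ≠ 0) (hy : y ^ p = iota e g)
    (hpar : ∀ δ : SL(2, ℤ), δ ∈ Gamma0 N → δ.1.trace ^ 2 = 4 → tauE δ y = y)
    (v : Place K (FK K N)) : (p : ℤ) ∣ v.ord g := by
  refine h17_dvd_ord e N hp hp5 g hg y hy (fun γ w hγ => hpar _ hγ ?_) v
  have h := h17_trace_conj γ w
  rw [h]
  norm_num

/-- **(K-ex)** from the descent **(B3)** (in the spelling with helper12's `baseF`). -/
theorem kex_of_desc (N : ℕ) [NeZero N] (p : ℕ) (hp : p.Prime) (hp5 : 5 ≤ p)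
    (e : AlgebraicClosure ℚ →+* ℂ) (ζ : ℂ) (hζ : ζ ^ p = 1)
    (hDesc : ∀ fC : FK ℂ N, fC ≠ 0 → (∀ v : Place ℂ (FK ℂ N), (p : ℤ) ∣ v.ord fC) →
      ∃ (f : modularFunctionFieldBar N) (h : FK ℂ N), f ≠ 0 ∧ h ≠ 0 ∧
        fC = baseF e N f * h ^ p)
    (b : Additive (Gamma0 N) →+ ℤ) (hb : ModularCurve.Period.IsParabolicHom (Gamma0 N) b) :
    ∃ x : JZero N, KumRel N p e ζ x b :=
  kex_of N p hp.ne_zero e ζ hζ (baseF e N) (iota_baseF e)
    (fun g y hg hy hpar v => dvd_ord_of_trace (RingHom.id ℂ) N hp hp5 g y hg hy hpar v)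
    (fun f y hf hy hpar v => dvd_ord_of_trace e N hp hp5 f y hf hy hpar v)
    hDesc b hb

/-- **(K-ex)** from the descent **(B3)** (in the spelling with `q`-expansions). -/
theorem kex_of_desc_coe (N : ℕ) [NeZero N] (p : ℕ) (hp : p.Prime) (hp5 : 5 ≤ p)
    (e : AlgebraicClosure ℚ →+* ℂ) (ζ : ℂ) (hζ : ζ ^ p = 1)
    (hDesc : ∀ fC : FK ℂ N, fC ≠ 0 → (∀ v : Place ℂ (FK ℂ N), (p : ℤ) ∣ v.ord fC) →
      ∃ (f : modularFunctionFieldBar N) (h : FK ℂ N), f ≠ 0 ∧ h ≠ 0 ∧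
        (fC : LaurentSeries ℂ) =
          ModularCurve.coeffMap e (f : LaurentSeries (AlgebraicClosure ℚ)) *
            (h : LaurentSeries ℂ) ^ p)
    (b : Additive (Gamma0 N) →+ ℤ) (hb : ModularCurve.Period.IsParabolicHom (Gamma0 N) b) :
    ∃ x : JZero N, KumRel N p e ζ x b := by
  refine kex_of_desc N p hp hp5 e ζ hζ ?_ b hb
  intro fC hfC hdiv
  obtain ⟨f, h, hf, hh, hfh⟩ := hDesc fC hfC hdiv
  exact ⟨f, h, hf, hh, Subtype.ext hfh⟩

end Fermat.Agent.S42x.Kum.H8
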