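import Fermat.Agent.S42x.Kum.H8_KExTop
import Fermat.Agent.S42x.Kum.H8_KExChar
import Fermat.Agent.S42x.Desc.H26_DescInst
import Fermat.Agent.S42x.Asm.H23_EigTop

/-!
# W7 (K-ex), final: existence in the Kummer relation

* `stKEx` : for a prime `p ≥ 5`, a `p`-th root of unity `ζ` and every parabolic homomorphism
  `b : Γ₀(N) → ℤ` there is `x ∈ J₀(N)` with `KumRel N p e ζ x b` (helper12's `KumRel`);
  hypothesis-free.
* `stKumEx` : the same in the spelling `Kum.StKumEx` of `Kum/Defs`.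
* `stKEx_of_ord` : for every `p ≠ 0`, from the divisibility **(B2c)** in character form.
-/

set_option autoImplicit false
set_option synthInstance.maxHeartbeats 400000
set_option maxHeartbeats 1000000

open AlgebraicCurve ModularCurve UpperHalfPlane CongruenceSubgroup
open Fermat.Agent.S24.Mer Fermat.Agent.S24.Real

open scoped MatrixGroups

namespace Fermat.Agent.S42x.Kum.H8

open Fermat.Agent.S42x.Kum.H12

/-- **(K-ex)** for a prime `p ≥ 5`, hypothesis-free. -/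
theorem stKEx (N : ℕ) [NeZero N] (p : ℕ) (hp : p.Prime) (hp5 : 5 ≤ p)
    (e : AlgebraicClosure ℚ →+* ℂ) (ζ : ℂ) (hζ : ζ ^ p = 1)
    (b : Additive (Gamma0 N) →+ ℤ) (hb : ModularCurve.Period.IsParabolicHom (Gamma0 N) b) :
    ∃ x : JZero N, Fermat.Agent.S42x.Kum.H12.KumRel N p e ζ x b :=
  kex_of_desc N p hp hp5 e ζ hζ
    (fun fC hf hdiv => Fermat.Agent.S42x.Desc.H26.h26_desc N p hp.ne_zero e fC hf hdiv) b hb

/-- **(K-ex)** for a prime `p ≥ 5`, in the spelling of `Kum/Defs`. -/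
theorem stKumEx (N : ℕ) [NeZero N] (p : ℕ) (hp : p.Prime) (hp5 : 5 ≤ p)
    (e : AlgebraicClosure ℚ →+* ℂ) (ζ : ℂ) (hζ : ζ ^ p = 1) :
    Fermat.Agent.S42x.Kum.StKumEx N p e ζ := by
  intro b hb
  obtain ⟨x, hx⟩ := stKEx N p hp hp5 e ζ hζ b hb
  exact ⟨x, Fermat.Agent.S42x.Asm.H23.h23_kumRel_iff.mpr hx⟩

/-- **(K-ex)** for every `p ≠ 0`, from the divisibility **(B2c)** in character form (over `ℂ`
and over `ℚ̄`). -/
theorem stKEx_of_ord (N : ℕ) [NeZero N] (p : ℕ) (hp : p ≠ 0)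
    (e : AlgebraicClosure ℚ →+* ℂ) (ζ : ℂ) (hζ : ζ ^ p = 1)
    (b : Additive (Gamma0 N) →+ ℤ) (hb : ModularCurve.Period.IsParabolicHom (Gamma0 N) b)
    (hOrdC : ∀ (g : FK ℂ N) (y : MerH), g ≠ 0 → y ^ p = iota (RingHom.id ℂ) g →
      (∀ γ : Gamma0 N, tauE γ.1 y = Fermat.Agent.S42x.Kum.H12.cM (ζ ^ (b (Additive.ofMul γ))) * y) →
      ∀ v : Place ℂ (FK ℂ N), (p : ℤ) ∣ v.ord g)
    (hOrdQ : ∀ (f : modularFunctionFieldBar N) (y : MerH), f ≠ 0 → y ^ p = iota e f →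
      (∀ γ : Gamma0 N, tauE γ.1 y = Fermat.Agent.S42x.Kum.H12.cM (ζ ^ (b (Additive.ofMul γ))) * y) →
      ∀ v : Place (AlgebraicClosure ℚ) (modularFunctionFieldBar N), (p : ℤ) ∣ v.ord f) :
    ∃ x : JZero N, Fermat.Agent.S42x.Kum.H12.KumRel N p e ζ x b :=
  kex_of_char_baseF N p hp e ζ hζ b hb hOrdC hOrdQ
    (fun fC hf hdiv => Fermat.Agent.S42x.Desc.H26.h26_desc N p hp e fC hf hdiv)

end Fermat.Agent.S42x.Kum.H8
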